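/-
Programme FF, chapter S32 (helper5), file CHDense5: **the Cayley–Hamilton identity propagates from a set
of elements whose powers are dense**.

* `pow_ch` : `X² - t X + d = 0 ⟹ (X^j)² - V_j(t,d) X^j + d^j = 0` (Lucas sequence) in any algebra;
* `ch_of_dense` : `V` free of rank two over `T` with `ρ : G →* End_T V`, `M` a `T`-module separated for
  the `𝔪`-adic topology with `σ : G →* End_T M`; if `σ(φ)² - tr ρ(φ) σ(φ) + det ρ(φ) = 0` for `φ ∈ Φ` and
  the powers of the elements of `Φ` are dense for both actions, the identity holds for all `g`.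
-/
import Mathlib
import Fermat.Agent.ES.ALG.RelDense9
import Fermat.Agent.ES.ALG31.Lucas15
import Fermat.Agent.ES.ALG31.RankTwo1
import Fermat.Agent.ES.ALG31.TraceInv12

set_option autoImplicit false

namespace Fermat.Agent.FF.S32.CHDense5

open Fermat.Agent.ES.ALG.RelDense9 Fermat.Agent.ES.ALG31.Lucas15 Module

variable {T : Type*} [CommRing T]

section Pow

variable {E : Type*} [Ring E] [Algebra T E]

/-- Lucas: `X^j + (t - X)^j = V_j(t, d)` when `X² - t X + d = 0`. -/
theorem pow_add_pow {X : E} {t d : T} (h : X * X - t • X + d • (1 : E) = 0) (j : ℕ) :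
    X ^ j + (t • (1 : E) - X) ^ j = lucasV t d j • (1 : E) := by
  set X' : E := t • (1 : E) - X with hX'
  have hcomm : Commute X X' := by
    rw [hX']
    exact (Commute.smul_right (Commute.one_right X) t).sub_right (Commute.refl X)
  have hXX' : X * X' = d • (1 : E) := by
    rw [hX', mul_sub, mul_smul_comm, mul_one]
    rw [← sub_eq_zero, ← neg_eq_zero, ← h]
    abel
  have hsum : X + X' = t • (1 : E) := by rw [hX']; abel
  induction j using Nat.twoStepInduction with
  | zero => rw [pow_zero, pow_zero, lucasV_zero, two_smul]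
  | one => rw [pow_one, pow_one, lucasV_one, hsum]
  | more j h0 h1 =>
    have e : X ^ (j + 2) + X' ^ (j + 2) =
        (X + X') * (X ^ (j + 1) + X' ^ (j + 1)) - X * X' * (X ^ j + X' ^ j) := by
      have e1 : X' * X ^ (j + 1) = X * X' * X ^ j := by
        rw [pow_succ', ← mul_assoc, hcomm.eq]
      have e2 : X * X' ^ (j + 1) = X * X' * X' ^ j := by
        rw [pow_succ', ← mul_assoc]
      rw [add_mul, mul_add, mul_add, mul_add, e1, e2, ← pow_succ' X, ← pow_succ' X']
      abel
    rw [e, h0, h1, hsum, hXX', lucasV_add_two]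
    simp only [mul_smul_comm, mul_one, smul_smul, sub_smul, mul_comm]

/-- **Cayley–Hamilton for powers.** -/
theorem pow_ch {X : E} {t d : T} (h : X * X - t • X + d • (1 : E) = 0) (j : ℕ) :
    X ^ j * X ^ j - lucasV t d j • X ^ j + d ^ j • (1 : E) = 0 := by
  set X' : E := t • (1 : E) - X with hX'
  have hcomm : Commute X X' := by
    rw [hX']
    exact (Commute.smul_right (Commute.one_right X) t).sub_right (Commute.refl X)
  have hXX' : X * X' = d • (1 : E) := by
    rw [hX', mul_sub, mul_smul_comm, mul_one]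
    rw [← sub_eq_zero, ← neg_eq_zero, ← h]
    abel
  have h1 := pow_add_pow h j
  rw [← hX'] at h1
  have h2 : X ^ j * X' ^ j = d ^ j • (1 : E) := by
    rw [← hcomm.mul_pow, hXX', smul_pow, one_pow]
  have h3 : lucasV t d j • X ^ j = X ^ j * X ^ j + X ^ j * X' ^ j := by
    rw [← mul_add, h1, mul_smul_comm, mul_one]
  rw [h3, h2]
  abel

end Pow

section Dense

variable (𝔪 : Ideal T)
  {V : Type*} [AddCommGroup V] [Module T V] [Module.Free T V] [Module.Finite T V]
  {M : Type*} [AddCommGroup M] [Module T M]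
  {G : Type*} [Group G]

/-- congruent data give congruent Cayley–Hamilton expressions. -/
theorem endCongr_ch {I : Ideal T} {X Y : End T M} (h : EndCongr I X Y) {t t' d d' : T}
    (ht : t - t' ∈ I) (hd : d - d' ∈ I) :
    EndCongr I (X * X - t • X + d • (1 : End T M)) (Y * Y - t' • Y + d' • (1 : End T M)) := by
  have e1 : X * X - t • X + d • (1 : End T M) = X * X + (-t) • X + d • (1 : End T M) := by
    rw [neg_smul]; abel
  have e2 : Y * Y - t' • Y + d' • (1 : End T M) = Y * Y + (-t') • Y + d' • (1 : End T M) := by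
    rw [neg_smul]; abel
  rw [e1, e2]
  refine ((h.mul h).add (h.smul ?_)).add ((EndCongr.refl I 1).smul hd)
  have : -t - -t' = -(t - t') := by ring
  rw [this]
  exact I.neg_mem ht

theorem ch_of_dense [Nontrivial T] (h2 : Module.finrank T V = 2)
    (hsep : ∀ x : M, (∀ n, x ∈ 𝔪 ^ n • (⊤ : Submodule T M)) → x = 0)
    (ρ : G →* End T V) (σ : G →* End T M) (Φ : Set G)
    (hΦ : ∀ φ ∈ Φ, σ φ * σ φ - LinearMap.trace T V (ρ φ) • σ φ
      + LinearMap.det (ρ φ) • (1 : End T M) = 0)
    (hdense : ∀ (n : ℕ) (g : G), ∃ φ ∈ Φ, ∃ j : ℕ,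
      EndCongr (𝔪 ^ n) (ρ (g⁻¹ * φ ^ j)) 1 ∧ EndCongr (𝔪 ^ n) (σ (g⁻¹ * φ ^ j)) 1)
    (g : G) :
    σ g * σ g - LinearMap.trace T V (ρ g) • σ g + LinearMap.det (ρ g) • (1 : End T M) = 0 := by
  refine LinearMap.ext fun m => ?_
  rw [LinearMap.zero_apply]
  refine hsep _ fun n => ?_
  obtain ⟨φ, hφ, j, h1, h1'⟩ := hdense n g
  set h := g⁻¹ * φ ^ j with hh
  have hφj : φ ^ j = g * h := by rw [hh, mul_inv_cancel_left]
  -- congruences
  have c1 : EndCongr (𝔪 ^ n) (ρ g) (ρ (φ ^ j)) := by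
    rw [hφj, map_mul]
    have := (h1.mul_left (ρ g)).symm
    rwa [mul_one] at this
  have c2 : EndCongr (𝔪 ^ n) (σ g) (σ (φ ^ j)) := by
    rw [hφj, map_mul]
    have := (h1'.mul_left (σ g)).symm
    rwa [mul_one] at this
  have ct : LinearMap.trace T V (ρ g) - LinearMap.trace T V (ρ (φ ^ j)) ∈ 𝔪 ^ n :=
    Fermat.Agent.ES.ALG31.TraceInv12.trace_sub_mem_of_endCongr c1
  have cd : LinearMap.det (ρ g) - LinearMap.det (ρ (φ ^ j)) ∈ 𝔪 ^ n :=
    Fermat.Agent.ES.ALG31.RankTwo1.det_sub_det_mem (𝔪 ^ n) _ _ c1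
  -- the exact identity for `φ ^ j`
  have hex : σ (φ ^ j) * σ (φ ^ j) - LinearMap.trace T V (ρ (φ ^ j)) • σ (φ ^ j)
      + LinearMap.det (ρ (φ ^ j)) • (1 : End T M) = 0 := by
    rw [map_pow σ, map_pow ρ, trace_pow_end h2, map_pow]
    exact pow_ch (hΦ φ hφ) j
  have := endCongr_ch c2 ct cd m
  rw [hex, LinearMap.zero_apply, sub_zero] at this
  exact this

end Dense

end Fermat.Agent.FF.S32.CHDense5
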