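/-
Programme FF, chapter S32 (helper5), file CH2Alg5: **pure algebra of degree two Cayley–Hamilton
algebras**.

* `injective_of_polar` : let `B` be an algebra over a commutative ring `T` in which `2` is invertible,
  `ρ : B →ₐ[T] M₂(T)` a surjective algebra homomorphism such that the polarized Cayley–Hamilton identity
  `x y + y x - tr(ρ x) y - tr(ρ y) x - tr(ρ (x y)) + tr(ρ x) tr(ρ y) = 0` holds in `B`.  Then `ρ` is
  injective.
* `polar_of_ch` : the polarized identity for two invertible elements `X`, `Y` of a `T`-algebra from the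
  Cayley–Hamilton identities of `X`, `Y` and `X Y` with multiplicative "determinants".
-/
import Mathlib

set_option autoImplicit false

namespace Fermat.Agent.FF.S32.CH2Alg5

open Matrix

variable {T : Type*} [CommRing T] {B : Type*} [Ring B] [Algebra T B]

section Inj

variable (ρ : B →ₐ[T] Matrix (Fin 2) (Fin 2) T)

/-- the hypothesis: polarized Cayley–Hamilton identity with respect to `tr ∘ ρ`. -/
def Polar : Prop :=
  ∀ x y : B, x * y + y * x - (ρ x).trace • y - (ρ y).trace • x
    - (ρ (x * y)).trace • (1 : B) + ((ρ x).trace * (ρ y).trace) • (1 : B) = 0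

variable {ρ}

theorem Polar.ker_anticomm (hP : Polar ρ) {z : B} (hz : ρ z = 0) (y : B) :
    z * y + y * z = (ρ y).trace • z := by
  have := hP z y
  rw [map_mul, hz, zero_mul, Matrix.trace_zero, zero_smul, zero_smul, zero_mul, zero_smul,
    sub_zero, sub_zero, add_zero] at this
  exact sub_eq_zero.mp this

theorem Polar.idem [Invertible (2 : T)] (hP : Polar ρ) {e : B} (he : ρ e = !![1, 0; 0, 0]) :
    e * e = e := by
  have h := hP e e
  have h1 : (ρ e).trace = 1 := by rw [he, Matrix.trace_fin_two_of, add_zero]
  have h2 : (ρ (e * e)).trace = 1 := by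
    rw [map_mul, he, Matrix.mul_fin_two, Matrix.trace_fin_two_of]
    simp
  rw [h1, h2, one_smul, one_smul, mul_one, one_smul, sub_add_cancel] at h
  have h3 : (2 : T) • (e * e - e) = 0 := by
    rw [two_smul]
    rw [← h]
    abel
  have := congrArg (fun w => (⅟(2 : T)) • w) h3
  simpa [smul_smul, sub_eq_zero] using this

/-- Peirce components of kernel elements: `e z e = 0` and `f z f = 0` for `f = 1 - e`. -/
theorem Polar.peirce (hP : Polar ρ) {e : B} (he : ρ e = !![1, 0; 0, 0]) (hee : e * e = e)
    {z : B} (hz : ρ z = 0) : e * z * e = 0 ∧ (1 - e) * z * (1 - e) = 0 := by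
  have h1 : (ρ e).trace = 1 := by rw [he, Matrix.trace_fin_two_of, add_zero]
  have h := hP.ker_anticomm hz e
  rw [h1, one_smul] at h
  -- `z e + e z = z`
  have hA : e * z * e = 0 := by
    have := congrArg (fun w => e * w) h
    simp only [mul_add, ← mul_assoc, hee] at this
    -- `e z e + e z = e z`
    exact add_eq_right.mp this
  refine ⟨hA, ?_⟩
  have hB : z * e = z - e * z := eq_sub_of_add_eq h
  calc (1 - e) * z * (1 - e) = z - e * z - z * e + e * z * e := by
        simp only [sub_mul, mul_sub, one_mul, mul_one, mul_assoc]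
        abel
    _ = 0 := by rw [hA, hB]; abel

/-- **Injectivity.** -/
theorem injective_of_polar [Invertible (2 : T)] (hsurj : Function.Surjective ρ) (hP : Polar ρ) :
    Function.Injective ρ := by
  rw [injective_iff_map_eq_zero]
  obtain ⟨e, he⟩ := hsurj !![1, 0; 0, 0]
  obtain ⟨a₀, ha₀⟩ := hsurj !![0, 0; 1, 0]
  obtain ⟨b₀, hb₀⟩ := hsurj !![0, 1; 0, 0]
  have hee : e * e = e := hP.idem he
  set f : B := 1 - e with hf
  have hfe : f * e = 0 := by rw [hf, sub_mul, one_mul, hee, sub_self]
  have hef : e * f = 0 := by rw [hf, mul_sub, mul_one, hee, sub_self]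
  have hff : f * f = f := by rw [hf, mul_sub, mul_one, ← hf, hfe, sub_zero]
  have hρf : ρ f = !![0, 0; 0, 1] := by
    rw [hf, map_sub, map_one, he, Matrix.one_fin_two]
    ext i j
    fin_cases i <;> fin_cases j <;> simp
  have hpe : ∀ z : B, ρ z = 0 → e * z * e = 0 := fun z hz => (hP.peirce he hee hz).1
  have hpf : ∀ z : B, ρ z = 0 → f * z * f = 0 := fun z hz => (hP.peirce he hee hz).2
  set a : B := f * a₀ * e with ha
  set b : B := e * b₀ * f with hb
  set c : B := a * b + b * a with hc
  have hρc : ρ c = 1 := by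
    rw [hc, ha, hb]
    simp only [map_add, map_mul, he, hρf, ha₀, hb₀, Matrix.mul_fin_two, Matrix.one_fin_two]
    ext i j
    fin_cases i <;> fin_cases j <;> simp
  have hz'' : ρ (c - 1) = 0 := by rw [map_sub, hρc, map_one, sub_self]
  have hea : e * a = 0 := by rw [ha, ← mul_assoc, ← mul_assoc, hef, zero_mul, zero_mul]
  have hfb : f * b = 0 := by rw [hb, ← mul_assoc, ← mul_assoc, hfe, zero_mul, zero_mul]
  have hone : e + f = 1 := by rw [hf]; abel
  intro z hz
  -- the off-diagonal Peirce components vanish
  have hu : e * z * f = 0 := by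
    have h1 : e * z * f * c = 0 := by
      have e1 : e * z * f * (a * b) = e * (z * (f * f * a₀)) * e * b := by
        rw [ha]; simp only [mul_assoc]
      have e2 : e * z * f * (b * a) = 0 := by
        rw [← mul_assoc (e * z * f) b a, mul_assoc (e * z) f b, hfb, mul_zero, zero_mul]
      rw [hc, mul_add, e1, e2, hpe _ (by rw [map_mul, hz, zero_mul]), zero_mul, add_zero]
    have h2 : e * z * f * (c - 1) = 0 := by
      have e1 : e * z * f * (c - 1) = e * z * f * (c - 1) * (e + f) := by rw [hone, mul_one]
      rw [e1, mul_add]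
      have e3 : e * z * f * (c - 1) * e = e * (z * f * (c - 1)) * e := by simp only [mul_assoc]
      have e4 : e * z * f * (c - 1) * f = e * z * (f * (c - 1) * f) := by simp only [mul_assoc]
      rw [e3, e4, hpe _ (by rw [map_mul, map_mul, hz, zero_mul, zero_mul]), hpf _ hz'', mul_zero,
        add_zero]
    have : e * z * f * c - e * z * f * (c - 1) = e * z * f := by
      rw [← mul_sub, sub_sub_cancel, mul_one]
    rw [← this, h1, h2, sub_zero]
  have hu' : f * z * e = 0 := by
    have h1 : f * z * e * c = 0 := by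
      have e1 : f * z * e * (a * b) = 0 := by
        rw [← mul_assoc (f * z * e) a b, mul_assoc (f * z) e a, hea, mul_zero, zero_mul]
      have e2 : f * z * e * (b * a) = f * (z * (e * e * b₀)) * f * a := by
        rw [hb]; simp only [mul_assoc]
      rw [hc, mul_add, e1, e2, hpf _ (by rw [map_mul, hz, zero_mul]), zero_mul, add_zero]
    have h2 : f * z * e * (c - 1) = 0 := by
      have e1 : f * z * e * (c - 1) = f * z * e * (c - 1) * (e + f) := by rw [hone, mul_one]
      rw [e1, mul_add]
      have e3 : f * z * e * (c - 1) * e = f * z * (e * (c - 1) * e) := by simp only [mul_assoc]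
      have e4 : f * z * e * (c - 1) * f = f * (z * e * (c - 1)) * f := by simp only [mul_assoc]
      rw [e3, e4, hpf _ (by rw [map_mul, map_mul, hz, zero_mul, zero_mul]), hpe _ hz'', mul_zero,
        zero_add]
    have : f * z * e * c - f * z * e * (c - 1) = f * z * e := by
      rw [← mul_sub, sub_sub_cancel, mul_one]
    rw [← this, h1, h2, sub_zero]
  calc z = (e + f) * z * (e + f) := by rw [hone, one_mul, mul_one]
    _ = e * z * e + e * z * f + (f * z * e + f * z * f) := by
        simp only [add_mul, mul_add]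
        abel
    _ = 0 := by rw [hpe z hz, hpf z hz, hu, hu']; simp

end Inj

section Group

variable {E : Type*} [Ring E] [Algebra T E]

/-- the polarized identity for two units from the Cayley–Hamilton identities of `X`, `Y`, `X Y`. -/
theorem polar_of_ch {X Y : E} (hX : IsUnit X) (hY : IsUnit Y) {tX tY tXY dX dY : T}
    (chX : X * X - tX • X + dX • (1 : E) = 0) (chY : Y * Y - tY • Y + dY • (1 : E) = 0)
    (chXY : X * Y * (X * Y) - tXY • (X * Y) + (dX * dY) • (1 : E) = 0) :
    X * Y + Y * X - tX • Y - tY • X - tXY • (1 : E) + (tX * tY) • (1 : E) = 0 := by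
  have h1 : X * (tX • (1 : E) - X) = dX • (1 : E) := by
    rw [mul_sub, mul_smul_comm, mul_one]
    have := chX
    rw [sub_add_eq_add_sub, sub_eq_zero] at this
    rw [← sub_eq_zero]
    rw [← sub_eq_zero] at this
    rw [← neg_eq_zero, ← this]
    abel
  have h2 : Y * (tY • (1 : E) - Y) = dY • (1 : E) := by
    rw [mul_sub, mul_smul_comm, mul_one]
    have := chY
    rw [sub_add_eq_add_sub, sub_eq_zero] at this
    rw [← sub_eq_zero]
    rw [← sub_eq_zero] at this
    rw [← neg_eq_zero, ← this]
    abel
  have h3 : X * Y * (tXY • (1 : E) - X * Y) = (dX * dY) • (1 : E) := by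
    rw [mul_sub, mul_smul_comm, mul_one]
    have := chXY
    rw [sub_add_eq_add_sub, sub_eq_zero] at this
    rw [← sub_eq_zero]
    rw [← sub_eq_zero] at this
    rw [← neg_eq_zero, ← this]
    abel
  have h4 : X * Y * ((tY • (1 : E) - Y) * (tX • (1 : E) - X)) = (dX * dY) • (1 : E) := by
    rw [mul_assoc X Y, ← mul_assoc Y, h2, smul_mul_assoc, one_mul, mul_smul_comm, h1, smul_smul,
      mul_comm dY dX]
  have h5 : tXY • (1 : E) - X * Y = (tY • (1 : E) - Y) * (tX • (1 : E) - X) :=
    (hX.mul hY).mul_left_cancel (h3.trans h4.symm)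
  have h6 : (tY • (1 : E) - Y) * (tX • (1 : E) - X) =
      (tX * tY) • (1 : E) - tY • X - tX • Y + Y * X := by
    simp only [sub_mul, mul_sub, smul_mul_assoc, mul_smul_comm, one_mul, mul_one]
    module
  rw [h6] at h5
  rw [← sub_eq_zero] at h5
  rw [← neg_eq_zero, ← h5]
  abel

end Group

end Fermat.Agent.FF.S32.CH2Alg5
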