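/-
Programme FF, chapter S32 (helper5), file Embed5: **a rank two representation embeds into every faithful
module with the same Cayley–Hamilton identities**.

`T` a commutative ring with `2` invertible, `V` free of rank two with `ρ : G →* End_T V` such that
`span_T (range ρ) = End_T V`; `M` a faithful `T`-module with `σ : G →* End_T M` such that
`σ(g)² - tr ρ(g) σ(g) + det ρ(g) = 0` for all `g`.  Then there is an injective `T`-linear map
`J : V → End_T M` with `J (ρ g v) = σ g ∘ J v` (`exists_embedding`); evaluating at generators of `M`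
gives an equivariant embedding `V ↪ M^r`.
-/
import Mathlib
import Fermat.Agent.FF.S32.CH2Alg5
import Fermat.Agent.ES.ALG31.RankTwo1

set_option autoImplicit false

namespace Fermat.Agent.FF.S32.Embed5

open Fermat.Agent.FF.S32.CH2Alg5

variable {T : Type*} [CommRing T]
  {V : Type*} [AddCommGroup V] [Module T V]
  {M : Type*} [AddCommGroup M] [Module T M]
  {G : Type*} [Group G]

section Bilin

variable {E : Type*} [Ring E] [Algebra T E] (τ : E →ₗ[T] T)

/-- the polarized Cayley–Hamilton expression as a bilinear map. -/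
def polarB : E →ₗ[T] E →ₗ[T] E :=
  LinearMap.mk₂ T
    (fun x y => x * y + y * x - τ x • y - τ y • x - τ (x * y) • (1 : E) + (τ x * τ y) • (1 : E))
    (fun x x' y => by
      simp only [add_mul, mul_add, map_add, add_smul, smul_add]
      abel)
    (fun c x y => by
      simp only [smul_mul_assoc, mul_smul_comm, map_smul, smul_eq_mul, mul_assoc]
      module)
    (fun x y y' => by
      simp only [add_mul, mul_add, map_add, add_smul, smul_add]
      abel)
    (fun c x y => by
      simp only [smul_mul_assoc, mul_smul_comm, map_smul, smul_eq_mul]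
      module)

theorem polarB_apply (x y : E) :
    polarB τ x y =
      x * y + y * x - τ x • y - τ y • x - τ (x * y) • (1 : E) + (τ x * τ y) • (1 : E) := rfl

/-- a bilinear map vanishing on a set vanishes on its span. -/
theorem bilin_eq_zero_of_span {N N' : Type*} [AddCommGroup N] [Module T N] [AddCommGroup N']
    [Module T N'] (P : N →ₗ[T] N →ₗ[T] N') (s : Set N) (h : ∀ x ∈ s, ∀ y ∈ s, P x y = 0)
    {x y : N} (hx : x ∈ Submodule.span T s) (hy : y ∈ Submodule.span T s) : P x y = 0 := by
  have h1 : ∀ x ∈ s, ∀ y ∈ Submodule.span T s, P x y = 0 := by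
    intro x hx y hy
    have : Submodule.span T s ≤ LinearMap.ker (P x) :=
      Submodule.span_le.mpr fun y hy => LinearMap.mem_ker.mpr (h x hx y hy)
    exact LinearMap.mem_ker.mp (this hy)
  have : Submodule.span T s ≤ LinearMap.ker (P.flip y) :=
    Submodule.span_le.mpr fun x hx => LinearMap.mem_ker.mpr (by
      rw [LinearMap.flip_apply]
      exact h1 x hx y hy)
  have := LinearMap.mem_ker.mp (this hx)
  rwa [LinearMap.flip_apply] at this

end Bilin

section Main

/-- the matrix with first column the coordinates of `v` and second column zero. -/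
noncomputable def colMat (b : Module.Basis (Fin 2) T V) : V →ₗ[T] Matrix (Fin 2) (Fin 2) T where
  toFun v := Matrix.of fun i j => if j = 0 then b.repr v i else 0
  map_add' v w := by
    ext i j
    by_cases hj : j = 0 <;> simp [hj]
  map_smul' c v := by
    ext i j
    by_cases hj : j = 0 <;> simp [hj]

theorem colMat_apply (b : Module.Basis (Fin 2) T V) (v : V) (i j : Fin 2) :
    colMat b v i j = if j = 0 then b.repr v i else 0 := rfl

theorem colMat_map (b : Module.Basis (Fin 2) T V) (f : Module.End T V) (v : V) :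
    colMat b (f v) = LinearMap.toMatrixAlgEquiv b f * colMat b v := by
  ext i j
  rw [Matrix.mul_apply, colMat_apply]
  by_cases hj : j = 0
  · simp only [hj, if_true, colMat_apply]
    have := congrFun (LinearMap.toMatrix_mulVec_repr b b f v) i
    rw [← this, Matrix.mulVec, dotProduct]
    rfl
  · simp [colMat_apply, hj]

variable [Module.Free T V] [Module.Finite T V]

theorem exists_embedding [Nontrivial T] [Invertible (2 : T)] (h2 : Module.finrank T V = 2)
    (ρ : G →* Module.End T V) (σ : G →* Module.End T M)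
    (hspan : Submodule.span T (Set.range ρ) = ⊤)
    (hCH : ∀ g, σ g * σ g - LinearMap.trace T V (ρ g) • σ g
      + LinearMap.det (ρ g) • (1 : Module.End T M) = 0)
    (hfaith : ∀ a : T, (∀ m : M, a • m = 0) → a = 0) :
    ∃ J : V →ₗ[T] Module.End T M, Function.Injective J ∧ ∀ g v, J (ρ g v) = σ g * J v := by
  classical
  let b : Module.Basis (Fin 2) T V := Module.finBasisOfFinrankEq T V h2
  let E := Module.End T V × Module.End T M
  let β : G →* E := ρ.prod σ
  let Bsub : Subalgebra T E := Algebra.adjoin T (Set.range β)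
  have hβmem : ∀ g, β g ∈ Bsub := fun g => Algebra.subset_adjoin ⟨g, rfl⟩
  have hBspan : ∀ x ∈ Bsub, x ∈ Submodule.span T (Set.range β) := by
    intro x hx
    have h1 : x ∈ Subalgebra.toSubmodule Bsub := hx
    rw [Algebra.adjoin_eq_span] at h1
    have h2 : (Submonoid.closure (Set.range β) : Set E) = Set.range β := by
      rw [← MonoidHom.coe_mrange, Submonoid.closure_eq]
    rwa [h2] at h1
  let τ : E →ₗ[T] T := (LinearMap.trace T V).comp (LinearMap.fst T _ _)
  -- the polarized identity on `Bsub`
  have hPgen : ∀ x ∈ Set.range β, ∀ y ∈ Set.range β, polarB τ x y = 0 := by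
    rintro _ ⟨g, rfl⟩ _ ⟨h, rfl⟩
    rw [polarB_apply]
    have hunit : ∀ g, IsUnit (β g) := fun g =>
      ⟨⟨β g, β g⁻¹, by rw [← map_mul, mul_inv_cancel, map_one],
        by rw [← map_mul, inv_mul_cancel, map_one]⟩, rfl⟩
    have hch : ∀ g, β g * β g - LinearMap.trace T V (ρ g) • β g
        + LinearMap.det (ρ g) • (1 : E) = 0 := by
      intro g
      refine Prod.ext ?_ ?_
      · show ρ g * ρ g - LinearMap.trace T V (ρ g) • ρ g
          + LinearMap.det (ρ g) • (1 : Module.End T V) = 0
        rw [Fermat.Agent.ES.ALG31.RankTwo1.sq_eq h2 (ρ g)]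
        abel
      · exact hCH g
    have hτ : ∀ g, τ (β g) = LinearMap.trace T V (ρ g) := fun g => rfl
    have hgh := hch (g * h)
    rw [map_mul β g h, map_mul ρ g h, map_mul LinearMap.det] at hgh
    have := polar_of_ch (hunit g) (hunit h) (hch g) (hch h)
      (tXY := LinearMap.trace T V (ρ g * ρ h)) hgh
    exact this
  have hP : ∀ x ∈ Bsub, ∀ y ∈ Bsub, polarB τ x y = 0 := fun x hx y hy =>
    bilin_eq_zero_of_span (polarB τ) (Set.range β) hPgen (hBspan x hx) (hBspan y hy)
  -- the algebra map `Bsub → M₂(T)`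
  let ρB : ↥Bsub →ₐ[T] Matrix (Fin 2) (Fin 2) T :=
    (LinearMap.toMatrixAlgEquiv b).toAlgHom.comp ((AlgHom.fst T _ _).comp Bsub.val)
  have hρB : ∀ x : ↥Bsub, ρB x = LinearMap.toMatrixAlgEquiv b (x : E).1 := fun x => rfl
  have htr : ∀ x : ↥Bsub, (ρB x).trace = τ (x : E) := by
    intro x
    rw [hρB]
    show _ = LinearMap.trace T V (x : E).1
    rw [LinearMap.trace_eq_matrix_trace T b]
    rfl
  have hsurj : Function.Surjective ρB := by
    intro m
    have h1 : (LinearMap.toMatrixAlgEquiv b).symm m ∈
        (Subalgebra.toSubmodule Bsub).map (LinearMap.fst T _ _) := by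
      have : Submodule.span T (Set.range ρ) ≤
          (Subalgebra.toSubmodule Bsub).map (LinearMap.fst T _ _) := by
        refine Submodule.span_le.mpr ?_
        rintro _ ⟨g, rfl⟩
        exact ⟨β g, hβmem g, rfl⟩
      exact this (hspan ▸ Submodule.mem_top)
    obtain ⟨x, hx, hx'⟩ := h1
    refine ⟨⟨x, hx⟩, ?_⟩
    rw [hρB]
    show LinearMap.toMatrixAlgEquiv b x.1 = m
    have : x.1 = (LinearMap.toMatrixAlgEquiv b).symm m := hx'
    rw [this, AlgEquiv.apply_symm_apply]
  have hPolar : Polar ρB := by
    intro x y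
    apply Subtype.ext
    have := hP x x.2 y y.2
    rw [polarB_apply] at this
    rw [htr x, htr y, htr (x * y)]
    simpa using this
  have hinj : Function.Injective ρB := injective_of_polar hsurj hPolar
  let eB : ↥Bsub ≃ₐ[T] Matrix (Fin 2) (Fin 2) T := AlgEquiv.ofBijective ρB ⟨hinj, hsurj⟩
  let Φ : Matrix (Fin 2) (Fin 2) T →ₐ[T] Module.End T M :=
    ((AlgHom.snd T _ _).comp Bsub.val).comp eB.symm.toAlgHom
  have hΦ : ∀ g, Φ (LinearMap.toMatrixAlgEquiv b (ρ g)) = σ g := by
    intro g
    have h1 : eB ⟨β g, hβmem g⟩ = LinearMap.toMatrixAlgEquiv b (ρ g) := rfl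
    have h2 : eB.symm (LinearMap.toMatrixAlgEquiv b (ρ g)) = ⟨β g, hβmem g⟩ := by
      rw [← h1, AlgEquiv.symm_apply_apply]
    show ((eB.symm (LinearMap.toMatrixAlgEquiv b (ρ g)) : ↥Bsub) : E).2 = σ g
    rw [h2]
    rfl
  refine ⟨Φ.toLinearMap.comp (colMat b), ?_, ?_⟩
  · rw [injective_iff_map_eq_zero]
    intro v hv
    have hv' : Φ (colMat b v) = 0 := hv
    -- scalars killed by `Φ` vanish
    have hscal : ∀ a : T, Φ (a • (!![1, 0; 0, 0] : Matrix (Fin 2) (Fin 2) T)) = 0 → a = 0 := by
      intro a ha
      refine hfaith a fun m => ?_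
      have e1 : a • (1 : Matrix (Fin 2) (Fin 2) T) =
          !![1, 0; 0, 0] * (a • !![1, 0; 0, 0]) * !![1, 0; 0, 0]
            + !![0, 0; 1, 0] * (a • !![1, 0; 0, 0]) * !![0, 1; 0, 0] := by
        ext i j
        fin_cases i <;> fin_cases j <;> simp [Matrix.one_fin_two]
      have e2 : Φ (a • (1 : Matrix (Fin 2) (Fin 2) T)) = 0 := by
        rw [e1, map_add, map_mul, map_mul, map_mul, map_mul, ha]
        simp
      rw [map_smul, map_one] at e2
      have := LinearMap.congr_fun e2 m
      simpa using this
    have h0 : b.repr v 0 = 0 := by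
      apply hscal
      have e1 : b.repr v 0 • (!![1, 0; 0, 0] : Matrix (Fin 2) (Fin 2) T) =
          !![1, 0; 0, 0] * colMat b v := by
        ext i j
        fin_cases i <;> fin_cases j <;> simp [colMat_apply, Matrix.mul_apply, Fin.sum_univ_two]
      rw [e1, map_mul, hv', mul_zero]
    have h1 : b.repr v 1 = 0 := by
      apply hscal
      have e1 : b.repr v 1 • (!![1, 0; 0, 0] : Matrix (Fin 2) (Fin 2) T) =
          !![0, 1; 0, 0] * colMat b v := by
        ext i j
        fin_cases i <;> fin_cases j <;> simp [colMat_apply, Matrix.mul_apply, Fin.sum_univ_two]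
      rw [e1, map_mul, hv', mul_zero]
    apply b.repr.injective
    ext i
    fin_cases i
    · simpa using h0
    · simpa using h1
  · intro g v
    show Φ (colMat b (ρ g v)) = σ g * Φ (colMat b v)
    rw [colMat_map, map_mul, hΦ]

end Main

end Fermat.Agent.FF.S32.Embed5
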