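/-
Programme FF, chapter S32 (helper5), file FaithTensor5: **every character of a ring acting faithfully on a
finitely generated module occurs in the module**.

`R` a commutative ring, `Λ` a finitely generated faithful `R`-module, `χ : R →+* κ` a ring homomorphism
to a field.  Then there is a non-zero additive map `g : Λ → κ` with `g (r • x) = χ r * g x`
(`exists_eigen_functional`): `κ(𝔭) ⊗_R Λ ≠ 0` for `𝔭 = ker χ` (support = zero locus of the annihilator),
a non-zero functional on it, and the embedding `κ(𝔭) ↪ κ`.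
-/
import Mathlib

set_option autoImplicit false

namespace Fermat.Agent.FF.S32.FaithTensor5

open TensorProduct

variable {R : Type*} [CommRing R] {Λ : Type*} [AddCommGroup Λ] [Module R Λ] [Module.Finite R Λ]

theorem exists_eigen_functional (hfaith : ∀ r : R, (∀ x : Λ, r • x = 0) → r = 0)
    {κ : Type*} [Field κ] (χ : R →+* κ) :
    ∃ g : Λ →+ κ, (∃ x, g x ≠ 0) ∧ ∀ (r : R) (x : Λ), g (r • x) = χ r * g x := by
  classical
  set 𝔭 : Ideal R := RingHom.ker χ with h𝔭
  have : 𝔭.IsPrime := RingHom.ker_isPrime χ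
  let K := 𝔭.ResidueField
  -- `𝔭` lies in the support
  have hann : Module.annihilator R Λ = ⊥ := by
    rw [eq_bot_iff]
    intro r hr
    rw [Module.mem_annihilator] at hr
    exact (Submodule.mem_bot R).mpr (hfaith r hr)
  have hsupp : (⟨𝔭, inferInstance⟩ : PrimeSpectrum R) ∈ Module.support R Λ := by
    rw [Module.support_eq_zeroLocus, hann]
    simp
  have hnt : Nontrivial (K ⊗[R] Λ) :=
    (Module.mem_support_iff_nontrivial_residueField_tensorProduct
      (⟨𝔭, inferInstance⟩ : PrimeSpectrum R)).mp hsupp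
  -- a pure tensor `1 ⊗ x ≠ 0`
  have hx : ∃ x : Λ, (1 : K) ⊗ₜ[R] x ≠ 0 := by
    by_contra hcon
    push Not at hcon
    have : ∀ z : K ⊗[R] Λ, z = 0 := by
      intro z
      induction z using TensorProduct.induction_on with
      | zero => rfl
      | tmul a x =>
        have : a ⊗ₜ[R] x = a • ((1 : K) ⊗ₜ[R] x) := by
          rw [TensorProduct.smul_tmul', smul_eq_mul, mul_one]
        rw [this, hcon x, smul_zero]
      | add z w hz hw => rw [hz, hw, add_zero]
    obtain ⟨a, b, hab⟩ := hnt.exists_pair_ne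
    exact hab ((this a).trans (this b).symm)
  obtain ⟨x₀, hx₀⟩ := hx
  obtain ⟨lam, hlam⟩ : ∃ lam : Module.Dual K (K ⊗[R] Λ), lam ((1 : K) ⊗ₜ[R] x₀) ≠ 0 := by
    by_contra hcon
    push Not at hcon
    exact hx₀ ((Module.forall_dual_apply_eq_zero_iff K _).mp hcon)
  -- the embedding `K → κ`
  let ι : K →+* κ := Ideal.ResidueField.lift 𝔭 χ le_rfl (by
    intro r hr
    rw [Submonoid.mem_comap]
    exact (isUnit_iff_ne_zero.mpr fun h => hr ((RingHom.mem_ker (f := χ)).mpr h)))
  have hι : ∀ r : R, ι (algebraMap R K r) = χ r := fun r =>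
    Ideal.ResidueField.lift_algebraMap 𝔭 χ _ _ r
  let g₀ : Λ →ₗ[R] K := (lam.restrictScalars R).comp (TensorProduct.mk R K Λ 1)
  have hg₀ : ∀ x, g₀ x = lam ((1 : K) ⊗ₜ[R] x) := fun x => rfl
  refine ⟨(ι : K →+ κ).comp g₀.toAddMonoidHom, ⟨x₀, ?_⟩, ?_⟩
  · show ι (g₀ x₀) ≠ 0
    rw [hg₀]
    exact (map_ne_zero ι).mpr hlam
  · intro r x
    show ι (g₀ (r • x)) = χ r * ι (g₀ x)
    rw [map_smul, Algebra.smul_def, map_mul, hι]

end Fermat.Agent.FF.S32.FaithTensor5
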