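/-
Programme FF, chapter S32 (helper5), file HeckeQuot5: **the quotient of a representation by Hecke
relations**.

`W` a `T`-module with `ρW : G →* End_T W`, commuting operators `t i ∈ End_T W` (commuting with `G`) and
scalars `c i ∈ T`.  `rel t c := Σ_i range (t i - c i)`, `W ⧸ rel t c` carries the induced action
`quotRep`, on which `t i` acts as `c i`; quadratic relations and congruences descend, and a `T`-linear map
`f : W → E` with `f ∘ t i = c i • f` factors through the quotient.
-/
import Mathlib
import Fermat.Agent.ES.ALG.RelDense9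

set_option autoImplicit false

namespace Fermat.Agent.FF.S32.HeckeQuot5

open Fermat.Agent.ES.ALG.RelDense9 Module

variable {T : Type*} [CommRing T] {W : Type*} [AddCommGroup W] [Module T W]
  {G : Type*} [Group G] {ι : Type*}
  (ρW : G →* End T W) (t : ι → End T W) (c : ι → T)

/-- the submodule of Hecke relations. -/
def rel : Submodule T W := ⨆ i, LinearMap.range (t i - c i • (1 : End T W))

theorem sub_mem_rel (i : ι) (w : W) : t i w - c i • w ∈ rel t c := by
  refine Submodule.mem_iSup_of_mem i ⟨w, ?_⟩
  rw [LinearMap.sub_apply, LinearMap.smul_apply, Module.End.one_apply]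

variable {ρW t}

theorem rel_le_comap (hcomm : ∀ g i, Commute (ρW g) (t i)) (g : G) :
    rel t c ≤ (rel t c).comap (ρW g) := by
  refine iSup_le fun i => ?_
  rintro _ ⟨w, rfl⟩
  rw [Submodule.mem_comap]
  have h : ρW g (t i w) = t i (ρW g w) := by
    have := congrArg (fun F : End T W => F w) (hcomm g i).eq
    simpa [Module.End.mul_apply] using this
  have e : ρW g ((t i - c i • (1 : End T W)) w) = t i (ρW g w) - c i • ρW g w := by
    rw [LinearMap.sub_apply, LinearMap.smul_apply, Module.End.one_apply, map_sub, map_smul, h]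
  rw [e]
  exact sub_mem_rel t c i _

/-- the induced representation on the quotient. -/
def quotRep (hcomm : ∀ g i, Commute (ρW g) (t i)) : G →* End T (W ⧸ rel t c) where
  toFun g := (rel t c).mapQ (rel t c) (ρW g) (rel_le_comap c hcomm g)
  map_one' := by
    refine LinearMap.ext fun x => ?_
    obtain ⟨w, rfl⟩ := Submodule.Quotient.mk_surjective _ x
    rw [Submodule.mapQ_apply, map_one, Module.End.one_apply, Module.End.one_apply]
  map_mul' g h := by
    refine LinearMap.ext fun x => ?_
    obtain ⟨w, rfl⟩ := Submodule.Quotient.mk_surjective _ x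
    rw [Module.End.mul_apply, Submodule.mapQ_apply, Submodule.mapQ_apply, Submodule.mapQ_apply,
      map_mul, Module.End.mul_apply]

variable (hcomm : ∀ g i, Commute (ρW g) (t i))

@[simp]
theorem quotRep_mk (g : G) (w : W) :
    quotRep c hcomm g (Submodule.Quotient.mk w) = Submodule.Quotient.mk (ρW g w) := rfl

theorem mk_t (i : ι) (w : W) :
    (Submodule.Quotient.mk (t i w) : W ⧸ rel t c) = c i • Submodule.Quotient.mk w := by
  rw [← Submodule.Quotient.mk_smul, Submodule.Quotient.eq]
  exact sub_mem_rel t c i w

/-- quadratic relations descend, with `t i` replaced by `c i`. -/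
theorem quotRep_quadratic (g : G) (i : ι) (n : T)
    (h : ρW g * ρW g - t i * ρW g + n • (1 : End T W) = 0) :
    quotRep c hcomm g * quotRep c hcomm g - c i • quotRep c hcomm g
      + n • (1 : End T (W ⧸ rel t c)) = 0 := by
  refine LinearMap.ext fun x => ?_
  obtain ⟨w, rfl⟩ := Submodule.Quotient.mk_surjective _ x
  have h' := congrArg (fun F : End T W => (Submodule.Quotient.mk (F w) : W ⧸ rel t c)) h
  simp only [LinearMap.add_apply, LinearMap.sub_apply, Module.End.mul_apply, LinearMap.smul_apply,
    Module.End.one_apply, LinearMap.zero_apply, Submodule.Quotient.mk_add,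
    Submodule.Quotient.mk_sub, Submodule.Quotient.mk_smul, Submodule.Quotient.mk_zero, mk_t] at h'
  simpa using h'

/-- congruences descend. -/
theorem quotRep_congr (I : Ideal T) (g : G) (h : EndCongr I (ρW g) 1) :
    EndCongr I (quotRep c hcomm g) 1 := by
  intro x
  obtain ⟨w, rfl⟩ := Submodule.Quotient.mk_surjective _ x
  rw [quotRep_mk, Module.End.one_apply, ← Submodule.Quotient.mk_sub]
  have h1 := h w
  rw [Module.End.one_apply] at h1
  have : (I • (⊤ : Submodule T W)).map (rel t c).mkQ ≤ I • (⊤ : Submodule T (W ⧸ rel t c)) := by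
    rw [Submodule.map_smul'']
    exact Submodule.smul_mono le_rfl le_top
  exact this ⟨_, h1, rfl⟩

/-- the universal property. -/
def descend {E : Type*} [AddCommGroup E] [Module T E] (f : W →ₗ[T] E)
    (hf : ∀ i w, f (t i w) = c i • f w) : (W ⧸ rel t c) →ₗ[T] E :=
  (rel t c).liftQ f (by
    refine iSup_le fun i => ?_
    rintro _ ⟨w, rfl⟩
    rw [LinearMap.mem_ker, LinearMap.sub_apply, LinearMap.smul_apply, Module.End.one_apply,
      map_sub, map_smul, hf, sub_self])

@[simp]
theorem descend_mk {E : Type*} [AddCommGroup E] [Module T E] (f : W →ₗ[T] E)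
    (hf : ∀ i w, f (t i w) = c i • f w) (w : W) :
    descend c f hf (Submodule.Quotient.mk w) = f w := rfl

end Fermat.Agent.FF.S32.HeckeQuot5
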