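/-
Programme FF, chapter S32 (helper5), file HeckeMod5: **the Hecke–Galois module** (abstract core).

Data: a ring `R` acting faithfully on a finitely generated abelian group `Λ` (`hL`), a base change
`ι₀ : Λ → M₀` to a `ℤ_[p]`-module with a representation `ρM` of `G` and commuting operators `tM i`
intertwined with `hL (gen i)`; a `ℤ_[p]`-algebra `T` and `π : R →+* T`.

`HMod := (T ⊗[ℤ_[p]] M₀) ⧸ rel`, the largest quotient on which `tM i` acts as `π (gen i)`, with the
induced representation `sigma`.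

* `faithful` : if `T` is reduced and `hL` is injective, `HMod` is a faithful `T`-module;
* `sigma_quadratic` : Eichler–Shimura relations descend to `HMod`;
* `sigma_congr` : `p`-adic congruences of `ρM` give `𝔪`-adic congruences of `sigma`;
* `mkW`, `mkW_surjective`, `sigma_mkW` : the equivariant surjection `T ⊗ M₀ → HMod`.
-/
import Mathlib
import Fermat.Agent.ES.J.BaseChangeRep8
import Fermat.Agent.FF.S32.HeckeQuot5
import Fermat.Agent.FF.S32.FaithTensor5

set_option autoImplicit false

namespace Fermat.Agent.FF.S32.HeckeMod5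

open TensorProduct Module Fermat.Agent.ES.ALG.RelDense9 Fermat.Agent.ES.J.BaseChangeRep8
  Fermat.Agent.FF.S32.HeckeQuot5

variable {p : ℕ} [Fact p.Prime]
  {M₀ : Type} [AddCommGroup M₀] [Module ℤ_[p] M₀]
  {G : Type} [Group G]
  {T : Type} [CommRing T] [Algebra ℤ_[p] T]
  {ι : Type}
  (ρM : G →* End ℤ_[p] M₀) (tM : ι → End ℤ_[p] M₀) (c : ι → T)

/-- the Hecke operators on `T ⊗ M₀`. -/
noncomputable def tW (i : ι) : End T (T ⊗[ℤ_[p]] M₀) := (tM i).baseChange T

variable {ρM tM}

theorem commute_bcRep_tW (hcomm : ∀ g i, Commute (ρM g) (tM i)) (g : G) (i : ι) :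
    Commute (bcRep (𝒪 := T) ρM g) (tW (T := T) tM i) := by
  have h := (hcomm g i).eq
  show (ρM g).baseChange T * (tM i).baseChange T = (tM i).baseChange T * (ρM g).baseChange T
  rw [← LinearMap.baseChange_mul, ← LinearMap.baseChange_mul, h]

variable (hcomm : ∀ g i, Commute (ρM g) (tM i))

/-- the Hecke–Galois module. -/
abbrev HMod : Type _ := (T ⊗[ℤ_[p]] M₀) ⧸ rel (tW (T := T) tM) c

/-- the Galois action on the Hecke–Galois module. -/
noncomputable def sigma : G →* End T (HMod (tM := tM) c) :=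
  quotRep c (commute_bcRep_tW hcomm)

/-- the projection `T ⊗ M₀ → HMod`. -/
noncomputable def mkW : (T ⊗[ℤ_[p]] M₀) →ₗ[T] HMod (tM := tM) c := (rel (tW (T := T) tM) c).mkQ

theorem mkW_surjective : Function.Surjective (mkW (tM := tM) c) :=
  Submodule.mkQ_surjective _

theorem sigma_mkW (g : G) (w : T ⊗[ℤ_[p]] M₀) :
    sigma c hcomm g (mkW c w) = mkW c ((ρM g).baseChange T w) := rfl

theorem mkW_tW (i : ι) (w : T ⊗[ℤ_[p]] M₀) :
    mkW (tM := tM) c ((tM i).baseChange T w) = c i • mkW c w :=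
  mk_t (t := tW (T := T) tM) c i w

/-- Eichler–Shimura relations descend. -/
theorem sigma_quadratic (g : G) (i : ι) (n : ℕ)
    (h : ρM g * ρM g - tM i * ρM g + (n : ℤ_[p]) • (1 : End ℤ_[p] M₀) = 0) :
    sigma c hcomm g * sigma c hcomm g - c i • sigma c hcomm g
      + (n : T) • (1 : End T (HMod (tM := tM) c)) = 0 := by
  refine quotRep_quadratic c (commute_bcRep_tW hcomm) g i (n : T) ?_
  have h' := congrArg (fun F : End ℤ_[p] M₀ => F.baseChange T) h
  simp only [LinearMap.baseChange_add, LinearMap.baseChange_sub, LinearMap.baseChange_zero] at h'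
  rw [← h']
  congr 1
  · congr 1
    · exact (LinearMap.baseChange_mul _ _).symm
    · exact (LinearMap.baseChange_mul _ _).symm
  · refine LinearMap.ext fun w => ?_
    induction w using TensorProduct.induction_on with
    | zero => simp
    | tmul a x =>
      simp only [LinearMap.smul_apply, Module.End.one_apply, LinearMap.baseChange_tmul,
        Nat.cast_smul_eq_nsmul]
      rw [← TensorProduct.tmul_smul]
    | add x y hx hy => rw [map_add, map_add, hx, hy]

/-- congruences descend. -/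
theorem sigma_congr (I : Ideal T) (g : G) (r : ℤ_[p]) (hr : algebraMap ℤ_[p] T r ∈ I)
    (h : ∀ x, ∃ y, ρM g x - x = r • y) : EndCongr I (sigma c hcomm g) 1 :=
  quotRep_congr c (commute_bcRep_tW hcomm) I g (endCongr_baseChange I (ρM g) r hr h)

section Faithful

variable {R : Type*} [CommRing R] {Λ : Type*} [AddCommGroup Λ] [Module.Finite ℤ Λ]
  (hL : R →+* End ℤ Λ) (ι₀ : Λ →ₗ[ℤ] M₀)

/-- **faithfulness.** -/
theorem faithful [IsReduced T] (hLinj : Function.Injective hL) (hbc : IsBaseChange ℤ_[p] ι₀)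
    (gen : ι → R) (hheck : ∀ i x, tM i (ι₀ x) = ι₀ (hL (gen i) x)) (π : R →+* T)
    (x : T) (hx : ∀ m : HMod (tM := tM) (fun i => π (gen i)), x • m = 0) : x = 0 := by
  classical
  suffices h : ∀ 𝔮 : Ideal T, 𝔮.IsPrime → x ∈ 𝔮 by
    have hnil : x ∈ nilradical T := by
      rw [nilradical_eq_sInf, Ideal.mem_sInf]
      exact fun {𝔮} h𝔮 => h 𝔮 h𝔮
    exact IsReduced.eq_zero x hnil
  intro 𝔮 h𝔮
  let χ : R →+* 𝔮.ResidueField := (algebraMap T 𝔮.ResidueField).comp π
  let _ : Module R Λ := Module.compHom Λ hL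
  have : Module.Finite R Λ := Module.Finite.of_restrictScalars_finite ℤ R Λ
  have hfaith : ∀ r : R, (∀ y : Λ, r • y = 0) → r = 0 := by
    intro r hr
    apply hLinj
    rw [map_zero]
    exact LinearMap.ext hr
  obtain ⟨g, ⟨y₀, hy₀⟩, hg⟩ := FaithTensor5.exists_eigen_functional hfaith χ
  have hg' : ∀ (r : R) (y : Λ), g (hL r y) = χ r * g y := hg
  -- `𝔮.ResidueField` is a `ℤ_[p]`-algebra through `T`
  let g₁ : M₀ →ₗ[ℤ_[p]] 𝔮.ResidueField := hbc.lift g.toIntLinearMap
  have hg₁ : ∀ y, g₁ (ι₀ y) = g y := fun y => hbc.lift_eq _ y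
  -- Hecke equivariance of `g₁`
  have hg₁t : ∀ i z, g₁ (tM i z) = algebraMap T 𝔮.ResidueField (π (gen i)) * g₁ z := by
    intro i z
    refine hbc.inductionOn z _ ?_ ?_ ?_ ?_
    · rw [map_zero, map_zero, mul_zero]
    · intro y
      rw [hheck, hg₁, hg', hg₁]
      rfl
    · intro s n hn
      rw [map_smul, map_smul, hn, map_smul, mul_smul_comm]
    · intro n₁ n₂ h₁ h₂
      rw [map_add, map_add, h₁, h₂, map_add, mul_add]
  let f : (T ⊗[ℤ_[p]] M₀) →ₗ[T] 𝔮.ResidueField := g₁.liftBaseChange T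
  have hf : ∀ i w, f (tW (T := T) tM i w) = π (gen i) • f w := by
    intro i w
    induction w using TensorProduct.induction_on with
    | zero => simp
    | tmul a z =>
      show f ((tM i).baseChange T (a ⊗ₜ z)) = _
      rw [LinearMap.baseChange_tmul, LinearMap.liftBaseChange_tmul, LinearMap.liftBaseChange_tmul,
        hg₁t, smul_comm, Algebra.smul_def (π (gen i))]
    | add w w' hw hw' => rw [map_add, map_add, hw, hw', map_add, smul_add]
  let fbar := descend (fun i => π (gen i)) f hf
  have h1 := congrArg fbar (hx (Submodule.Quotient.mk ((1 : T) ⊗ₜ[ℤ_[p]] ι₀ y₀)))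
  rw [map_smul, map_zero, descend_mk, LinearMap.liftBaseChange_tmul, one_smul, hg₁,
    Algebra.smul_def] at h1
  have h2 : algebraMap T 𝔮.ResidueField x = 0 := by
    rcases mul_eq_zero.mp h1 with h | h
    · exact h
    · exact absurd h hy₀
  exact Ideal.algebraMap_residueField_eq_zero.mp h2

end Faithful

end Fermat.Agent.FF.S32.HeckeMod5
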