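/-
Programme FF, chapter S32 (helper5), file Abs5: **the abstract core of S32**.

In the setting of `HeckeMod5` (faithful Hecke action on `Λ`, base change `ι₀ : Λ → M₀`, Galois action
`ρM` and Hecke operators `tM i` on `M₀`, `π : R →+* T`) let `V` be free of rank two over the reduced
Noetherian local ring `T` (`p ∈ 𝔪`, `p` odd) with `ρV : G →* End_T V` spanning `End_T V`.  If the
"Frobenius" elements (`Φ φ i n`: `ρM φ` satisfies `X² - tM i X + n` and `ρV φ` has trace `π (gen i)` and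
determinant `n`) have dense powers, then `V` embeds `T`-linearly and equivariantly into
`End_T (HMod)` (`exists_embedding_hmod`).
-/
import Mathlib
import Fermat.Agent.FF.S32.HeckeMod5
import Fermat.Agent.FF.S32.CHDense5
import Fermat.Agent.FF.S32.Embed5

set_option autoImplicit false

namespace Fermat.Agent.FF.S32.Abs5

open TensorProduct Module IsLocalRing Fermat.Agent.ES.ALG.RelDense9
  Fermat.Agent.FF.S32.HeckeMod5

variable {p : ℕ} [Fact p.Prime]
  {M₀ : Type} [AddCommGroup M₀] [Module ℤ_[p] M₀] [Module.Finite ℤ_[p] M₀]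
  {G : Type} [Group G]
  {T : Type} [CommRing T] [IsLocalRing T] [IsNoetherianRing T] [IsReduced T] [Algebra ℤ_[p] T]
  {ι : Type}
  {ρM : G →* End ℤ_[p] M₀} {tM : ι → End ℤ_[p] M₀}
  {R : Type*} [CommRing R] {Λ : Type*} [AddCommGroup Λ] [Module.Finite ℤ Λ]
  {V : Type*} [AddCommGroup V] [Module T V] [Module.Free T V] [Module.Finite T V]

omit [IsNoetherianRing T] [IsReduced T] [Algebra ℤ_[p] T] in
/-- `2` is a unit in a local ring of odd residue characteristic. -/
theorem isUnit_two (hp2 : p ≠ 2) (hpT : (p : T) ∈ maximalIdeal T) : IsUnit (2 : T) := by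
  by_contra h2
  have h2m : (2 : T) ∈ maximalIdeal T := (mem_maximalIdeal _).mpr h2
  have hodd : Odd p := (Fact.out : p.Prime).odd_of_ne_two hp2
  obtain ⟨k, hk⟩ := hodd
  have h1 : (1 : T) = (p : T) - 2 * (k : T) := by
    rw [hk]; push_cast; ring
  have : (1 : T) ∈ maximalIdeal T := by
    rw [h1]
    exact Ideal.sub_mem _ hpT (Ideal.mul_mem_right _ _ h2m)
  exact (Ideal.ne_top_iff_one _).mp (maximalIdeal.isMaximal T).ne_top this

theorem exists_embedding_hmod (hp2 : p ≠ 2) (hpT : (p : T) ∈ maximalIdeal T)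
    (hcomm : ∀ g i, Commute (ρM g) (tM i))
    (hL : R →+* End ℤ Λ) (hLinj : Function.Injective hL)
    (ι₀ : Λ →ₗ[ℤ] M₀) (hbc : IsBaseChange ℤ_[p] ι₀)
    (gen : ι → R) (hheck : ∀ i x, tM i (ι₀ x) = ι₀ (hL (gen i) x)) (π : R →+* T)
    (h2 : Module.finrank T V = 2) (ρV : G →* End T V)
    (hspan : Submodule.span T (Set.range ρV) = ⊤)
    (Φ : G → ι → ℕ → Prop)
    (hΦM : ∀ φ i n, Φ φ i n →
      ρM φ * ρM φ - tM i * ρM φ + (n : ℤ_[p]) • (1 : End ℤ_[p] M₀) = 0)
    (hΦV : ∀ φ i n, Φ φ i n →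
      LinearMap.trace T V (ρV φ) = π (gen i) ∧ LinearMap.det (ρV φ) = (n : T))
    (hdense : ∀ (m : ℕ) (g : G), ∃ φ i n, ∃ j : ℕ, Φ φ i n ∧
      EndCongr (maximalIdeal T ^ m) (ρV (g⁻¹ * φ ^ j)) 1 ∧
      ∀ x, ∃ y, ρM (g⁻¹ * φ ^ j) x - x = ((p : ℤ_[p]) ^ m) • y) :
    ∃ J : V →ₗ[T] End T (HMod (tM := tM) (fun i => π (gen i))),
      Function.Injective J ∧
      ∀ g v, J (ρV g v) = sigma (fun i => π (gen i)) hcomm g * J v := by
  classical
  set c : ι → T := fun i => π (gen i) with hc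
  -- separation
  have hsep : ∀ x : HMod (tM := tM) c,
      (∀ n, x ∈ maximalIdeal T ^ n • (⊤ : Submodule T (HMod (tM := tM) c))) → x = 0 := by
    intro x hx
    have h := Ideal.iInf_pow_smul_eq_bot_of_isLocalRing (R := T) (M := HMod (tM := tM) c)
      (maximalIdeal T) (maximalIdeal.isMaximal T).ne_top
    have : x ∈ (⨅ i : ℕ, maximalIdeal T ^ i • (⊤ : Submodule T (HMod (tM := tM) c))) :=
      (Submodule.mem_iInf _).mpr hx
    rw [h] at this
    exact (Submodule.mem_bot T).mp this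
  -- Cayley–Hamilton for all `g`
  have hCH : ∀ g, sigma c hcomm g * sigma c hcomm g
      - LinearMap.trace T V (ρV g) • sigma c hcomm g
      + LinearMap.det (ρV g) • (1 : End T (HMod (tM := tM) c)) = 0 := by
    refine CHDense5.ch_of_dense (maximalIdeal T) h2 hsep ρV (sigma c hcomm)
      {φ | ∃ i n, Φ φ i n} ?_ ?_
    · rintro φ ⟨i, n, hΦ⟩
      obtain ⟨ht, hd⟩ := hΦV φ i n hΦ
      rw [ht, hd]
      exact sigma_quadratic c hcomm φ i n (hΦM φ i n hΦ)
    · intro m g
      obtain ⟨φ, i, n, j, hΦ, h1, h2⟩ := hdense m g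
      refine ⟨φ, ⟨i, n, hΦ⟩, j, h1, ?_⟩
      refine sigma_congr c hcomm _ _ ((p : ℤ_[p]) ^ m) ?_ h2
      rw [map_pow, map_natCast]
      exact Ideal.pow_mem_pow hpT m
  -- faithfulness
  have hfaith : ∀ a : T, (∀ m : HMod (tM := tM) c, a • m = 0) → a = 0 :=
    fun a ha => faithful hL ι₀ hLinj hbc gen hheck π a ha
  have : Invertible (2 : T) := (isUnit_two hp2 hpT).invertible
  exact Embed5.exists_embedding h2 ρV (sigma c hcomm) hspan hCH hfaith

end Fermat.Agent.FF.S32.Abs5
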