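/-
PROGRAMME FF, chapter S32 (helper2), file Ann2: the ABSTRACT form of the annihilator hypothesis
`hann` of `CHKer9.CH.exists_subquotient`.

* `exists_pow_mem_of_finite_quotient` : in a local ring `T`, an element of the maximal ideal has a
  power in every ideal `I` with `T ⧸ I` finite;
* `exists_level_ann` : `R` acting faithfully on a finite free `ℤ`-module `Λ`, `π : R →+* T`, `I` an
  ideal of `T` containing a power of `p`: for all large `k`, every `r : R` mapping `Λ` into `p ^ k Λ`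
  (i.e. killing `Λ / p ^ k Λ`) has `π r ∈ I`  (`TraceInv12.exists_sat_end`);
* `exists_level_ann_of_finite` : the same with `T` local, `(p : T) ∈ m_T`, `T ⧸ I` finite.
-/
import Mathlib
import Fermat.Agent.ES.ALG31.TraceInv12

set_option autoImplicit false
set_option linter.unusedSectionVars false

namespace Fermat.Agent.FF.S32.Ann2

open Fermat.Agent.ES.ALG31.TraceInv12

/-- In a local ring, an element of the maximal ideal has a power in every ideal of finite index. -/
theorem exists_pow_mem_of_finite_quotient {T : Type*} [CommRing T] [IsLocalRing T] (I : Ideal T)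
    [Finite (T ⧸ I)] {x : T} (hx : x ∈ IsLocalRing.maximalIdeal T) : ∃ n : ℕ, x ^ n ∈ I := by
  have hninj : ¬ Function.Injective fun n : ℕ => Ideal.Quotient.mk I (x ^ n) :=
    not_injective_infinite_finite _
  rw [Function.Injective] at hninj
  push Not at hninj
  obtain ⟨a, b, hab, hne⟩ := hninj
  -- wlog `a < b`
  have key : ∀ a b : ℕ, a < b → Ideal.Quotient.mk I (x ^ a) = Ideal.Quotient.mk I (x ^ b) →
      x ^ a ∈ I := by
    intro a b hlt h
    have h1 : x ^ a - x ^ b ∈ I := by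
      rw [← Ideal.Quotient.eq]
      exact h
    have h2 : x ^ a - x ^ b = x ^ a * (1 - x ^ (b - a)) := by
      rw [mul_sub, mul_one, ← pow_add, Nat.add_sub_cancel' hlt.le]
    have hpos : 0 < b - a := Nat.sub_pos_of_lt hlt
    have hmem : x ^ (b - a) ∈ IsLocalRing.maximalIdeal T :=
      Ideal.pow_mem_of_mem _ hx _ hpos
    have hunit : IsUnit (1 - x ^ (b - a)) := by
      by_contra hnu
      have h3 : 1 - x ^ (b - a) ∈ IsLocalRing.maximalIdeal T :=
        (IsLocalRing.mem_maximalIdeal _).2 hnu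
      have h4 : (1 : T) ∈ IsLocalRing.maximalIdeal T := by
        have := Ideal.add_mem _ h3 hmem
        rwa [sub_add_cancel] at this
      exact (Ideal.ne_top_iff_one _).1 (IsLocalRing.maximalIdeal.isMaximal T).ne_top h4
    rw [h2] at h1
    obtain ⟨u, hu⟩ := hunit
    have h5 : x ^ a * (1 - x ^ (b - a)) * ↑u⁻¹ ∈ I := I.mul_mem_right _ h1
    rwa [mul_assoc, ← hu, Units.mul_inv, mul_one] at h5
  rcases lt_or_gt_of_ne hne with hlt | hlt
  · exact ⟨a, key a b hlt hab⟩
  · exact ⟨b, key b a hlt hab.symm⟩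

/-- **Abstract `hann`**: for `k` large, an element of `R` mapping `Λ` into `p ^ k Λ` is sent into
`I` by `π`. -/
theorem exists_level_ann {R : Type*} [CommRing R] {Λ : Type*} [AddCommGroup Λ] [Module.Free ℤ Λ]
    [Module.Finite ℤ Λ] (hL : R →+* Module.End ℤ Λ) (hLinj : Function.Injective hL) (p : ℕ)
    {T : Type*} [CommRing T] (π : R →+* T) (I : Ideal T) (hp : ∃ n : ℕ, (p : T) ^ n ∈ I) :
    ∃ k₀ : ℕ, ∀ k, k₀ ≤ k → ∀ r : R, (∀ x : Λ, ∃ y : Λ, hL r x = p ^ k • y) → π r ∈ I := by
  obtain ⟨c, hc⟩ := exists_sat_end hL hLinj p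
  obtain ⟨n, hn⟩ := hp
  refine ⟨c + n, fun k hk r hr => ?_⟩
  obtain ⟨r', rfl⟩ := hc k r hr
  have h1 : π (p ^ (k - c) • r') = (p : T) ^ n * ((p : T) ^ (k - c - n) * π r') := by
    rw [nsmul_eq_mul, map_mul, map_natCast, Nat.cast_pow, ← mul_assoc, ← pow_add]
    congr 2
    omega
  rw [h1]
  exact I.mul_mem_right _ hn

/-- **Abstract `hann`**, local form: `T` local, `(p : T) ∈ m_T`, `T ⧸ I` finite. -/
theorem exists_level_ann_of_finite {R : Type*} [CommRing R] {Λ : Type*} [AddCommGroup Λ]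
    [Module.Free ℤ Λ] [Module.Finite ℤ Λ] (hL : R →+* Module.End ℤ Λ)
    (hLinj : Function.Injective hL) (p : ℕ) {T : Type*} [CommRing T] [IsLocalRing T]
    (hpT : (p : T) ∈ IsLocalRing.maximalIdeal T) (π : R →+* T) (I : Ideal T) [Finite (T ⧸ I)] :
    ∃ k₀ : ℕ, ∀ k, k₀ ≤ k → ∀ r : R, (∀ x : Λ, ∃ y : Λ, hL r x = p ^ k • y) → π r ∈ I :=
  exists_level_ann hL hLinj p π I (exists_pow_mem_of_finite_quotient I hpT)

end Fermat.Agent.FF.S32.Ann2
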