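/-
PROGRAMME FF, chapter S32 (helper9).  `CHKer9` = THE CAYLEY–HAMILTON KERNEL THEOREM (pure algebra).

`R` a commutative ring, `G` a group, `M` a finitely generated `R`-module with an `R`-linear action
`φ` of `G` satisfying the Cayley–Hamilton relations `g² − t(g) g + d(g) = 0` (`d` multiplicative).
`A` a local ring, `π : R →+* A`, `I` a proper ideal of `A`, `ρ : G →* End_A V` a free rank two
representation, residually absolutely irreducible (the residual image spans the endomorphisms), with
`tr ρ(g) ≡ π(t g)` mod `I`, and `π(Ann_R M) ⊆ I`, `π⁻¹(m_A)` maximal.  THEN every element of the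
group algebra `R[G]` (here: `x : G →₀ R`) which kills `M` acts on `V` by an endomorphism with values
in `I V`  (`rho_mem_of_phi_eq_zero`).  Consequence (`exists_subquotient`): `V / I V` is a
`G`-equivariant quotient of a `G`-stable subgroup of a finite power of `M`.
-/
import Mathlib
import Fermat.Agent.ES.ALG31.TraceRigid13

set_option autoImplicit false
set_option linter.unusedSectionVars false

namespace Fermat.Agent.FF.S32.CHKer9

open Module

noncomputable section

/-! ### finitely supported families and right translation -/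

section Ev

variable {R : Type*} [CommSemiring R] {G : Type*} [Mul G]

/-- right translation of a finitely supported family. -/
def rt (h : G) (x : G →₀ R) : G →₀ R := Finsupp.mapDomain (· * h) x

variable {E : Type*} [Semiring E] [Algebra R E]

theorem lc_rt (f : G → E) (hf : ∀ g h, f (g * h) = f g * f h) (x : G →₀ R) (h : G) :
    Finsupp.linearCombination R f (rt h x) = Finsupp.linearCombination R f x * f h := by
  rw [rt, Finsupp.linearCombination_mapDomain]
  have h1 : f ∘ (· * h) = (LinearMap.mulRight R (f h)) ∘ f := by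
    funext g
    simp [hf]
  rw [h1, ← Finsupp.apply_linearCombination]
  rfl

theorem rt_single (h g : G) (a : R) : rt h (Finsupp.single g a) = Finsupp.single (g * h) a := by
  rw [rt, Finsupp.mapDomain_single]

theorem rt_add (h : G) (x y : G →₀ R) : rt h (x + y) = rt h x + rt h y :=
  Finsupp.mapDomain_add

end Ev

/-! ### combinations with coefficients pushed along a ring homomorphism -/

section LcPi

variable {R : Type*} [CommRing R] {A : Type*} [CommRing A] (π : R →+* A) {G : Type*}

section Mod

variable {E : Type*} [AddCommGroup E] [Module A E]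

/-- `x ↦ Σ π(x_g) • f g`. -/
def lcπ (f : G → E) : (G →₀ R) →+ E :=
  (Finsupp.linearCombination A f).toAddMonoidHom.comp
    (Finsupp.mapRange.addMonoidHom π.toAddMonoidHom)

theorem lcπ_apply (f : G → E) (x : G →₀ R) :
    lcπ π f x = Finsupp.linearCombination A f (Finsupp.mapRange π (map_zero π) x) := rfl

@[simp] theorem lcπ_single (f : G → E) (g : G) (a : R) :
    lcπ π f (Finsupp.single g a) = π a • f g := by
  rw [lcπ_apply, Finsupp.mapRange_single, Finsupp.linearCombination_single]

theorem lcπ_eq_sum (f : G → E) (x : G →₀ R) : lcπ π f x = x.sum fun g a => π a • f g := by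
  induction x using Finsupp.induction_linear with
  | zero => rw [map_zero, Finsupp.sum_zero_index]
  | add x y hx hy =>
    rw [map_add, hx, hy, Finsupp.sum_add_index']
    · intro g; rw [map_zero, zero_smul]
    · intro g a b; rw [map_add, add_smul]
  | single g a => rw [lcπ_single, Finsupp.sum_single_index]; rw [map_zero, zero_smul]

theorem lcπ_map {E' : Type*} [AddCommGroup E'] [Module A E'] (L : E →ₗ[A] E') (f : G → E)
    (x : G →₀ R) : L (lcπ π f x) = lcπ π (L ∘ f) x := by
  rw [lcπ_apply, lcπ_apply, Finsupp.apply_linearCombination]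

end Mod

theorem lcπ_self (t : G → R) (x : G →₀ R) :
    lcπ π (fun g => π (t g)) x = π (Finsupp.linearCombination R t x) := by
  induction x using Finsupp.induction_linear with
  | zero => rw [map_zero, map_zero, map_zero]
  | add x y hx hy => rw [map_add, hx, hy, map_add, map_add]
  | single g a =>
    rw [lcπ_single, Finsupp.linearCombination_single, smul_eq_mul, smul_eq_mul, map_mul]

theorem lcπ_rt [Mul G] {E : Type*} [Ring E] [Algebra A E] (f : G → E)
    (hf : ∀ g h, f (g * h) = f g * f h) (x : G →₀ R) (h : G) :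
    lcπ π f (rt h x) = lcπ π f x * f h := by
  rw [lcπ_apply, lcπ_apply, rt, ← Finsupp.mapDomain_mapRange _ _ _ _ (fun a b => map_add π a b)]
  exact lc_rt f hf _ h

end LcPi

/-! ### the scalar lemma -/

section Scalar

variable {R : Type*} [CommRing R] {G : Type*} [Group G] {M : Type*} [AddCommGroup M] [Module R M]

/-- the Cayley–Hamilton relations. -/
def CH (φ : G →* End R M) (t d : G → R) : Prop :=
  ∀ g : G, φ g * φ g - t g • φ g + d g • (1 : End R M) = 0

/-- `d` is multiplicative as a family of operators on `M`. -/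
def MulOn (M : Type*) [AddCommGroup M] [Module R M] (d : G → R) : Prop :=
  ∀ g g' : G, d (g * g') • (1 : End R M) = (d g * d g') • (1 : End R M)

theorem MulOn.of_mul {d : G → R} (hd : ∀ g g', d (g * g') = d g * d g') : MulOn M d :=
  fun g g' => by rw [hd]

theorem MulOn.smul_end {d : G → R} (hd : MulOn M d) (g g' : G) (X : End R M) :
    d (g * g') • X = (d g * d g') • X := by
  rw [← one_mul X, ← smul_mul_assoc, hd g g', smul_mul_assoc]

theorem MulOn.quot {d : G → R} (hd : MulOn M d) (P : Submodule R M) : MulOn (M ⧸ P) d := by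
  intro g g'
  refine LinearMap.ext fun w => ?_
  obtain ⟨m, rfl⟩ := Submodule.Quotient.mk_surjective _ w
  have h1 := congrArg (fun X : End R M => X m) (hd g g')
  simp only [LinearMap.smul_apply, Module.End.one_apply] at h1
  simp only [LinearMap.smul_apply, Module.End.one_apply]
  rw [← Submodule.Quotient.mk_smul, ← Submodule.Quotient.mk_smul, h1]

variable {φ : G →* End R M} {t d : G → R}

/-- `d(g) g⁻¹ = t(g) − g`. -/
theorem CH.inv (h : CH φ t d) (g : G) : d g • φ g⁻¹ = t g • (1 : End R M) - φ g := by
  have h1 := congrArg (fun X => X * φ g⁻¹) (h g)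
  simp only [add_mul, sub_mul, zero_mul, smul_mul_assoc, one_mul, mul_assoc] at h1
  rw [← map_mul, mul_inv_cancel, map_one, mul_one] at h1
  rw [← sub_eq_zero, ← h1]
  abel

/-- **the scalar lemma**: if `x` kills `M` and `c = τ(x)`, then `c • g` is a scalar for all `g`. -/
theorem CH.scalar (h : CH φ t d) (hd : MulOn M d) (x : G →₀ R)
    (hx : Finsupp.linearCombination R φ x = 0) (g : G) :
    Finsupp.linearCombination R t x • φ g =
      (Finsupp.linearCombination R t x * t g - Finsupp.linearCombination R t (rt g x)) •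
        (1 : End R M) := by
  set c := Finsupp.linearCombination R t x with hc
  -- the element `Σ x_a d(a g) (a g)⁻¹` computed in two ways
  have h1 : Finsupp.linearCombination R (fun a => d a • φ a⁻¹) (rt g x) =
      Finsupp.linearCombination R t (rt g x) • (1 : End R M) := by
    have : (fun a => d a • φ a⁻¹) = fun a => t a • (1 : End R M) - φ a := funext fun a => h.inv a
    rw [this]
    have h2 : (fun a => t a • (1 : End R M) - φ a) =
        (LinearMap.toSpanSingleton R (End R M) 1) ∘ t - φ := by
      funext a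
      simp [LinearMap.toSpanSingleton_apply]
    rw [h2]
    have h3 : Finsupp.linearCombination R ((LinearMap.toSpanSingleton R (End R M) 1) ∘ t - ⇑φ)
        (rt g x) = Finsupp.linearCombination R ((LinearMap.toSpanSingleton R (End R M) 1) ∘ t)
          (rt g x) - Finsupp.linearCombination R φ (rt g x) := by
      simp only [Finsupp.linearCombination_apply, Finsupp.sum, Pi.sub_apply, smul_sub,
        Finset.sum_sub_distrib]
    rw [h3, ← Finsupp.apply_linearCombination, lc_rt φ (fun a b => map_mul φ a b), hx, zero_mul,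
      sub_zero, LinearMap.toSpanSingleton_apply]
  have h4 : Finsupp.linearCombination R (fun a => d a • φ a⁻¹) (rt g x) =
      c • (t g • (1 : End R M) - φ g) := by
    rw [rt, Finsupp.linearCombination_mapDomain]
    have h5 : (fun a => d a • φ a⁻¹) ∘ (· * g) =
        (LinearMap.mulLeft R (d g • φ g⁻¹)) ∘ fun a => d a • φ a⁻¹ := by
      funext a
      simp only [Function.comp_apply, LinearMap.mulLeft_apply]
      rw [hd.smul_end, mul_inv_rev, map_mul, smul_mul_smul_comm, mul_comm (d g)]
    rw [h5, ← Finsupp.apply_linearCombination, LinearMap.mulLeft_apply]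
    have h6 : Finsupp.linearCombination R (fun a => d a • φ a⁻¹) x = c • (1 : End R M) := by
      have : (fun a => d a • φ a⁻¹) = fun a => t a • (1 : End R M) - φ a := funext fun a => h.inv a
      rw [this]
      have h2 : (fun a => t a • (1 : End R M) - φ a) =
          (LinearMap.toSpanSingleton R (End R M) 1) ∘ t - φ := by
        funext a
        simp [LinearMap.toSpanSingleton_apply]
      rw [h2]
      have h3 : Finsupp.linearCombination R ((LinearMap.toSpanSingleton R (End R M) 1) ∘ t - ⇑φ)
          x = Finsupp.linearCombination R ((LinearMap.toSpanSingleton R (End R M) 1) ∘ t) x -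
            Finsupp.linearCombination R φ x := by
        simp only [Finsupp.linearCombination_apply, Finsupp.sum, Pi.sub_apply, smul_sub,
          Finset.sum_sub_distrib]
      rw [h3, ← Finsupp.apply_linearCombination, hx, sub_zero, LinearMap.toSpanSingleton_apply]
    rw [h6, h.inv g, mul_smul_comm, mul_one]
  rw [h1] at h4
  rw [sub_smul, mul_smul, h4, smul_sub, smul_smul]
  abel

end Scalar

/-! ### trace pairing and non-commutativity of the endomorphisms of a free module -/

section TracePairing

variable {A : Type*} [CommRing A] {V : Type*} [AddCommGroup V] [Module A V]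
  {G : Type*} [Monoid G]

theorem eq_zero_of_trace_mul {ι : Type*} [Fintype ι] [DecidableEq ι] (b : Basis ι A V)
    (Y : End A V) (h : ∀ X : End A V, LinearMap.trace A V (Y * X) = 0) : Y = 0 := by
  apply (LinearMap.toMatrix b b).injective
  rw [map_zero, Matrix.ext_iff_trace_mul_right]
  intro X
  have h1 := h (Matrix.toLin b b X)
  rw [LinearMap.trace_eq_matrix_trace A b, LinearMap.toMatrix_mul, LinearMap.toMatrix_toLin] at h1
  rw [h1, Matrix.zero_mul, Matrix.trace_zero]

theorem eq_zero_of_trace_mul_rho {ι : Type*} [Fintype ι] [DecidableEq ι] (b : Basis ι A V)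
    (ρ : G →* End A V) (hspan : Submodule.span A (Set.range ρ) = ⊤)
    (Y : End A V) (h : ∀ g : G, LinearMap.trace A V (Y * ρ g) = 0) : Y = 0 := by
  refine eq_zero_of_trace_mul b Y fun X => ?_
  have hX : X ∈ Submodule.span A (Set.range ρ) := by rw [hspan]; exact Submodule.mem_top
  induction hX using Submodule.span_induction with
  | mem x hx =>
    obtain ⟨g, rfl⟩ := hx
    exact h g
  | zero => rw [mul_zero, map_zero]
  | add x y _ _ hx hy => rw [mul_add, map_add, hx, hy, add_zero]
  | smul c x _ hx => rw [mul_smul_comm, map_smul, hx, smul_zero]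

theorem exists_not_commute [Nontrivial A] (b : Basis (Fin 2) A V) :
    ∃ X Y : End A V, X * Y ≠ Y * X := by
  refine ⟨Matrix.toLin b b (Matrix.single 0 1 1), Matrix.toLin b b (Matrix.single 1 0 1), ?_⟩
  intro h
  rw [Module.End.mul_eq_comp, Module.End.mul_eq_comp, ← Matrix.toLin_mul b b b,
    ← Matrix.toLin_mul b b b] at h
  have h1 := (Matrix.toLin b b).injective h
  have h2 := congrFun (congrFun h1 0) 0
  simp [Matrix.mul_apply, Matrix.single_apply] at h2

theorem exists_rho_not_commute [Nontrivial A] (b : Basis (Fin 2) A V)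
    (ρ : G →* End A V) (hspan : Submodule.span A (Set.range ρ) = ⊤) :
    ∃ g h : G, ρ g * ρ h ≠ ρ h * ρ g := by
  by_contra hcon
  replace hcon : ∀ g h : G, ρ g * ρ h = ρ h * ρ g := by
    intro g h
    by_contra hgh
    exact hcon ⟨g, h, hgh⟩
  have h1 : ∀ X : End A V, ∀ g : G, X * ρ g = ρ g * X := by
    intro X g
    have hX : X ∈ Submodule.span A (Set.range ρ) := by rw [hspan]; exact Submodule.mem_top
    induction hX using Submodule.span_induction with
    | mem x hx =>
      obtain ⟨g', rfl⟩ := hx
      exact hcon g' g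
    | zero => rw [mul_zero, zero_mul]
    | add x y _ _ hx hy => rw [mul_add, add_mul, hx, hy]
    | smul c x _ hx => rw [mul_smul_comm, smul_mul_assoc, hx]
  have h2 : ∀ X Y : End A V, X * Y = Y * X := by
    intro X Y
    have hY : Y ∈ Submodule.span A (Set.range ρ) := by rw [hspan]; exact Submodule.mem_top
    induction hY using Submodule.span_induction with
    | mem y hy =>
      obtain ⟨g', rfl⟩ := hy
      exact h1 X g'
    | zero => rw [mul_zero, zero_mul]
    | add x y _ _ hx hy => rw [mul_add, add_mul, hx, hy]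
    | smul c x _ hx => rw [mul_smul_comm, smul_mul_assoc, hx]
  obtain ⟨X, Y, hXY⟩ := exists_not_commute b
  exact hXY (h2 X Y)

end TracePairing

/-! ### field level: the trace of a spanning representation is not a sum of two characters -/

section Field

variable {K : Type*} [Field K] {V : Type*} [AddCommGroup V] [Module K V]
  {G : Type*} [Group G]

theorem trace_lc (ρ : G → End K V) (z : G →₀ K) :
    LinearMap.trace K V (Finsupp.linearCombination K ρ z) =
      Finsupp.linearCombination K (fun g => LinearMap.trace K V (ρ g)) z := by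
  rw [Finsupp.apply_linearCombination]
  rfl

/-- **Lemma F0.** -/
theorem not_trace_eq_add (b : Basis (Fin 2) K V) (ρ : G →* End K V)
    (hspan : Submodule.span K (Set.range ρ) = ⊤) (lam mu : G → K)
    (hlam : ∀ g h, lam (g * h) = lam g * lam h) (hmu : ∀ g h, mu (g * h) = mu g * mu h)
    (htr : ∀ g, LinearMap.trace K V (ρ g) = lam g + mu g) : False := by
  have key : ∀ z : G →₀ K, Finsupp.linearCombination K lam z = 0 →
      Finsupp.linearCombination K mu z = 0 → Finsupp.linearCombination K ρ z = 0 := by
    intro z hz1 hz2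
    refine eq_zero_of_trace_mul_rho b ρ hspan _ fun h => ?_
    rw [← lc_rt ρ (fun a b => map_mul ρ a b), trace_lc]
    have h1 : (fun g => LinearMap.trace K V (ρ g)) = lam + mu := funext htr
    rw [h1]
    have h2 : Finsupp.linearCombination K (lam + mu) (rt h z) =
        Finsupp.linearCombination K lam (rt h z) + Finsupp.linearCombination K mu (rt h z) := by
      simp only [Finsupp.linearCombination_apply, Finsupp.sum, Pi.add_apply, smul_add,
        Finset.sum_add_distrib]
    rw [h2, lc_rt lam hlam, lc_rt mu hmu, hz1, hz2, zero_mul, zero_mul, add_zero]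
  obtain ⟨g, h, hgh⟩ := exists_rho_not_commute b ρ hspan
  apply hgh
  have h3 := key (Finsupp.single (g * h) 1 - Finsupp.single (h * g) 1)
    (by rw [map_sub, Finsupp.linearCombination_single, Finsupp.linearCombination_single, hlam,
      hlam, mul_comm, sub_self])
    (by rw [map_sub, Finsupp.linearCombination_single, Finsupp.linearCombination_single, hmu,
      hmu, mul_comm, sub_self])
  rw [map_sub, Finsupp.linearCombination_single, Finsupp.linearCombination_single, one_smul,
    one_smul, sub_eq_zero, map_mul, map_mul] at h3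
  exact h3

end Field

/-! ### residual level: modules killed by a maximal ideal -/

section Residual

variable {R : Type*} [CommRing R] {G : Type*} [Group G] {W : Type*} [AddCommGroup W] [Module R W]
  {K : Type*} [Field K] {V : Type*} [AddCommGroup V] [Module K V]

/-- on a nonzero module killed by the maximal ideal `𝔪`, a scalar which acts as zero is in `𝔪`. -/
theorem mem_of_smul_one_eq_zero [Nontrivial W] {𝔪 : Ideal R} (h𝔪 : 𝔪.IsMaximal)
    (hW : ∀ r ∈ 𝔪, ∀ w : W, r • w = 0) {r : R} (hr : r • (1 : End R W) = 0) : r ∈ 𝔪 := by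
  by_contra hr𝔪
  obtain ⟨y, i, hi, hyi⟩ := h𝔪.exists_inv hr𝔪
  obtain ⟨w, hw⟩ := exists_ne (0 : W)
  apply hw
  have h1 : r • w = 0 := by
    have := congrArg (fun X : End R W => X w) hr
    simpa using this
  calc w = (y * r + i) • w := by rw [hyi, one_smul]
    _ = 0 := by rw [add_smul, mul_smul, h1, smul_zero, hW i hi, add_zero]

variable {ψ : G →* End R W} {t d : G → R}

/-- **Lemma F1**: on a nonzero module over the residue field with the Cayley–Hamilton relations of a
spanning two-dimensional representation `ρ`, the kernel of the group algebra has trace zero. -/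
theorem CH.trace_eq_zero_of_residual [Nontrivial W] (h : CH ψ t d)
    (hd : MulOn W d) {𝔪 : Ideal R} (h𝔪 : 𝔪.IsMaximal)
    (hW : ∀ r ∈ 𝔪, ∀ w : W, r • w = 0) (j : R →+* K) (hj : ∀ r ∈ 𝔪, j r = 0)
    (b : Basis (Fin 2) K V) (ρ : G →* End K V) (hspan : Submodule.span K (Set.range ρ) = ⊤)
    (htr : ∀ g, LinearMap.trace K V (ρ g) = j (t g)) (x : G →₀ R)
    (hx : Finsupp.linearCombination R ψ x = 0) : j (Finsupp.linearCombination R t x) = 0 := by
  by_contra hc
  set c := Finsupp.linearCombination R t x with hcdef
  have hc𝔪 : c ∉ 𝔪 := fun hmem => hc (hj c hmem)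
  obtain ⟨y, i, hi, hyi⟩ := h𝔪.exists_inv hc𝔪
  have hi0 : ∀ X : End R W, i • X = 0 := by
    intro X
    refine LinearMap.ext fun w => ?_
    rw [LinearMap.smul_apply, hW i hi, LinearMap.zero_apply]
  set s : G → R := fun g => c * t g - Finsupp.linearCombination R t (rt g x) with hs
  have hscal : ∀ g, c • ψ g = s g • (1 : End R W) := fun g => h.scalar hd x hx g
  have hex : ∃ l : G → R, ∀ g, ψ g = l g • (1 : End R W) := by
    refine ⟨fun g => y * s g, fun g => ?_⟩
    calc ψ g = (y * c + i) • ψ g := by rw [hyi, one_smul]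
      _ = (y * s g) • (1 : End R W) := by
        rw [add_smul, mul_smul, hscal, hi0, add_zero, smul_smul]
  obtain ⟨l, hψ⟩ := hex
  have hmem : ∀ r : R, r • (1 : End R W) = 0 → j r = 0 := fun r hr =>
    hj r (mem_of_smul_one_eq_zero h𝔪 hW hr)
  set lam : G → K := fun g => j (l g) with hlam
  have hlam_mul : ∀ g g', lam (g * g') = lam g * lam g' := by
    intro g g'
    have h1 : (l (g * g') - l g * l g') • (1 : End R W) = 0 := by
      rw [sub_smul, ← hψ, map_mul, hψ g, hψ g', smul_mul_smul_comm, mul_one, sub_self]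
    have h2 := hmem _ h1
    rw [map_sub, map_mul, sub_eq_zero] at h2
    exact h2
  have hlam_one : lam 1 = 1 := by
    have h1 : (l 1 - 1) • (1 : End R W) = 0 := by
      rw [sub_smul, ← hψ, map_one, one_smul, sub_self]
    have h2 := hmem _ h1
    rw [map_sub, map_one, sub_eq_zero] at h2
    exact h2
  have hlam_ne : ∀ g, lam g ≠ 0 := by
    intro g h0
    have := hlam_mul g g⁻¹
    rw [mul_inv_cancel, hlam_one, h0, zero_mul] at this
    exact one_ne_zero this
  have hquad : ∀ g, lam g * lam g - j (t g) * lam g + j (d g) = 0 := by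
    intro g
    have h1 : (l g * l g - t g * l g + d g) • (1 : End R W) = 0 := by
      have h2 := h g
      rw [hψ g] at h2
      rw [add_smul, sub_smul, ← h2, smul_mul_smul_comm, mul_one, smul_smul]
    have h2 := hmem _ h1
    rw [map_add, map_sub, map_mul, map_mul] at h2
    exact h2
  set mu : G → K := fun g => j (d g) / lam g with hmu
  have hmu_mul : ∀ g g', mu (g * g') = mu g * mu g' := by
    intro g g'
    simp only [hmu]
    have hjd : j (d (g * g')) = j (d g) * j (d g') := by
      have h1 := hmem (d (g * g') - d g * d g') (by rw [sub_smul, hd g g', sub_self])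
      rwa [map_sub, map_mul, sub_eq_zero] at h1
    rw [hjd, hlam_mul, div_mul_div_comm]
  have htr' : ∀ g, LinearMap.trace K V (ρ g) = lam g + mu g := by
    intro g
    rw [htr]
    have h1 := hquad g
    have h2 := hlam_ne g
    simp only [hmu]
    field_simp
    linear_combination -h1
  exact not_trace_eq_add b ρ hspan lam mu hlam_mul hmu_mul htr'

/-- **Lemma F2**: the action of `G` on such a module is not commutative. -/
theorem CH.exists_not_commute_of_residual [Nontrivial W] (h : CH ψ t d)
    (hd : MulOn W d) {𝔪 : Ideal R} (h𝔪 : 𝔪.IsMaximal)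
    (hW : ∀ r ∈ 𝔪, ∀ w : W, r • w = 0) (j : R →+* K) (hj : ∀ r ∈ 𝔪, j r = 0)
    (b : Basis (Fin 2) K V) (ρ : G →* End K V) (hspan : Submodule.span K (Set.range ρ) = ⊤)
    (htr : ∀ g, LinearMap.trace K V (ρ g) = j (t g)) :
    ∃ g g' : G, ψ g * ψ g' ≠ ψ g' * ψ g := by
  by_contra hcon
  replace hcon : ∀ g g' : G, ψ g * ψ g' = ψ g' * ψ g := by
    intro g g'
    by_contra hgh
    exact hcon ⟨g, g', hgh⟩
  have key : ∀ x : G →₀ R, Finsupp.linearCombination R ψ x = 0 → lcπ j ρ x = 0 := by
    intro x hx
    refine eq_zero_of_trace_mul_rho b ρ hspan _ fun g => ?_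
    rw [← lcπ_rt j ρ (fun a b => map_mul ρ a b), lcπ_map]
    have h1 : (⇑(LinearMap.trace K V) ∘ ⇑ρ) = fun g => j (t g) := funext htr
    rw [h1, lcπ_self]
    refine h.trace_eq_zero_of_residual hd h𝔪 hW j hj b ρ hspan htr _ ?_
    rw [lc_rt ψ (fun a b => map_mul ψ a b), hx, zero_mul]
  obtain ⟨g, g', hgg'⟩ := exists_rho_not_commute b ρ hspan
  apply hgg'
  have h3 := key (Finsupp.single (g * g') 1 - Finsupp.single (g' * g) 1)
    (by rw [map_sub, Finsupp.linearCombination_single, Finsupp.linearCombination_single, one_smul,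
      one_smul, map_mul, map_mul, hcon, sub_self])
  rw [map_sub, lcπ_single, lcπ_single, map_one, one_smul, one_smul, sub_eq_zero, map_mul,
    map_mul] at h3
  exact h3

end Residual

/-! ### local rings: the span of a residually spanning representation, trace criterion mod `I` -/

section Local

open TensorProduct IsLocalRing

variable {A : Type*} [CommRing A] [IsLocalRing A] {V : Type*} [AddCommGroup V] [Module A V]
  {G : Type*} [Monoid G]

/-- an endomorphism which vanishes residually lies in `𝔪 • End`. -/
theorem mem_smul_top_of_baseChange_eq_zero (b : Basis (Fin 2) A V) (Z : End A V)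
    (hZ : Z.baseChange (ResidueField A) = 0) :
    Z ∈ (maximalIdeal A) • (⊤ : Submodule A (End A V)) := by
  have h1 : (LinearMap.toMatrix b b Z).map (algebraMap A (ResidueField A)) = 0 := by
    rw [← LinearMap.toMatrix_baseChange, hZ, map_zero]
  have h2 : ∀ i j, LinearMap.toMatrix b b Z i j ∈ maximalIdeal A := by
    intro i j
    have := congrFun (congrFun h1 i) j
    rw [Matrix.map_apply, Matrix.zero_apply] at this
    exact (residue_eq_zero_iff _).mp this
  have h3 : Z = ∑ i, ∑ j, LinearMap.toMatrix b b Z i j • Matrix.toLin b b (Matrix.single i j 1) := by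
    conv_lhs => rw [← Matrix.toLin_toMatrix b b Z, Matrix.matrix_eq_sum_single (LinearMap.toMatrix b b Z)]
    simp only [map_sum]
    refine Finset.sum_congr rfl fun i _ => Finset.sum_congr rfl fun j _ => ?_
    rw [← map_smul, Matrix.smul_single, smul_eq_mul, mul_one]
  rw [h3]
  exact Submodule.sum_mem _ fun i _ => Submodule.sum_mem _ fun j _ =>
    Submodule.smul_mem_smul (h2 i j) Submodule.mem_top

/-- **the `A`-span of a residually spanning representation is everything** (Nakayama). -/
theorem span_eq_top_of_residual (b : Basis (Fin 2) A V) (ρ : G →* End A V)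
    (hspan : Submodule.span (ResidueField A)
      (Set.range fun g => (ρ g).baseChange (ResidueField A)) = ⊤) :
    Submodule.span A (Set.range ρ) = ⊤ := by
  rw [eq_top_iff]
  have hfg : (⊤ : Submodule A (End A V)).FG := by
    haveI : Module.Finite A V := Module.Finite.of_basis b
    haveI : Module.Free A V := Module.Free.of_basis b
    exact Module.Finite.fg_top
  refine Submodule.le_of_le_smul_of_le_jacobson_bot hfg (maximalIdeal_le_jacobson ⊥) ?_
  intro X _
  obtain ⟨X', hX', hXX'⟩ := Fermat.Agent.ES.ALG31.TraceRigid13.exists_lift_of_mem_span ρ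
    (E := X.baseChange (ResidueField A)) (by rw [hspan]; exact Submodule.mem_top)
  have h1 : X = X' + (X - X') := by abel
  rw [h1]
  refine Submodule.add_mem_sup hX' (mem_smul_top_of_baseChange_eq_zero b _ ?_)
  rw [LinearMap.baseChange_sub, hXX']
  exact sub_self (X.baseChange (ResidueField A))

/-- **trace criterion modulo `I`**. -/
theorem apply_mem_of_trace_mul_rho_mem (b : Basis (Fin 2) A V) (ρ : G →* End A V)
    (hspan : Submodule.span (ResidueField A)
      (Set.range fun g => (ρ g).baseChange (ResidueField A)) = ⊤) (I : Ideal A)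
    (Y : End A V) (h : ∀ g : G, LinearMap.trace A V (Y * ρ g) ∈ I) (v : V) :
    Y v ∈ I • (⊤ : Submodule A V) := by
  have hspanA := span_eq_top_of_residual b ρ hspan
  have h1 : ∀ X : End A V, LinearMap.trace A V (Y * X) ∈ I := by
    intro X
    have hX : X ∈ Submodule.span A (Set.range ρ) := by rw [hspanA]; exact Submodule.mem_top
    induction hX using Submodule.span_induction with
    | mem x hx =>
      obtain ⟨g, rfl⟩ := hx
      exact h g
    | zero => rw [mul_zero, map_zero]; exact I.zero_mem
    | add x y _ _ hx hy => rw [mul_add, map_add]; exact I.add_mem hx hy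
    | smul c x _ hx => rw [mul_smul_comm, map_smul]; exact I.mul_mem_left c hx
  have h2 : ∀ i j, LinearMap.toMatrix b b Y i j ∈ I := by
    intro i j
    have h3 := h1 (Matrix.toLin b b (Matrix.single j i 1))
    rw [LinearMap.trace_eq_matrix_trace A b, LinearMap.toMatrix_mul, LinearMap.toMatrix_toLin,
      Matrix.trace_mul_single] at h3
    simpa using h3
  rw [← b.sum_repr (Y v)]
  refine Submodule.sum_mem _ fun i _ => Submodule.smul_mem_smul ?_ Submodule.mem_top
  rw [← LinearMap.toMatrix_mulVec_repr b b Y v, Matrix.mulVec, dotProduct]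
  exact I.sum_mem fun j _ => I.mul_mem_right _ (h2 i j)

end Local

/-! ### the main theorem -/

section Main

open TensorProduct IsLocalRing

variable {R : Type*} [CommRing R] {G : Type*} [Group G] {M : Type*} [AddCommGroup M] [Module R M]
  {A : Type*} [CommRing A] [IsLocalRing A] {V : Type*} [AddCommGroup V] [Module A V]
variable {φ : G →* End R M} {t d : G → R}

/-- the action of `G` on `c M` is commutative (`c = τ(x)`, `x` in the kernel). -/
theorem CH.commute_on_smul (h : CH φ t d) (hd : MulOn M d) (x : G →₀ R)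
    (hx : Finsupp.linearCombination R φ x = 0) (g g' : G) (m : M) :
    Finsupp.linearCombination R t x • φ g (φ g' m) =
      Finsupp.linearCombination R t x • φ g' (φ g m) := by
  set c := Finsupp.linearCombination R t x with hc
  have hs := h.scalar hd x hx g
  rw [← hc] at hs
  set s := c * t g - Finsupp.linearCombination R t (rt g x) with hsdef
  have h1 : ∀ m' : M, c • φ g m' = s • m' := by
    intro m'
    have := congrArg (fun X : End R M => X m') hs
    simpa using this
  calc c • φ g (φ g' m) = s • φ g' m := h1 _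
    _ = φ g' (s • m) := (map_smul _ _ _).symm
    _ = φ g' (c • φ g m) := by rw [h1]
    _ = c • φ g' (φ g m) := map_smul _ _ _

/-- the quotient of `M` on which `G` would act commutatively. -/
def quotSub (φ : G →* End R M) (c : R) (𝔪 : Ideal R) : Submodule R M :=
  Submodule.comap (LinearMap.lsmul R M c) (𝔪 • LinearMap.range (LinearMap.lsmul R M c))

theorem mem_quotSub {c : R} {𝔪 : Ideal R} {m : M} :
    m ∈ quotSub φ c 𝔪 ↔ c • m ∈ 𝔪 • LinearMap.range (LinearMap.lsmul R M c) := Iff.rfl

theorem quotSub_stable (c : R) (𝔪 : Ideal R) (g : G) :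
    quotSub φ c 𝔪 ≤ (quotSub φ c 𝔪).comap (φ g) := by
  intro m hm
  rw [Submodule.mem_comap, mem_quotSub, ← map_smul]
  rw [mem_quotSub] at hm
  refine Submodule.smul_induction_on hm ?_ ?_
  · intro r hr n hn
    rw [map_smul]
    refine Submodule.smul_mem_smul hr ?_
    obtain ⟨m', rfl⟩ := hn
    refine ⟨φ g m', ?_⟩
    simp only [LinearMap.lsmul_apply, map_smul]
  · intro y z hy hz
    rw [map_add]
    exact Submodule.add_mem _ hy hz

/-- the induced action on the quotient. -/
def quotRep (φ : G →* End R M) (c : R) (𝔪 : Ideal R) : G →* End R (M ⧸ quotSub φ c 𝔪) where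
  toFun g := (quotSub φ c 𝔪).mapQ (quotSub φ c 𝔪) (φ g) (quotSub_stable c 𝔪 g)
  map_one' := by
    refine LinearMap.ext fun w => ?_
    obtain ⟨m, rfl⟩ := Submodule.Quotient.mk_surjective _ w
    rw [Submodule.mapQ_apply, map_one]
    rfl
  map_mul' g g' := by
    refine LinearMap.ext fun w => ?_
    obtain ⟨m, rfl⟩ := Submodule.Quotient.mk_surjective _ w
    simp only [map_mul, Module.End.mul_apply, Submodule.mapQ_apply]

@[simp] theorem quotRep_mk (c : R) (𝔪 : Ideal R) (g : G) (m : M) :
    quotRep φ c 𝔪 g (Submodule.Quotient.mk m) = Submodule.Quotient.mk (φ g m) := rfl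

theorem CH.quotRep (h : CH φ t d) (c : R) (𝔪 : Ideal R) : CH (quotRep φ c 𝔪) t d := by
  intro g
  refine LinearMap.ext fun w => ?_
  obtain ⟨m, rfl⟩ := Submodule.Quotient.mk_surjective _ w
  have h1 := congrArg (fun X : End R M => X m) (h g)
  simp only [LinearMap.add_apply, LinearMap.sub_apply, LinearMap.smul_apply, Module.End.mul_apply,
    Module.End.one_apply, LinearMap.zero_apply] at h1
  simp only [LinearMap.add_apply, LinearMap.sub_apply, LinearMap.smul_apply, Module.End.mul_apply,
    Module.End.one_apply, LinearMap.zero_apply, quotRep_mk]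
  rw [← Submodule.Quotient.mk_smul, ← Submodule.Quotient.mk_smul, ← Submodule.Quotient.mk_sub,
    ← Submodule.Quotient.mk_add, h1, Submodule.Quotient.mk_zero]

/-- **Step A**: the trace of the kernel of `R[G] → End M` lies in `I`. -/
theorem CH.pi_trace_mem [Module.Finite R M] (h : CH φ t d)
    (hd : MulOn M d) (π : R →+* A) (I : Ideal A) (hI : I ≠ ⊤)
    (hann : ∀ r : R, (∀ m : M, r • m = 0) → π r ∈ I)
    (hmax : ((maximalIdeal A).comap π).IsMaximal)
    (b : Basis (Fin 2) A V) (ρ : G →* End A V)
    (hspan : Submodule.span (ResidueField A)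
      (Set.range fun g => (ρ g).baseChange (ResidueField A)) = ⊤)
    (htr : ∀ g, LinearMap.trace A V (ρ g) - π (t g) ∈ I) (x : G →₀ R)
    (hx : Finsupp.linearCombination R φ x = 0) : π (Finsupp.linearCombination R t x) ∈ I := by
  haveI : Module.Finite A V := Module.Finite.of_basis b
  haveI : Module.Free A V := Module.Free.of_basis b
  set c := Finsupp.linearCombination R t x with hc
  set 𝔪 := (maximalIdeal A).comap π with h𝔪
  set N := LinearMap.range (LinearMap.lsmul R M c) with hN
  have hIle : I ≤ maximalIdeal A := le_maximalIdeal hI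
  by_cases hP : quotSub φ c 𝔪 = ⊤
  · -- Nakayama
    have hNle : N ≤ 𝔪 • N := by
      rintro _ ⟨m, rfl⟩
      have : m ∈ quotSub φ c 𝔪 := by rw [hP]; exact Submodule.mem_top
      exact this
    have hNfg : N.FG := by
      rw [hN, LinearMap.range_eq_map]
      exact Submodule.FG.map _ Module.Finite.fg_top
    obtain ⟨r, hr1, hr2⟩ :=
      Submodule.exists_sub_one_mem_and_smul_eq_zero_of_fg_of_le_smul 𝔪 N hNfg hNle
    have h1 : π (r * c) ∈ I := by
      refine hann _ fun m => ?_
      rw [mul_smul]
      exact hr2 _ ⟨m, rfl⟩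
    have h2 : IsUnit (π r) := by
      rw [← notMem_maximalIdeal]
      intro hmem
      have h3 : π (r - 1) ∈ maximalIdeal A := hr1
      have h4 : (1 : A) ∈ maximalIdeal A := by
        have := (maximalIdeal A).sub_mem hmem h3
        rwa [map_sub, map_one, sub_sub_cancel] at this
      exact (Ideal.ne_top_iff_one _).mp (maximalIdeal.isMaximal A).ne_top h4
    rw [map_mul] at h1
    obtain ⟨u, hu⟩ := h2
    have h5 : π c = (↑u⁻¹ : A) * (π r * π c) := by
      rw [← hu, ← mul_assoc, Units.inv_mul, one_mul]
    rw [h5]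
    exact I.mul_mem_left _ h1
  · -- the residual argument
    exfalso
    haveI : Nontrivial (M ⧸ quotSub φ c 𝔪) := Submodule.Quotient.nontrivial_iff.mpr hP
    have hW : ∀ r ∈ 𝔪, ∀ w : M ⧸ quotSub φ c 𝔪, r • w = 0 := by
      intro r hr w
      obtain ⟨m, rfl⟩ := Submodule.Quotient.mk_surjective _ w
      rw [← Submodule.Quotient.mk_smul, Submodule.Quotient.mk_eq_zero, mem_quotSub, smul_comm]
      exact Submodule.smul_mem_smul hr ⟨m, rfl⟩
    set j : R →+* ResidueField A := (residue A).comp π with hjdef
    have hj : ∀ r ∈ 𝔪, j r = 0 := by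
      intro r hr
      rw [hjdef, RingHom.comp_apply, residue_eq_zero_iff]
      exact hr
    set ρbar : G →* End (ResidueField A) (ResidueField A ⊗[A] V) :=
      ((Module.End.baseChangeHom A (ResidueField A) V : End A V →ₐ[A] _) : End A V →* _).comp ρ
      with hρbar
    have hspan' : Submodule.span (ResidueField A) (Set.range ρbar) = ⊤ := by
      rw [← hspan]
      rfl
    have htr' : ∀ g, LinearMap.trace (ResidueField A) (ResidueField A ⊗[A] V) (ρbar g) =
        j (t g) := by
      intro g
      have h1 : ρbar g = (ρ g).baseChange (ResidueField A) := rfl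
      rw [h1, LinearMap.trace_baseChange, hjdef, RingHom.comp_apply, ← sub_eq_zero]
      have h2 := hIle (htr g)
      rw [← residue_eq_zero_iff, map_sub] at h2
      exact h2
    obtain ⟨g, g', hgg'⟩ := (h.quotRep c 𝔪).exists_not_commute_of_residual (hd.quot _) hmax hW j hj
      (Algebra.TensorProduct.basis (ResidueField A) b) ρbar hspan' htr'
    apply hgg'
    refine LinearMap.ext fun w => ?_
    obtain ⟨m, rfl⟩ := Submodule.Quotient.mk_surjective _ w
    rw [Module.End.mul_apply, Module.End.mul_apply, quotRep_mk, quotRep_mk, quotRep_mk, quotRep_mk,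
      ← sub_eq_zero, ← Submodule.Quotient.mk_sub, Submodule.Quotient.mk_eq_zero, mem_quotSub,
      smul_sub, h.commute_on_smul hd x hx g g' m, sub_self]
    exact Submodule.zero_mem _

/-- **THE CAYLEY–HAMILTON KERNEL THEOREM.**  Every element of the group algebra which kills `M`
acts on `V` with values in `I V`. -/
theorem CH.rho_mem_of_phi_eq_zero [Module.Finite R M] (h : CH φ t d)
    (hd : MulOn M d) (π : R →+* A) (I : Ideal A) (hI : I ≠ ⊤)
    (hann : ∀ r : R, (∀ m : M, r • m = 0) → π r ∈ I)
    (hmax : ((maximalIdeal A).comap π).IsMaximal)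
    (b : Basis (Fin 2) A V) (ρ : G →* End A V)
    (hspan : Submodule.span (ResidueField A)
      (Set.range fun g => (ρ g).baseChange (ResidueField A)) = ⊤)
    (htr : ∀ g, LinearMap.trace A V (ρ g) - π (t g) ∈ I) (x : G →₀ R)
    (hx : Finsupp.linearCombination R φ x = 0) (v : V) :
    lcπ π ρ x v ∈ I • (⊤ : Submodule A V) := by
  refine apply_mem_of_trace_mul_rho_mem b ρ hspan I _ (fun g => ?_) v
  rw [← lcπ_rt π ρ (fun a b => map_mul ρ a b), lcπ_map]
  have hx' : Finsupp.linearCombination R φ (rt g x) = 0 := by
    rw [lc_rt φ (fun a b => map_mul φ a b), hx, zero_mul]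
  have h1 := h.pi_trace_mem hd π I hI hann hmax b ρ hspan htr (rt g x) hx'
  rw [← lcπ_self] at h1
  have h2 : lcπ π (⇑(LinearMap.trace A V) ∘ ⇑ρ) (rt g x) - lcπ π (fun g => π (t g)) (rt g x) ∈ I := by
    rw [lcπ_eq_sum, lcπ_eq_sum, ← Finsupp.sum_sub]
    refine I.sum_mem fun a _ => ?_
    simp only [Function.comp_apply, smul_eq_mul]
    rw [← mul_sub]
    exact I.mul_mem_left _ (htr a)
  have := I.add_mem h2 h1
  rwa [sub_add_cancel] at this

end Main

/-! ### left translation -/

section LeftTranslation

variable {R : Type*} [CommRing R] {G : Type*} [Mul G]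

/-- left translation of a finitely supported family. -/
def lt (h : G) (x : G →₀ R) : G →₀ R := Finsupp.mapDomain (h * ·) x

theorem lt_add (h : G) (x y : G →₀ R) : lt h (x + y) = lt h x + lt h y :=
  Finsupp.mapDomain_add

theorem lt_zero (h : G) : lt h (0 : G →₀ R) = 0 := Finsupp.mapDomain_zero

theorem lc_lt {E : Type*} [Semiring E] [Algebra R E] (f : G → E)
    (hf : ∀ g h, f (g * h) = f g * f h) (x : G →₀ R) (h : G) :
    Finsupp.linearCombination R f (lt h x) = f h * Finsupp.linearCombination R f x := by
  rw [lt, Finsupp.linearCombination_mapDomain]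
  have h1 : f ∘ (h * ·) = (LinearMap.mulLeft R (f h)) ∘ f := by
    funext g
    simp [hf]
  rw [h1, ← Finsupp.apply_linearCombination]
  rfl

theorem lcπ_lt {A : Type*} [CommRing A] (π : R →+* A) {E : Type*} [Ring E] [Algebra A E]
    (f : G → E) (hf : ∀ g h, f (g * h) = f g * f h) (x : G →₀ R) (h : G) :
    lcπ π f (lt h x) = f h * lcπ π f x := by
  rw [lcπ_apply, lcπ_apply, lt, ← Finsupp.mapDomain_mapRange _ _ _ _ (fun a b => map_add π a b)]
  exact lc_lt f hf _ h

end LeftTranslation

/-! ### the subquotient -/

section SubQuot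

open TensorProduct IsLocalRing

variable {R : Type*} [CommRing R] {G : Type*} [Group G] {M : Type*} [AddCommGroup M] [Module R M]
  {A : Type*} [CommRing A] [IsLocalRing A] {V : Type*} [AddCommGroup V] [Module A V]
variable {ι : Type*} [Fintype ι]

/-- `Ψ : R[G]^ι → M^(ι × M)`. -/
def psiHom (φ : G →* End R M) (ι : Type*) : (ι → (G →₀ R)) →+ (ι × M → M) where
  toFun x := fun im => Finsupp.linearCombination R φ (x im.1) im.2
  map_zero' := by
    funext im
    simp
  map_add' x y := by
    funext im
    simp

@[simp] theorem psiHom_apply (φ : G →* End R M) (x : ι → (G →₀ R)) (im : ι × M) :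
    psiHom φ ι x im = Finsupp.linearCombination R φ (x im.1) im.2 := rfl

/-- `Φ : R[G]^ι → V / I V`. -/
def phiHom (π : R →+* A) (I : Ideal A) (ρ : G →* End A V) (w : ι → V) :
    (ι → (G →₀ R)) →+ V ⧸ (I • (⊤ : Submodule A V)) where
  toFun x := ∑ i, Submodule.Quotient.mk (lcπ π ρ (x i) (w i))
  map_zero' := by simp
  map_add' x y := by
    simp only [Pi.add_apply, map_add, LinearMap.add_apply, Submodule.Quotient.mk_add,
      Finset.sum_add_distrib]

@[simp] theorem phiHom_apply (π : R →+* A) (I : Ideal A) (ρ : G →* End A V) (w : ι → V)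
    (x : ι → (G →₀ R)) :
    phiHom π I ρ w x = ∑ i, Submodule.Quotient.mk (lcπ π ρ (x i) (w i)) := rfl

/-- **`V / I V` is an equivariant quotient of a `G`-stable subgroup of `M^(ι × M)`**, where
`w : ι → V` is a finite family whose classes exhaust `V / I V`. -/
theorem CH.exists_subquotient {φ : G →* End R M} {t d : G → R} [Module.Finite R M]
    (h : CH φ t d) (hd : MulOn M d) (π : R →+* A) (I : Ideal A)
    (hI : I ≠ ⊤) (hann : ∀ r : R, (∀ m : M, r • m = 0) → π r ∈ I)
    (hmax : ((maximalIdeal A).comap π).IsMaximal)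
    (b : Basis (Fin 2) A V) (ρ : G →* End A V)
    (hspan : Submodule.span (ResidueField A)
      (Set.range fun g => (ρ g).baseChange (ResidueField A)) = ⊤)
    (htr : ∀ g, LinearMap.trace A V (ρ g) - π (t g) ∈ I)
    (w : ι → V) (hw : ∀ v : V ⧸ (I • (⊤ : Submodule A V)), ∃ i, Submodule.Quotient.mk (w i) = v) :
    ∃ X : AddSubgroup (ι × M → M),
      (∀ (g : G), ∀ f ∈ X, (fun im => φ g (f im)) ∈ X) ∧
      ∃ q : X →+ V ⧸ (I • (⊤ : Submodule A V)), Function.Surjective q ∧
        ∀ (g : G) (f : X) (hf : (fun im => φ g (f.1 im)) ∈ X) (v : V),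
          q f = Submodule.Quotient.mk v → q ⟨_, hf⟩ = Submodule.Quotient.mk (ρ g v) := by
  classical
  set Ψ := psiHom (R := R) φ ι with hΨ
  set Φ := phiHom π I ρ w with hΦ
  have hker : Ψ.rangeRestrict.ker ≤ Φ.ker := by
    rw [AddMonoidHom.ker_rangeRestrict]
    intro x hx
    rw [AddMonoidHom.mem_ker] at hx ⊢
    rw [hΦ, phiHom_apply]
    refine Finset.sum_eq_zero fun i _ => ?_
    rw [Submodule.Quotient.mk_eq_zero]
    refine h.rho_mem_of_phi_eq_zero hd π I hI hann hmax b ρ hspan htr (x i) ?_ (w i)
    refine LinearMap.ext fun m => ?_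
    have := congrFun hx (i, m)
    rw [hΨ, psiHom_apply] at this
    rw [this]
    rfl
  set q := Ψ.rangeRestrict.liftOfRightInverse (Function.surjInv Ψ.rangeRestrict_surjective)
    (Function.rightInverse_surjInv _) ⟨Φ, hker⟩ with hq
  have hqΨ : ∀ x, q (Ψ.rangeRestrict x) = Φ x := fun x =>
    AddMonoidHom.liftOfRightInverse_comp_apply _ _ _ ⟨Φ, hker⟩ x
  have hstab : ∀ (g : G) (x : ι → (G →₀ R)),
      (fun im => φ g (Ψ x im)) = Ψ (fun i => lt g (x i)) := by
    intro g x
    funext im
    rw [hΨ, psiHom_apply, psiHom_apply, lc_lt φ (fun a b => map_mul φ a b)]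
    rfl
  refine ⟨Ψ.range, ?_, q, ?_, ?_⟩
  · rintro g _ ⟨x, rfl⟩
    rw [hstab]
    exact ⟨_, rfl⟩
  · intro v
    obtain ⟨i, rfl⟩ := hw v
    refine ⟨Ψ.rangeRestrict (Pi.single i (Finsupp.single 1 1)), ?_⟩
    rw [hqΨ, hΦ, phiHom_apply, Finset.sum_eq_single i]
    · rw [Pi.single_eq_same, lcπ_single, map_one, map_one, one_smul]
      rfl
    · intro j _ hj
      rw [Pi.single_eq_of_ne hj, map_zero, LinearMap.zero_apply, Submodule.Quotient.mk_zero]
    · intro hi
      exact absurd (Finset.mem_univ i) hi
  · rintro g ⟨_, x, rfl⟩ hf v hv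
    have h1 : (⟨Ψ x, ⟨x, rfl⟩⟩ : Ψ.range) = Ψ.rangeRestrict x := rfl
    have h2 : (⟨fun im => φ g (Ψ x im), hf⟩ : Ψ.range) = Ψ.rangeRestrict (fun i => lt g (x i)) := by
      apply Subtype.ext
      exact hstab g x
    rw [h1, hqΨ] at hv
    rw [h2, hqΨ, hΦ, phiHom_apply]
    have h3 : ∀ i, (Submodule.Quotient.mk (lcπ π ρ (lt g (x i)) (w i)) :
        V ⧸ (I • (⊤ : Submodule A V))) =
        (I • (⊤ : Submodule A V)).mkQ (ρ g (lcπ π ρ (x i) (w i))) := by
      intro i
      rw [lcπ_lt π ρ (fun a b => map_mul ρ a b)]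
      rfl
    simp only [h3]
    rw [← map_sum, ← map_sum]
    rw [hΦ, phiHom_apply] at hv
    have h4 : (∑ i, lcπ π ρ (x i) (w i)) - v ∈ I • (⊤ : Submodule A V) := by
      rw [← Submodule.Quotient.mk_eq_zero, Submodule.Quotient.mk_sub, ← hv, sub_eq_zero]
      exact map_sum (I • (⊤ : Submodule A V)).mkQ _ _
    show Submodule.Quotient.mk (ρ g (∑ i, lcπ π ρ (x i) (w i))) = Submodule.Quotient.mk (ρ g v)
    rw [← sub_eq_zero, ← Submodule.Quotient.mk_sub, ← map_sub, Submodule.Quotient.mk_eq_zero]
    refine Submodule.smul_induction_on h4 ?_ ?_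
    · intro r hr n _
      rw [map_smul]
      exact Submodule.smul_mem_smul hr Submodule.mem_top
    · intro y z hy hz
      rw [map_add]
      exact Submodule.add_mem _ hy hz

end SubQuot

end

end Fermat.Agent.FF.S32.CHKer9
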