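/-
Programme FF, chapter S32 (helper5), file FlatChain5: **closure lemmas for flat models in the shape
needed by S32**.

* `hasFlatModel_pi` : finite powers `Fin n → Y` of a flat module are flat;
* `hasFlatModel_of_ker_le` : if `Y` is flat, `f : X → Y` and `q : X → Z` are equivariant additive maps,
  `q` surjective and `ker f ⊆ ker q`, then `Z` is flat (`Z` is a quotient of the image of `f`).
-/
import Mathlib
import Fermat.Agent.TW.FLAT.SubQuot6
import Fermat.Agent.FF.LEVEL.Trivial0

set_option autoImplicit false

namespace Fermat.Agent.FF.S32.FlatChain5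

open Fermat.Agent.TW.FLAT.Points6 Fermat.Agent.TW.FLAT.SubQuot6 GaloisRep

local notation "Qb" => AlgebraicClosure ℚ
local notation "GQ" => (AlgebraicClosure ℚ ≃ₐ[ℚ] AlgebraicClosure ℚ)

variable (p : ℕ) [Fact p.Prime]

omit [Fact p.Prime] in
/-- finite powers of flat modules are flat. -/
theorem hasFlatModel_pi {Y : Type} [AddCommGroup Y] {act : GQ → Y → Y}
    (h : HasFlatModel (ratLocalizedAt p) Qb GQ Y act) (n : ℕ) :
    HasFlatModel (ratLocalizedAt p) Qb GQ (Fin n → Y) (fun σ f i => act σ (f i)) := by
  induction n with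
  | zero =>
    exact Fermat.Agent.FF.LEVEL.Trivial0.hasFlatModel_of_subsingleton _ _ _ _ _
  | succ n ih =>
    have h1 := HasFlatModel.prod h ih
    let φ : Y × (Fin n → Y) ≃+ (Fin (n + 1) → Y) :=
      { toFun := fun x => Fin.cons x.1 x.2
        invFun := fun f => (f 0, Fin.tail f)
        left_inv := fun x => by simp
        right_inv := fun f => by simp
        map_add' := fun x y => by
          funext i
          refine Fin.cases ?_ (fun j => ?_) i
          · simp
          · simp }
    refine h1.of_addEquiv φ ?_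
    intro σ x
    funext i
    refine Fin.cases ?_ (fun j => ?_) i
    · simp [φ]
    · simp [φ]

/-- **subquotients, kernel form.** -/
theorem hasFlatModel_of_ker_le {Y : Type} [AddCommGroup Y] {actY : GQ → Y → Y}
    (h : HasFlatModel (ratLocalizedAt p) Qb GQ Y actY)
    {X : Type} [AddCommGroup X] {actX : GQ → X → X} (f : X →+ Y)
    (hf : ∀ (σ : GQ) (x : X), f (actX σ x) = actY σ (f x))
    {Z : Type} [AddCommGroup Z] {actZ : GQ → Z → Z} (q : X →+ Z) (hq : Function.Surjective q)
    (hqact : ∀ (σ : GQ) (x : X), q (actX σ x) = actZ σ (q x))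
    (hker : ∀ x : X, f x = 0 → q x = 0) :
    HasFlatModel (ratLocalizedAt p) Qb GQ Z actZ := by
  classical
  -- the image of `f` with the restricted action
  have hstab : ∀ (σ : GQ), ∀ y ∈ f.range, actY σ y ∈ f.range := by
    rintro σ _ ⟨x, rfl⟩
    exact ⟨actX σ x, hf σ x⟩
  let act' : GQ → f.range → f.range := fun σ y => ⟨actY σ y.1, hstab σ y.1 y.2⟩
  -- the induced map `range f → Z`
  have hwd : ∀ x x' : X, f x = f x' → q x = q x' := by
    intro x x' hxx'
    have : f (x - x') = 0 := by rw [map_sub, hxx', sub_self]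
    have := hker _ this
    rwa [map_sub, sub_eq_zero] at this
  let π : f.range →+ Z :=
    { toFun := fun y => q y.2.choose
      map_zero' := by
        have : f (0 : f.range).2.choose = f 0 := by
          rw [(0 : f.range).2.choose_spec, map_zero]; rfl
        rw [hwd _ _ this, map_zero]
      map_add' := fun y y' => by
        have : f (y + y').2.choose = f (y.2.choose + y'.2.choose) := by
          rw [(y + y').2.choose_spec, map_add, y.2.choose_spec, y'.2.choose_spec]; rfl
        rw [hwd _ _ this, map_add] }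
  have hπ : ∀ x : X, π ⟨f x, x, rfl⟩ = q x := by
    intro x
    exact hwd _ _ (⟨f x, x, rfl⟩ : f.range).2.choose_spec
  refine hasFlatModel_subquotient_at p h f.range.subtype Subtype.val_injective
    (act' := act') (fun σ m => rfl) π ?_ ?_
  · intro z
    obtain ⟨x, rfl⟩ := hq z
    exact ⟨⟨f x, x, rfl⟩, hπ x⟩
  · rintro σ ⟨_, x, rfl⟩
    have e : act' σ ⟨f x, x, rfl⟩ = ⟨f (actX σ x), actX σ x, rfl⟩ := Subtype.ext (hf σ x).symm
    rw [e, hπ, hπ, hqact]

end Fermat.Agent.FF.S32.FlatChain5
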