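/-
Programme FF, chapter S32 (helper5), file Chain5: **finite levels of a representation embedded in a
Hecke–Galois module are flat** (abstract chain).

`T` a Noetherian local `ℤ_[p]`-algebra with `p ∈ 𝔪`; `Mod` a finitely generated `T`-module with an
action `σ` of `G_ℚ` which is an equivariant quotient of `T ⊗ M₀`, where `M₀` is a `ℤ_[p]`-module whose
levels `M₀ / p^k` embed equivariantly into flat modules (`hlev`); `V` a `T`-module with `ρV` and an
injective equivariant `J : V → End_T Mod`.  Then for every ideal `I` with `T ⧸ I` finite, `V ⧸ I V` is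
flat (`hasFlatModel_level`): Artin–Rees for `V ⊆ Mod^r`, `Mod ⧸ I' Mod` is a quotient of
`(M₀ / p^k)^s`, and the closure lemmas of `FlatChain5`.
-/
import Mathlib
import Fermat.Agent.FF.S32.FlatChain5

set_option autoImplicit false

namespace Fermat.Agent.FF.S32.Chain5

open TensorProduct Module IsLocalRing
open Fermat.Agent.TW.FLAT.Points6 Fermat.Agent.FF.S32.FlatChain5 GaloisRep

local notation "Qb" => AlgebraicClosure ℚ
local notation "GQ" => (AlgebraicClosure ℚ ≃ₐ[ℚ] AlgebraicClosure ℚ)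

section Aux

variable {T : Type*} [CommRing T]

/-- linear maps preserve `I • ⊤`. -/
theorem map_mem_smul_top {M N : Type*} [AddCommGroup M] [Module T M] [AddCommGroup N] [Module T N]
    (I : Ideal T) (f : M →ₗ[T] N) {x : M} (hx : x ∈ I • (⊤ : Submodule T M)) :
    f x ∈ I • (⊤ : Submodule T N) := by
  have : (I • (⊤ : Submodule T M)).map f ≤ I • (⊤ : Submodule T N) := by
    rw [Submodule.map_smul'']
    exact Submodule.smul_mono le_rfl le_top
  exact this ⟨x, hx, rfl⟩

/-- a family all of whose components lie in `I • ⊤` lies in `I • ⊤`. -/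
theorem pi_mem_smul_top {M : Type*} [AddCommGroup M] [Module T M] (I : Ideal T) {r : ℕ}
    (x : Fin r → M) (hx : ∀ i, x i ∈ I • (⊤ : Submodule T M)) :
    x ∈ I • (⊤ : Submodule T (Fin r → M)) := by
  classical
  have e : x = ∑ i, LinearMap.single T (fun _ : Fin r => M) i (x i) := by
    funext j
    simp [Finset.sum_apply, Pi.single_apply]
  rw [e]
  exact Submodule.sum_mem _ fun i _ => map_mem_smul_top I _ (hx i)

/-- in a local ring, a power of every element of the maximal ideal lies in an ideal of finite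
index. -/
theorem exists_pow_mem [IsLocalRing T] {a : T} (ha : a ∈ maximalIdeal T) (I : Ideal T)
    [Finite (T ⧸ I)] : ∃ k : ℕ, a ^ k ∈ I := by
  obtain ⟨k, l, hkl, h⟩ := Finite.exists_ne_map_eq_of_infinite
    (fun k : ℕ => Ideal.Quotient.mk I (a ^ k))
  wlog hlt : k < l generalizing k l
  · exact this l k hkl.symm h.symm (lt_of_le_of_ne (not_lt.mp hlt) hkl.symm)
  refine ⟨k, ?_⟩
  have h1 : a ^ k - a ^ l ∈ I := Ideal.Quotient.eq.mp h
  have h2 : a ^ k - a ^ l = a ^ k * (1 - a ^ (l - k)) := by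
    rw [mul_sub, mul_one, ← pow_add, Nat.add_sub_cancel' hlt.le]
  have h3 : IsUnit (1 - a ^ (l - k)) := by
    have : a ^ (l - k) ∈ maximalIdeal T :=
      Ideal.pow_mem_of_mem _ ha _ (Nat.sub_pos_of_lt hlt)
    by_contra hnu
    have h4 : 1 - a ^ (l - k) ∈ maximalIdeal T := (mem_maximalIdeal _).mpr hnu
    have h5 : (1 : T) ∈ maximalIdeal T := by
      have := Ideal.add_mem _ h4 this
      rwa [sub_add_cancel] at this
    exact (Ideal.ne_top_iff_one _).mp (maximalIdeal.isMaximal T).ne_top h5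
  rw [h2] at h1
  exact (Ideal.mul_unit_mem_iff_mem I h3).mp h1

end Aux

section Main

variable {p : ℕ} [Fact p.Prime]
  {T : Type} [CommRing T] [IsLocalRing T] [IsNoetherianRing T] [Algebra ℤ_[p] T]
  {M₀ : Type} [AddCommGroup M₀] [Module ℤ_[p] M₀] (ρM : GQ →* End ℤ_[p] M₀)
  {Mod : Type} [AddCommGroup Mod] [Module T Mod] [Module.Finite T Mod] (σ : GQ →* End T Mod)

/-- the levels of `M₀` embed into flat modules. -/
def LevelsFlat : Prop :=
  ∀ k : ℕ, ∃ (Y : Type) (_ : AddCommGroup Y) (actY : GQ → Y → Y),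
    HasFlatModel (ratLocalizedAt p) Qb GQ Y actY ∧
    ∃ f : M₀ →+ Y, (∀ g z, f (ρM g z) = actY g (f z)) ∧
      ∀ z, f z = 0 → ∃ y, z = ((p : ℤ_[p]) ^ k) • y

variable {ρM σ}

omit [IsNoetherianRing T] [Module.Finite T Mod] in
/-- `Mod ⧸ I' Mod` is flat when `T ⧸ I'` is finite. -/
theorem hasFlatModel_mod_level (hpT : (p : T) ∈ maximalIdeal T)
    (q : (T ⊗[ℤ_[p]] M₀) →ₗ[T] Mod) (hq : Function.Surjective q)
    (hqσ : ∀ g w, q ((ρM g).baseChange T w) = σ g (q w))
    (hlev : LevelsFlat (p := p) ρM) (I' : Ideal T) [Finite (T ⧸ I')] :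
    HasFlatModel (ratLocalizedAt p) Qb GQ (Mod ⧸ (I' • (⊤ : Submodule T Mod)))
      (fun g => Submodule.mapQ _ _ (σ g) (by
        rw [← Submodule.map_le_iff_le_comap, Submodule.map_smul'']
        exact Submodule.smul_mono le_rfl le_top)) := by
  classical
  obtain ⟨k, hk⟩ := exists_pow_mem hpT I'
  obtain ⟨Y, _, actY, hY, f, hfact, hfker⟩ := hlev k
  -- representatives of `T ⧸ I'`
  let s := Nat.card (T ⧸ I')
  let e : T ⧸ I' ≃ Fin s := Finite.equivFin (T ⧸ I')
  let t : Fin s → T := fun i => (Ideal.Quotient.mk_surjective (e.symm i)).choose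
  have ht : ∀ a : T, ∃ i, a - t i ∈ I' := by
    intro a
    refine ⟨e (Ideal.Quotient.mk I' a), ?_⟩
    rw [← Ideal.Quotient.eq]
    have := (Ideal.Quotient.mk_surjective (e.symm (e (Ideal.Quotient.mk I' a)))).choose_spec
    rw [this, Equiv.symm_apply_apply]
  let Z := Mod ⧸ (I' • (⊤ : Submodule T Mod))
  let mkZ : Mod →ₗ[T] Z := (I' • (⊤ : Submodule T Mod)).mkQ
  have hmkZ : ∀ x : Mod, x ∈ I' • (⊤ : Submodule T Mod) → mkZ x = 0 := fun x hx =>
    (Submodule.Quotient.mk_eq_zero _).mpr hx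
  -- the map `(Fin s → M₀) → Z`
  let qX : (Fin s → M₀) →+ Z :=
    { toFun := fun z => mkZ (q (∑ i, t i ⊗ₜ[ℤ_[p]] z i))
      map_zero' := by simp
      map_add' := fun z z' => by
        simp only [Pi.add_apply, TensorProduct.tmul_add, Finset.sum_add_distrib, map_add] }
  have hqX : ∀ z, qX z = mkZ (q (∑ i, t i ⊗ₜ[ℤ_[p]] z i)) := fun z => rfl
  let fX : (Fin s → M₀) →+ (Fin s → Y) :=
    { toFun := fun z i => f (z i)
      map_zero' := by funext i; simp
      map_add' := fun z z' => by funext i; simp }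
  refine hasFlatModel_of_ker_le p (hasFlatModel_pi p hY s)
    (actX := fun g z i => ρM g (z i)) fX (fun g z => by funext i; exact hfact g (z i))
    qX ?_ ?_ ?_
  · -- surjectivity
    intro z
    obtain ⟨x, rfl⟩ := Submodule.Quotient.mk_surjective _ z
    obtain ⟨w, rfl⟩ := hq x
    show (Submodule.Quotient.mk (q w) : Z) ∈ qX.range
    induction w using TensorProduct.induction_on with
    | zero =>
      rw [map_zero, Submodule.Quotient.mk_zero]
      exact qX.range.zero_mem
    | tmul a y =>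
      obtain ⟨i, hi⟩ := ht a
      refine ⟨Pi.single i y, ?_⟩
      rw [hqX]
      have e1 : ∑ j, t j ⊗ₜ[ℤ_[p]] (Pi.single i y : Fin s → M₀) j = t i ⊗ₜ[ℤ_[p]] y := by
        rw [Finset.sum_eq_single i]
        · rw [Pi.single_eq_same]
        · intro j _ hj
          rw [Pi.single_eq_of_ne hj, TensorProduct.tmul_zero]
        · intro h; exact absurd (Finset.mem_univ i) h
      rw [e1]
      symm
      show mkZ (q (a ⊗ₜ[ℤ_[p]] y)) = mkZ (q (t i ⊗ₜ[ℤ_[p]] y))
      rw [← sub_eq_zero, ← map_sub, ← map_sub, ← TensorProduct.sub_tmul]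
      apply hmkZ
      have : (a - t i) ⊗ₜ[ℤ_[p]] y = (a - t i) • ((1 : T) ⊗ₜ[ℤ_[p]] y) := by
        rw [TensorProduct.smul_tmul', smul_eq_mul, mul_one]
      rw [this, map_smul]
      exact Submodule.smul_mem_smul hi Submodule.mem_top
    | add w w' hw hw' =>
      rw [map_add, Submodule.Quotient.mk_add]
      exact qX.range.add_mem hw hw'
  · -- equivariance
    intro g z
    rw [hqX, hqX]
    have e1 : ∑ i, t i ⊗ₜ[ℤ_[p]] (ρM g (z i)) =
        (ρM g).baseChange T (∑ i, t i ⊗ₜ[ℤ_[p]] z i) := by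
      rw [map_sum]
      refine Finset.sum_congr rfl fun i _ => ?_
      rw [LinearMap.baseChange_tmul]
    rw [e1, hqσ]
    rfl
  · -- kernel
    intro z hz
    rw [hqX]
    apply hmkZ
    have hz' : ∀ i, f (z i) = 0 := fun i => congrFun hz i
    choose y hy using fun i => hfker (z i) (hz' i)
    have e1 : ∑ i, t i ⊗ₜ[ℤ_[p]] z i = ((p : T) ^ k) • ∑ i, t i ⊗ₜ[ℤ_[p]] y i := by
      rw [Finset.smul_sum]
      refine Finset.sum_congr rfl fun i _ => ?_
      rw [hy i, TensorProduct.tmul_smul, ← algebraMap_smul T ((p : ℤ_[p]) ^ k), map_pow,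
        map_natCast]
    rw [e1, map_smul]
    exact Submodule.smul_mem_smul hk Submodule.mem_top

/-- **finite levels of `V` are flat.** -/
theorem hasFlatModel_level (hpT : (p : T) ∈ maximalIdeal T)
    {V : Type} [AddCommGroup V] [Module T V] (ρV : GQ →* End T V)
    (q : (T ⊗[ℤ_[p]] M₀) →ₗ[T] Mod) (hq : Function.Surjective q)
    (hqσ : ∀ g w, q ((ρM g).baseChange T w) = σ g (q w))
    (hlev : LevelsFlat (p := p) ρM)
    (J : V →ₗ[T] End T Mod) (hJ : Function.Injective J) (hJσ : ∀ g v, J (ρV g v) = σ g * J v)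
    (I : Ideal T) [Finite (T ⧸ I)]
    (actZ : GQ → (V ⧸ (I • (⊤ : Submodule T V))) → (V ⧸ (I • (⊤ : Submodule T V))))
    (hZ : ∀ g v, actZ g (Submodule.Quotient.mk v) = Submodule.Quotient.mk (ρV g v)) :
    HasFlatModel (ratLocalizedAt p) Qb GQ (V ⧸ (I • (⊤ : Submodule T V))) actZ := by
  classical
  obtain ⟨r, m, hm⟩ := Module.Finite.exists_fin (R := T) (M := Mod)
  -- the embedding `V → Mod ^ r`
  let emb : V →ₗ[T] (Fin r → Mod) := LinearMap.pi fun i => (LinearMap.applyₗ (m i)).comp J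
  have hemb : ∀ v i, emb v i = J v (m i) := fun v i => rfl
  have hemb_inj : Function.Injective emb := by
    rw [injective_iff_map_eq_zero]
    intro v hv
    apply hJ
    rw [map_zero]
    refine LinearMap.ext_on_range hm fun i => ?_
    rw [LinearMap.zero_apply, ← hemb, hv]
    rfl
  -- Artin–Rees
  obtain ⟨k₀, hk₀⟩ := Ideal.exists_pow_inf_eq_pow_smul I (LinearMap.range emb)
  set I' : Ideal T := I ^ (k₀ + 1) with hI'
  have hAR : ∀ v : V, emb v ∈ I' • (⊤ : Submodule T (Fin r → Mod)) →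
      v ∈ I • (⊤ : Submodule T V) := by
    intro v hv
    have h1 : emb v ∈ I' • (⊤ : Submodule T (Fin r → Mod)) ⊓ LinearMap.range emb :=
      ⟨hv, ⟨v, rfl⟩⟩
    rw [hI', hk₀ (k₀ + 1) (Nat.le_succ k₀), Nat.add_sub_cancel_left, pow_one] at h1
    have h2 : I • (I ^ k₀ • (⊤ : Submodule T (Fin r → Mod)) ⊓ LinearMap.range emb) ≤
        (I • (⊤ : Submodule T V)).map emb := by
      rw [Submodule.map_smul'', Submodule.map_top]
      exact Submodule.smul_mono le_rfl inf_le_right
    obtain ⟨v', hv', hvv'⟩ := h2 h1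
    rwa [← hemb_inj hvv']
  have : Finite (T ⧸ I') := Ideal.finite_quotient_pow (IsNoetherian.noetherian I) (k₀ + 1)
  -- the flat target
  have hflat2 := hasFlatModel_mod_level hpT q hq hqσ hlev I'
  have hflat1 := hasFlatModel_pi p hflat2 r
  let mkZ : Mod →ₗ[T] Mod ⧸ (I' • (⊤ : Submodule T Mod)) := (I' • (⊤ : Submodule T Mod)).mkQ
  let f₁ : V →+ (Fin r → Mod ⧸ (I' • (⊤ : Submodule T Mod))) :=
    { toFun := fun v i => mkZ (emb v i)
      map_zero' := by funext i; simp
      map_add' := fun v w => by funext i; simp }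
  refine hasFlatModel_of_ker_le p hflat1 (actX := fun g v => ρV g v) f₁ ?_
    ((I • (⊤ : Submodule T V)).mkQ : V →+ _) (Submodule.mkQ_surjective _)
    (fun g v => (hZ g v).symm) ?_
  · intro g v
    funext i
    show mkZ (emb (ρV g v) i) = Submodule.mapQ _ _ (σ g) _ (mkZ (emb v i))
    rw [hemb, hJσ, Module.End.mul_apply, ← hemb]
    rfl
  · intro v hv
    have h1 : ∀ i, emb v i ∈ I' • (⊤ : Submodule T Mod) := fun i =>
      (Submodule.Quotient.mk_eq_zero _).mp (congrFun hv i)
    exact (Submodule.Quotient.mk_eq_zero _).mpr (hAR v (pi_mem_smul_top I' _ h1))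

end Main

end Fermat.Agent.FF.S32.Chain5
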