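/-
PROGRAMME FF, chapter S32 (helper4).  `FlatBook4` = THE FLATNESS BOOKKEEPING of S32.

* `finite_level` : `V / I V` is finite when `A / I` is finite and `V` is finitely generated;
* `hasFlatModel_of_subquotient_pi` : an equivariant quotient of a stable subgroup of a finite power
  `κ → M` of a flat `G_ℚ`-module `M` is flat (`BaseChangeFlat6.hasFlatModel_pi` +
  `SubQuot6.hasFlatModel_subquotient_at`);
* `hasFlatModel_level` : the same for a level `ρ.V / I ρ.V` of a `GaloisRepAdic`, in the shape of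
  the output of `CHKer9.CH.exists_subquotient`;
* `hasFlatModel_level_of_CH` : `CHKer9.CH.exists_subquotient` composed with the above: if the finite
  flat `G_ℚ`-module `M` carries Cayley–Hamilton relations `(t, d)` over `R` matching the traces of `ρ`
  modulo `I`, then `ρ.V / I ρ.V` is flat;
* `isFlatAt_of_levels` : `Points6.isFlatAt_iff`, the direction used by S32.
-/
import Mathlib
import Fermat.Agent.TW.FLAT.SubQuot6
import Fermat.Agent.TW.FLAT.BaseChangeFlat6
import Fermat.Agent.TW.FLAT.Points6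
import Fermat.Agent.FF.LEVEL.Trivial0
import Fermat.Agent.FF.S32.CHKer9

set_option autoImplicit false
set_option linter.unusedSectionVars false
set_option linter.style.longLine false

namespace Fermat.Agent.FF.S32.FlatBook4

open Fermat.Agent.TW.FLAT.Points6 Fermat.Agent.TW.FLAT.FlatModule6 Fermat.Agent.TW.FLAT.SubQuot6
  Fermat.Agent.TW.FLAT.BaseChangeFlat6 GaloisRep Fermat.Agent.FF.S32.CHKer9

noncomputable section

/-- finite levels of a finitely generated module over a ring with finite quotient are finite. -/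
theorem finite_level {A : Type*} [CommRing A] {V : Type*} [AddCommGroup V] [Module A V]
    [Module.Finite A V] (I : Ideal A) [Finite (A ⧸ I)] :
    Finite (V ⧸ (I • (⊤ : Submodule A V))) := by
  have : Module.Finite (A ⧸ I) (V ⧸ (I • (⊤ : Submodule A V))) :=
    Module.Finite.of_restrictScalars_finite A _ _
  exact Module.finite_of_finite (A ⧸ I)

variable (p : ℕ) [Fact p.Prime]

/-- **bookkeeping**: an equivariant quotient of a stable subgroup of a finite power of a flat module
is flat. -/
theorem hasFlatModel_of_subquotient_pi {M : Type} [AddCommGroup M] {act : GQ → M → M}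
    (hM : HasFlatModel (ratLocalizedAt p) Qb GQ M act)
    {κ : Type} [Finite κ] (X : AddSubgroup (κ → M))
    (hX : ∀ (σ : GQ), ∀ f ∈ X, (fun i => act σ (f i)) ∈ X)
    {V' : Type} [AddCommGroup V'] {act' : GQ → V' → V'} (q : X →+ V')
    (hq : Function.Surjective q)
    (hqeq : ∀ (σ : GQ) (f : X), q ⟨fun i => act σ (f.1 i), hX σ f.1 f.2⟩ = act' σ (q f)) :
    HasFlatModel (ratLocalizedAt p) Qb GQ V' act' := by
  have hpi := hasFlatModel_pi (fixedInFrac_ratLocalizedAt p) hM κ
  exact hasFlatModel_subquotient_at p hpi (M' := X)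
    (act' := fun σ f => ⟨fun i => act σ (f.1 i), hX σ f.1 f.2⟩) X.subtype
    Subtype.val_injective (fun σ f => rfl) q hq hqeq

variable {A : Type} [CommRing A] [IsLocalRing A] (ρ : GaloisRepAdic A)

theorem levelAction_mk (I : Ideal A) (σ : GQ) (v : ρ.V) :
    ρ.levelAction I σ (Submodule.Quotient.mk v) = Submodule.Quotient.mk (ρ.ρ σ v) := rfl

/-- **a level of `ρ` which is an equivariant quotient of a stable subgroup of a finite power of a
flat module is flat** (shape of the output of `CHKer9.CH.exists_subquotient`). -/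
theorem hasFlatModel_level {M : Type} [AddCommGroup M] {act : GQ → M → M}
    (hM : HasFlatModel (ratLocalizedAt p) Qb GQ M act)
    {κ : Type} [Finite κ] (I : Ideal A) (X : AddSubgroup (κ → M))
    (hX : ∀ (σ : GQ), ∀ f ∈ X, (fun i => act σ (f i)) ∈ X)
    (q : X →+ ρ.V ⧸ (I • (⊤ : Submodule A ρ.V))) (hq : Function.Surjective q)
    (hqeq : ∀ (σ : GQ) (f : X) (hf : (fun i => act σ (f.1 i)) ∈ X) (v : ρ.V),
      q f = Submodule.Quotient.mk v → q ⟨_, hf⟩ = Submodule.Quotient.mk (ρ.ρ σ v)) :
    HasFlatModel (ratLocalizedAt p) Qb GQ (ρ.V ⧸ (I • (⊤ : Submodule A ρ.V)))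
      (fun σ => ρ.levelAction I σ) := by
  refine hasFlatModel_of_subquotient_pi p hM X hX q hq fun σ f => ?_
  obtain ⟨v, hv⟩ := Submodule.Quotient.mk_surjective _ (q f)
  rw [hqeq σ f (hX σ f.1 f.2) v hv.symm, ← hv]
  rfl

/-- **the level `ρ.V / I ρ.V` is flat** as soon as a finite flat `G_ℚ`-module `M`, linear over a ring
`R`, satisfies Cayley–Hamilton relations `(t, d)` whose traces match those of `ρ` modulo `I`
(`CHKer9.CH.exists_subquotient` + bookkeeping). -/
theorem hasFlatModel_level_of_CH {R : Type*} [CommRing R] {M : Type} [AddCommGroup M] [Module R M]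
    [Finite M] [Module.Finite R M] {φ : GQ →* Module.End R M} {t d : GQ → R}
    (h : CH φ t d) (hd : MulOn M d) (π : R →+* A) (I : Ideal A)
    [Finite (A ⧸ I)] (hann : ∀ r : R, (∀ m : M, r • m = 0) → π r ∈ I)
    (hmax : ((IsLocalRing.maximalIdeal A).comap π).IsMaximal)
    (b : Module.Basis (Fin 2) A ρ.V)
    (hspan : Submodule.span (IsLocalRing.ResidueField A)
      (Set.range fun g => (ρ.ρ g).baseChange (IsLocalRing.ResidueField A)) = ⊤)
    (htr : ∀ g, LinearMap.trace A ρ.V (ρ.ρ g) - π (t g) ∈ I)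
    (hM : HasFlatModel (ratLocalizedAt p) Qb GQ M (fun σ m => φ σ m)) :
    HasFlatModel (ratLocalizedAt p) Qb GQ (ρ.V ⧸ (I • (⊤ : Submodule A ρ.V)))
      (fun σ => ρ.levelAction I σ) := by
  classical
  by_cases hI : I = ⊤
  · have htop : (I • (⊤ : Submodule A ρ.V)) = ⊤ := by rw [hI, Submodule.top_smul]
    have : Subsingleton (ρ.V ⧸ (I • (⊤ : Submodule A ρ.V))) :=
      Submodule.Quotient.subsingleton_iff.mpr htop
    exact Fermat.Agent.FF.LEVEL.Trivial0.hasFlatModel_of_subsingleton _ _ _ _ _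
  have hfin : Finite (ρ.V ⧸ (I • (⊤ : Submodule A ρ.V))) := finite_level I
  have := Fintype.ofFinite (ρ.V ⧸ (I • (⊤ : Submodule A ρ.V)))
  let w : (ρ.V ⧸ (I • (⊤ : Submodule A ρ.V))) → ρ.V := fun v =>
    (Submodule.Quotient.mk_surjective _ v).choose
  have hw : ∀ v : ρ.V ⧸ (I • (⊤ : Submodule A ρ.V)), ∃ i, Submodule.Quotient.mk (w i) = v :=
    fun v => ⟨v, (Submodule.Quotient.mk_surjective _ v).choose_spec⟩
  obtain ⟨X, hX, q, hq, hqeq⟩ := h.exists_subquotient hd π I hI hann hmax b ρ.ρ hspan htr w hw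
  exact hasFlatModel_level p ρ hM I X hX q hq hqeq

/-- `Points6.isFlatAt_iff`, the direction used by S32. -/
theorem isFlatAt_of_levels (hfin : Finite (IsLocalRing.ResidueField A))
    (h : ∀ I : Ideal A, Finite (A ⧸ I) →
      HasFlatModel (ratLocalizedAt p) Qb GQ (ρ.V ⧸ (I • (⊤ : Submodule A ρ.V)))
        (fun σ => ρ.levelAction I σ)) : ρ.IsFlatAt p :=
  (isFlatAt_iff ρ p).mpr ⟨hfin, h⟩

end

end Fermat.Agent.FF.S32.FlatBook4
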