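/-
PROGRAMME FF, chapter S32 (helper9).  `LevelCH9` = THE FINITE LEVEL FORM OF THE CAYLEY–HAMILTON
KERNEL THEOREM: Frobenius powers are dense, Eichler–Shimura holds for Frobenius elements, the
Hecke algebra `R` is saturated in the endomorphisms of the module `M` (`hsat`).  Then for `k` large
`V / I V` is an equivariant quotient of a `G`-stable subgroup of a finite power of `M / p^k M`.

* `lucas_smul_one`, `pow_quadratic` : the Cayley–Hamilton relation of `F ^ j` from that of `F`;
* `levelSub p k = p^k M`, `levelRep` : the induced action on `M / p^k M`;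
* `exists_subquotient_level` : the main statement.
-/
import Mathlib
import Fermat.Agent.FF.S32.CHKer9
import Fermat.Agent.ES.ALG31.TraceInv12

set_option autoImplicit false
set_option linter.unusedSectionVars false

namespace Fermat.Agent.FF.S32.LevelCH9

open Module Polynomial IsLocalRing
open Fermat.Agent.FF.S32.CHKer9 Fermat.Agent.ES.ALG.RelDense9 Fermat.Agent.ES.ALG31.Lucas15
  Fermat.Agent.ES.ALG31.TraceInv12

noncomputable section

/-! ### the Cayley–Hamilton relation of a power -/

section Lucas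

variable {R : Type*} [CommRing R] {M : Type*} [AddCommGroup M] [Module R M]

theorem lucas_smul_one {F F' : End R M} (hFF' : F * F' = 1) (hF'F : F' * F = 1) {δ a : R}
    (h : F + δ • F' = a • (1 : End R M)) (j : ℕ) :
    lucasV a δ j • (1 : End R M) = F ^ j + δ ^ j • F' ^ j := by
  induction j using Nat.twoStepInduction with
  | zero => rw [lucasV_zero, pow_zero, pow_zero, pow_zero, one_smul, two_smul]
  | one => rw [lucasV_one, pow_one, pow_one, pow_one, h]
  | more j h0 h1 =>
    rw [lucasV_add_two, lucas_rec hFF' hF'F, sub_smul, mul_smul, mul_smul, h1, h0, h,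
      smul_mul_assoc, one_mul]

theorem pow_mul_pow_eq_one {F F' : End R M} (hFF' : F * F' = 1) (hF'F : F' * F = 1) (j : ℕ) :
    F' ^ j * F ^ j = 1 := by
  have hcomm : Commute F' F := by rw [Commute, SemiconjBy, hFF', hF'F]
  rw [← hcomm.mul_pow, hF'F, one_pow]

/-- if `F² − a F + δ = 0` then `(F^j)² − V_j(a, δ) F^j + δ^j = 0`. -/
theorem pow_quadratic {F F' : End R M} (hFF' : F * F' = 1) (hF'F : F' * F = 1) {δ a : R}
    (h : F * F - a • F + δ • (1 : End R M) = 0) (j : ℕ) :
    F ^ j * F ^ j - lucasV a δ j • F ^ j + δ ^ j • (1 : End R M) = 0 := by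
  have hrel := rel_of_quadratic hFF' h
  have h1 : lucasV a δ j • F ^ j = F ^ j * F ^ j + δ ^ j • (1 : End R M) := by
    rw [← one_mul (F ^ j), ← smul_mul_assoc, lucas_smul_one hFF' hF'F hrel, add_mul,
      smul_mul_assoc, pow_mul_pow_eq_one hFF' hF'F, one_mul]
  rw [h1]
  abel

end Lucas

/-! ### the level modules -/

section Level

variable {R : Type*} [CommRing R] {M : Type*} [AddCommGroup M] [Module R M]
  {G : Type*} [Group G] (p : ℕ)

/-- `p^k M`. -/
def levelSub (k : ℕ) : Submodule R M := LinearMap.range (LinearMap.lsmul R M ((p : R) ^ k))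

theorem mem_levelSub {k : ℕ} {m : M} :
    m ∈ levelSub (R := R) p k ↔ ∃ m' : M, ((p : R) ^ k) • m' = m := Iff.rfl

theorem map_mem_levelSub (f : End R M) {k : ℕ} {m : M} (hm : m ∈ levelSub (R := R) p k) :
    f m ∈ levelSub (R := R) p k := by
  obtain ⟨m', rfl⟩ := hm
  exact ⟨f m', (map_smul f _ _).symm⟩

theorem natCast_smul_sub_mem {k : ℕ} {a a' : ℕ} (h : (a : ZMod (p ^ k)) = (a' : ZMod (p ^ k)))
    (m : M) : (a : R) • m - (a' : R) • m ∈ levelSub (R := R) p k := by
  have h1 : ((a : ℤ) : ZMod (p ^ k)) = ((a' : ℤ) : ZMod (p ^ k)) := by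
    rw [Int.cast_natCast, Int.cast_natCast, h]
  rw [ZMod.intCast_eq_intCast_iff_dvd_sub] at h1
  obtain ⟨z, hz⟩ := h1
  have h2 : (a : R) - (a' : R) = (p : R) ^ k * (-(z : R)) := by
    have := congrArg (Int.cast : ℤ → R) hz
    push_cast at this
    linear_combination -this
  rw [← sub_smul, h2, mul_smul]
  exact ⟨_, rfl⟩

variable (ρ : G →* End R M)

/-- the action on `M / p^k M`. -/
def levelRep (k : ℕ) : G →* End R (M ⧸ levelSub (R := R) (M := M) p k) where
  toFun g := (levelSub p k).mapQ (levelSub p k) (ρ g) fun _ hm => map_mem_levelSub p (ρ g) hm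
  map_one' := by
    refine LinearMap.ext fun w => ?_
    obtain ⟨m, rfl⟩ := Submodule.Quotient.mk_surjective _ w
    rw [Submodule.mapQ_apply, map_one]
    rfl
  map_mul' g g' := by
    refine LinearMap.ext fun w => ?_
    obtain ⟨m, rfl⟩ := Submodule.Quotient.mk_surjective _ w
    simp only [map_mul, Module.End.mul_apply, Submodule.mapQ_apply]

@[simp] theorem levelRep_mk (k : ℕ) (g : G) (m : M) :
    levelRep p ρ k g (Submodule.Quotient.mk m) = Submodule.Quotient.mk (ρ g m) := rfl

theorem levelRep_eq_of_congr {k : ℕ} {g h : G}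
    (hgh : ∀ m, ρ (g⁻¹ * h) m - m ∈ levelSub (R := R) p k) :
    levelRep p ρ k g = levelRep p ρ k h := by
  refine LinearMap.ext fun w => ?_
  obtain ⟨m, rfl⟩ := Submodule.Quotient.mk_surjective _ w
  rw [levelRep_mk, levelRep_mk, eq_comm, ← sub_eq_zero, ← Submodule.Quotient.mk_sub,
    Submodule.Quotient.mk_eq_zero]
  have h1 : ρ h m - ρ g m = ρ g (ρ (g⁻¹ * h) m - m) := by
    rw [map_sub, ← Module.End.mul_apply, ← map_mul, mul_inv_cancel_left]
  rw [h1]
  exact map_mem_levelSub p (ρ g) (hgh m)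

end Level

/-! ### the main statement -/

section Main

variable {R : Type*} [CommRing R] {M : Type*} [AddCommGroup M] [Module R M]
  {G : Type*} [Group G] {p : ℕ}
  {T : Type*} [CommRing T] [IsLocalRing T] {V : Type*} [AddCommGroup V] [Module T V]
  [Module.Free T V] [Module.Finite T V]

/-- **THE FINITE LEVEL THEOREM.** -/
theorem exists_subquotient_level
    (ρM : G →* End R M) (π : R →+* T) (b : Basis (Fin 2) T V) (ρV : G →* End T V)
    (hspan : Submodule.span (ResidueField T)
      (Set.range fun g => (ρV g).baseChange (ResidueField T)) = ⊤)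
    (hpT : (p : T) ∈ maximalIdeal T)
    (I : Ideal T) (hI : I ≠ ⊤) (n₀ : ℕ) (hn₀ : maximalIdeal T ^ n₀ ≤ I)
    (hmax : ((maximalIdeal T).comap π).IsMaximal)
    (c : ℕ) (k : ℕ) (hk : n₀ + c ≤ k)
    (hsat : ∀ r : R, (∀ m : M, r • m ∈ levelSub (R := R) p k) →
      ∃ r' : R, r = (p : R) ^ (k - c) * r')
    [Finite (M ⧸ levelSub (R := R) (M := M) p k)]
    (χ : G →* ZMod (p ^ k))
    (hdense : ∀ g : G, ∃ (φ : G) (ℓ : ℕ) (t : R) (j : ℕ),
        ρM φ * ρM φ - t • ρM φ + (ℓ : R) • (1 : End R M) = 0 ∧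
        (ρV φ).charpoly = X ^ 2 - C (π t) * X + C (ℓ : T) ∧
        (∀ m, ρM (g⁻¹ * φ ^ j) m - m ∈ levelSub (R := R) p k) ∧
        EndCongr (maximalIdeal T ^ n₀) (ρV (g⁻¹ * φ ^ j)) 1 ∧
        ((ℓ ^ j : ℕ) : ZMod (p ^ k)) = χ g)
    {ι : Type*} [Fintype ι] (w : ι → V)
    (hw : ∀ v : V ⧸ (I • (⊤ : Submodule T V)), ∃ i, Submodule.Quotient.mk (w i) = v) :
    ∃ X : AddSubgroup (ι × (M ⧸ levelSub (R := R) (M := M) p k) →
        (M ⧸ levelSub (R := R) (M := M) p k)),
      (∀ (g : G), ∀ f ∈ X, (fun im => levelRep p ρM k g (f im)) ∈ X) ∧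
      ∃ q : X →+ V ⧸ (I • (⊤ : Submodule T V)), Function.Surjective q ∧
        ∀ (g : G) (f : X) (hf : (fun im => levelRep p ρM k g (f.1 im)) ∈ X) (v : V),
          q f = Submodule.Quotient.mk v → q ⟨_, hf⟩ = Submodule.Quotient.mk (ρV g v) := by
  classical
  have hV2 : Module.finrank T V = 2 := by
    rw [Module.finrank_eq_card_basis b, Fintype.card_fin]
  choose φ ℓ t j hES hcp hM hV hχ using hdense
  set tt : G → R := fun g => lucasV (t g) ((ℓ g : ℕ) : R) (j g) with htt
  set dd : G → R := fun g => (((ℓ g) ^ (j g) : ℕ) : R) with hdd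
  -- the Cayley–Hamilton relations at level `k`
  have hCH : CH (levelRep p ρM k) tt dd := by
    intro g
    have hFF' : ρM (φ g) * ρM (φ g)⁻¹ = 1 := by rw [← map_mul, mul_inv_cancel, map_one]
    have hF'F : ρM (φ g)⁻¹ * ρM (φ g) = 1 := by rw [← map_mul, inv_mul_cancel, map_one]
    have h1 := pow_quadratic hFF' hF'F (hES g) (j g)
    rw [levelRep_eq_of_congr p ρM (hM g)]
    refine LinearMap.ext fun w => ?_
    obtain ⟨m, rfl⟩ := Submodule.Quotient.mk_surjective _ w
    have h2 := congrArg (fun X : End R M => X m) h1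
    simp only [LinearMap.add_apply, LinearMap.sub_apply, LinearMap.smul_apply,
      Module.End.mul_apply, Module.End.one_apply, LinearMap.zero_apply, ← map_pow] at h2
    simp only [LinearMap.add_apply, LinearMap.sub_apply, LinearMap.smul_apply,
      Module.End.mul_apply, Module.End.one_apply, LinearMap.zero_apply, levelRep_mk]
    rw [← Submodule.Quotient.mk_smul, ← Submodule.Quotient.mk_smul, ← Submodule.Quotient.mk_sub,
      ← Submodule.Quotient.mk_add, Submodule.Quotient.mk_eq_zero]
    have h3 : dd g = ((ℓ g : ℕ) : R) ^ (j g) := by simp only [hdd]; push_cast; rfl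
    rw [h3, h2]
    exact Submodule.zero_mem _
  -- multiplicativity of `dd` on the level module
  have hdmul : MulOn (M ⧸ levelSub (R := R) (M := M) p k) dd := by
    intro g g'
    refine LinearMap.ext fun w => ?_
    obtain ⟨m, rfl⟩ := Submodule.Quotient.mk_surjective _ w
    simp only [LinearMap.smul_apply, Module.End.one_apply]
    rw [← Submodule.Quotient.mk_smul, ← Submodule.Quotient.mk_smul, ← sub_eq_zero,
      ← Submodule.Quotient.mk_sub, Submodule.Quotient.mk_eq_zero]
    have h1 : dd g * dd g' = (((ℓ g) ^ (j g) * (ℓ g') ^ (j g') : ℕ) : R) := by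
      simp only [hdd]; push_cast; rfl
    rw [h1]
    refine natCast_smul_sub_mem p ?_ m
    rw [hχ, map_mul, ← hχ, ← hχ]
    push_cast
    rfl
  -- the annihilator
  have hann : ∀ r : R, (∀ m : M ⧸ levelSub (R := R) (M := M) p k, r • m = 0) → π r ∈ I := by
    intro r hr
    obtain ⟨r', rfl⟩ := hsat r fun m => by
      have := hr (Submodule.Quotient.mk m)
      rwa [← Submodule.Quotient.mk_smul, Submodule.Quotient.mk_eq_zero] at this
    rw [map_mul, map_pow, map_natCast]
    refine I.mul_mem_right _ (hn₀ ?_)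
    have h1 : n₀ ≤ k - c := by omega
    exact Ideal.pow_le_pow_right h1 (Ideal.pow_mem_pow hpT _)
  -- the traces
  have htr : ∀ g, LinearMap.trace T V (ρV g) - π (tt g) ∈ I := by
    intro g
    have e : π (tt g) = LinearMap.trace T V (ρV (φ g ^ j g)) := by
      rw [map_pow, trace_pow_of_charpoly hV2 _ (hcp g) (j g)]
      simp only [htt]
      rw [map_lucasV, map_natCast]
    rw [e]
    have h1 : φ g ^ j g = g * (g⁻¹ * φ g ^ j g) := by rw [mul_inv_cancel_left]
    rw [h1, map_mul]
    have := ((hV g).mul_left (ρV g)).symm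
    rw [mul_one] at this
    exact hn₀ (trace_sub_mem_of_endCongr this)
  exact hCH.exists_subquotient hdmul π I hI hann hmax b ρV hspan htr w hw

end Main

end

end Fermat.Agent.FF.S32.LevelCH9
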