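/-
PROGRAMME FF, chapter S32 (helper9).  `FlatLevel9` = FROM THE S31 INPUTS + FLATNESS OF THE TORSION
LEVELS TO FLATNESS OF `V / I V`.

Abstract: `R` (the Hecke algebra) acts faithfully on the finite free `ℤ`-module `Λ`; `ι₀ : Λ → M` a
base change `ℤ → ℤ_[p]` to a Galois module `M` (the Tate module); `R` acts on `M` through
`IsBaseChange.endHom` (`thetaHom`), commuting with Galois (`hcomm`); Frobenius data `Φ` exactly as in
`TraceInv12.trace_mul_eq_of_faithful`; the levels `M / p^k M` embed equivariantly in flat modules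
`J k`.  Then for a proper ideal `I ⊇ 𝔪^n₀` of the local ring `T`, `V / I V` has a flat model.
-/
import Mathlib
import Fermat.Agent.FF.S32.LevelCH9
import Fermat.Agent.TW.FLAT.BaseChangeFlat6

set_option autoImplicit false
set_option linter.unusedSectionVars false
set_option linter.style.longLine false

namespace Fermat.Agent.FF.S32.FlatLevel9

open Module Polynomial IsLocalRing GaloisRep
open Fermat.Agent.FF.S32.CHKer9 Fermat.Agent.FF.S32.LevelCH9
  Fermat.Agent.ES.ALG.RelDense9 Fermat.Agent.ES.ALG31.Lucas15 Fermat.Agent.ES.ALG31.TraceInv12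
  Fermat.Agent.TW.FLAT.Descent6 Fermat.Agent.TW.FLAT.Points6 Fermat.Agent.TW.FLAT.FlatModule6
  Fermat.Agent.TW.FLAT.SubQuot6 Fermat.Agent.TW.FLAT.BaseChangeFlat6

noncomputable section

/-! ### the action of `R` on the base change -/

section Theta

variable {p : ℕ} [Fact p.Prime] {R : Type*} [CommRing R] {Λ : Type*} [AddCommGroup Λ]
  {M : Type*} [AddCommGroup M] [Module ℤ_[p] M]
  (hL : R →+* Module.End ℤ Λ) {ι₀ : Λ →ₗ[ℤ] M} (hbc : IsBaseChange ℤ_[p] ι₀)

/-- `R` acts on `M = ℤ_[p] ⊗ Λ` by base change. -/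
def thetaHom : R →+* Module.End ℤ_[p] M where
  toFun r := hbc.endHom (hL r)
  map_one' := by rw [map_one]; exact hbc.endHom_one
  map_mul' r s := by
    rw [map_mul]
    refine hbc.algHom_ext _ _ fun x => ?_
    rw [IsBaseChange.endHom_comp_apply, Module.End.mul_apply, Module.End.mul_apply,
      IsBaseChange.endHom_comp_apply, IsBaseChange.endHom_comp_apply]
  map_zero' := by rw [map_zero, map_zero]
  map_add' r s := by rw [map_add, map_add]

theorem thetaHom_apply (r : R) : thetaHom hL hbc r = hbc.endHom (hL r) := rfl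

theorem thetaHom_iota (r : R) (x : Λ) : thetaHom hL hbc r (ι₀ x) = ι₀ (hL r x) :=
  hbc.endHom_comp_apply _ _

theorem thetaHom_natCast_pow (n k : ℕ) (m : M) :
    thetaHom hL hbc ((n : R) ^ k) m = ((n : ℤ_[p]) ^ k) • m := by
  rw [map_pow, map_natCast]
  have h1 : ((n : Module.End ℤ_[p] M)) = algebraMap ℤ_[p] (Module.End ℤ_[p] M) (n : ℤ_[p]) := by
    rw [map_natCast]
  rw [h1, ← map_pow, Module.algebraMap_end_apply]

end Theta

/-! ### the main theorem -/

section Main

variable {p : ℕ} [hp : Fact p.Prime]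
  {R : Type*} [CommRing R] {Λ : Type*} [AddCommGroup Λ] [Module.Free ℤ Λ] [Module.Finite ℤ Λ]
  {M : Type} [AddCommGroup M] [Module ℤ_[p] M]
  {T : Type} [CommRing T] [IsLocalRing T]
  {V : Type} [AddCommGroup V] [Module T V] [Module.Free T V] [Module.Finite T V]

/-- **Flatness of `V / I V` from flatness of the torsion levels.** -/
theorem hasFlatModel_quot
    (hL : R →+* Module.End ℤ Λ) (hLinj : Function.Injective hL)
    (ι₀ : Λ →ₗ[ℤ] M) (hbc : IsBaseChange ℤ_[p] ι₀)
    (ρM : GQ →* Module.End ℤ_[p] M) (d : GQ →* ℤ_[p]ˣ)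
    (hcomm : ∀ (r : R) (g : GQ), Commute (hbc.endHom (hL r)) (ρM g))
    (hpT : (p : T) ∈ maximalIdeal T)
    (π : R →+* T) (hV : Module.finrank T V = 2) (ρV : GQ →* Module.End T V)
    (hspan : Submodule.span (ResidueField T)
      (Set.range fun g => (ρV g).baseChange (ResidueField T)) = ⊤)
    (hmax : ((maximalIdeal T).comap π).IsMaximal)
    (Φ : GQ → ℕ → R → Prop)
    (hΦM : ∀ φ ℓ t, Φ φ ℓ t → ∀ x : Λ,
      ι₀ (hL t x) = (ρM φ + (ℓ : ℤ_[p]) • ρM φ⁻¹) (ι₀ x))
    (hΦd : ∀ φ ℓ t, Φ φ ℓ t → ((d φ : ℤ_[p]ˣ) : ℤ_[p]) = ℓ)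
    (hΦV : ∀ φ ℓ t, Φ φ ℓ t → (ρV φ).charpoly = X ^ 2 - C (π t) * X + C (ℓ : T))
    (hdense : ∀ (n m : ℕ) (g : GQ), ∃ φ ℓ t, ∃ j : ℕ, Φ φ ℓ t ∧
      EndCongr (maximalIdeal T ^ n) (ρV (g⁻¹ * φ ^ j)) 1 ∧
      EndCongr (Ideal.span {(p : ℤ_[p]) ^ m}) (ρM (g⁻¹ * φ ^ j)) 1 ∧
      ((d (g⁻¹ * φ ^ j) : ℤ_[p]ˣ) : ℤ_[p]) - 1 ∈ Ideal.span {(p : ℤ_[p]) ^ m})
    (J : ℕ → Type) [∀ k, AddCommGroup (J k)] [∀ k, Finite (J k)] (actJ : ∀ k, GQ → J k → J k)
    (e : ∀ k, M →+ J k) (he : ∀ k m, e k m = 0 ↔ ∃ m' : M, m = ((p : ℤ_[p]) ^ k) • m')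
    (hequiv : ∀ k g m, e k (ρM g m) = actJ k g (e k m))
    (hflat : ∀ k, HasFlatModel (ratLocalizedAt p) Qb GQ (J k) (actJ k))
    (I : Ideal T) (hI : I ≠ ⊤) (n₀ : ℕ) (hn₀ : maximalIdeal T ^ n₀ ≤ I)
    [Finite (V ⧸ (I • (⊤ : Submodule T V)))]
    (act : GQ → (V ⧸ (I • (⊤ : Submodule T V))) → (V ⧸ (I • (⊤ : Submodule T V))))
    (hact : ∀ g v, act g (Submodule.Quotient.mk v) = Submodule.Quotient.mk (ρV g v)) :
    HasFlatModel (ratLocalizedAt p) Qb GQ (V ⧸ (I • (⊤ : Submodule T V))) act := by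
  classical
  -- the `R`-module structure on `M`
  set Θ := thetaHom hL hbc with hΘ
  letI instRM : Module R M := Module.compHom M Θ
  have hsmul : ∀ (r : R) (m : M), r • m = Θ r m := fun r m => rfl
  have hpk : ∀ (k : ℕ) (m : M), ((p : R) ^ k) • m = ((p : ℤ_[p]) ^ k) • m := fun k m => by
    rw [hsmul, hΘ, thetaHom_natCast_pow]
  -- Galois acts `R`-linearly
  let ρR : GQ →* Module.End R M :=
    { toFun := fun g =>
        { toFun := ρM g
          map_add' := map_add _
          map_smul' := fun r m => by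
            show ρM g (Θ r m) = Θ r (ρM g m)
            exact (LinearMap.congr_fun (hcomm r g).eq m).symm }
      map_one' := by
        refine LinearMap.ext fun m => ?_
        show ρM 1 m = m
        rw [map_one, Module.End.one_apply]
      map_mul' := fun g g' => by
        refine LinearMap.ext fun m => ?_
        show ρM (g * g') m = ρM g (ρM g' m)
        rw [map_mul, Module.End.mul_apply] }
  have hρR : ∀ g m, ρR g m = ρM g m := fun g m => rfl
  -- saturation
  obtain ⟨c, hc⟩ := exists_sat_end hL hLinj p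
  set k := n₀ + c with hk
  have hsat : ∀ r : R, (∀ m : M, r • m ∈ levelSub (R := R) p k) →
      ∃ r' : R, r = (p : R) ^ (k - c) * r' := by
    intro r hr
    have hdiv : ∀ x : Λ, ∃ y : Λ, hL r x = p ^ k • y := by
      intro x
      obtain ⟨m', hm'⟩ := (mem_levelSub p).mp (hr (ι₀ x))
      rw [hpk, hsmul, hΘ, thetaHom_iota] at hm'
      exact exists_of_isBaseChange ι₀ hbc k _ m' hm'.symm
    obtain ⟨r', hr'⟩ := hc k r hdiv
    refine ⟨r', ?_⟩
    rw [hr', nsmul_eq_mul]
    push_cast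
    rfl
  -- the levels embed in `J k`
  have hlev : ∀ m : M, m ∈ levelSub (R := R) p k ↔ e k m = 0 := by
    intro m
    rw [he, mem_levelSub]
    constructor
    · rintro ⟨m', rfl⟩
      exact ⟨m', hpk k m'⟩
    · rintro ⟨m', rfl⟩
      exact ⟨m', hpk k m'⟩
  let ebar : (M ⧸ levelSub (R := R) (M := M) p k) →+ J k :=
    QuotientAddGroup.lift (levelSub (R := R) (M := M) p k).toAddSubgroup (e k)
      (fun m hm => (hlev m).mp hm)
  have hebar : ∀ m : M, ebar (Submodule.Quotient.mk m) = e k m := fun m => rfl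
  have hebar_inj : Function.Injective ebar := by
    rw [injective_iff_map_eq_zero]
    intro w hw
    obtain ⟨m, rfl⟩ := Submodule.Quotient.mk_surjective _ w
    rw [hebar] at hw
    rw [Submodule.Quotient.mk_eq_zero]
    exact (hlev m).mpr hw
  haveI : Finite (M ⧸ levelSub (R := R) (M := M) p k) := Finite.of_injective ebar hebar_inj
  -- the cyclotomic character at level `k`
  let χ : GQ →* ZMod (p ^ k) :=
    ((PadicInt.toZModPow k : ℤ_[p] →+* ZMod (p ^ k)).toMonoidHom.comp (Units.coeHom ℤ_[p])).comp d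
  have hχ : ∀ g, χ g = PadicInt.toZModPow k ((d g : ℤ_[p]ˣ) : ℤ_[p]) := fun g => rfl
  -- density at level `k`
  have hdense' : ∀ g : GQ, ∃ (φ : GQ) (ℓ : ℕ) (t : R) (j : ℕ),
      ρR φ * ρR φ - t • ρR φ + (ℓ : R) • (1 : Module.End R M) = 0 ∧
      (ρV φ).charpoly = X ^ 2 - C (π t) * X + C (ℓ : T) ∧
      (∀ m, ρR (g⁻¹ * φ ^ j) m - m ∈ levelSub (R := R) p k) ∧
      EndCongr (maximalIdeal T ^ n₀) (ρV (g⁻¹ * φ ^ j)) 1 ∧
      ((ℓ ^ j : ℕ) : ZMod (p ^ k)) = χ g := by
    intro g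
    obtain ⟨φ, ℓ, t, j, hΦ, h1, h2, h3⟩ := hdense n₀ k g
    refine ⟨φ, ℓ, t, j, ?_, hΦV φ ℓ t hΦ, ?_, h1, ?_⟩
    · -- Eichler–Shimura on `M`
      have hΘt : Θ t = ρM φ + (ℓ : ℤ_[p]) • ρM φ⁻¹ := by
        refine hbc.algHom_ext _ _ fun x => ?_
        rw [hΘ, thetaHom_iota]
        exact hΦM φ ℓ t hΦ x
      have hinv : ∀ m, ρM φ⁻¹ (ρM φ m) = m := by
        intro m
        rw [← Module.End.mul_apply, ← map_mul, inv_mul_cancel, map_one, Module.End.one_apply]
      refine LinearMap.ext fun m => ?_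
      show ρM φ (ρM φ m) - Θ t (ρM φ m) + Θ ((ℓ : R)) m = 0
      have h4 : Θ ((ℓ : R)) m = (ℓ : ℤ_[p]) • m := by
        have := thetaHom_natCast_pow hL hbc ℓ 1 m
        rwa [pow_one, pow_one] at this
      rw [hΘt, h4, LinearMap.add_apply, LinearMap.smul_apply, hinv]
      abel
    · intro m
      have h4 := h2 m
      rw [Module.End.one_apply, Submodule.ideal_span_singleton_smul] at h4
      obtain ⟨z, -, hz⟩ := h4
      refine (mem_levelSub p).mpr ⟨z, ?_⟩
      rw [hρR, hpk]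
      exact hz
    · have e1 : χ (g⁻¹ * φ ^ j) = 1 := by
        rw [hχ]
        have h4 : ((d (g⁻¹ * φ ^ j) : ℤ_[p]ˣ) : ℤ_[p]) - 1 ∈ RingHom.ker (PadicInt.toZModPow k) := by
          rw [PadicInt.ker_toZModPow]
          exact h3
        rw [RingHom.mem_ker, map_sub, map_one, sub_eq_zero] at h4
        exact h4
      have e2 : χ (φ ^ j) = ((ℓ ^ j : ℕ) : ZMod (p ^ k)) := by
        rw [map_pow, hχ, hΦd φ ℓ t hΦ, map_natCast]
        push_cast
        rfl
      have e3 : χ (φ ^ j) = χ g * χ (g⁻¹ * φ ^ j) := by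
        rw [← map_mul, mul_inv_cancel_left]
      rw [← e2, e3, e1, mul_one]
  -- the finite family exhausting `V / I V`
  haveI : Fintype (V ⧸ (I • (⊤ : Submodule T V))) := Fintype.ofFinite _
  let w : (V ⧸ (I • (⊤ : Submodule T V))) → V := fun v =>
    (Submodule.Quotient.mk_surjective _ v).choose
  have hw : ∀ v : V ⧸ (I • (⊤ : Submodule T V)), ∃ i, Submodule.Quotient.mk (w i) = v :=
    fun v => ⟨v, (Submodule.Quotient.mk_surjective _ v).choose_spec⟩
  obtain ⟨X, hXstab, q, hqsurj, hqeq⟩ := exists_subquotient_level (p := p) ρR π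
    (Module.finBasisOfFinrankEq T V hV) ρV hspan hpT I hI n₀ hn₀ hmax c k le_rfl hsat χ hdense'
    w hw
  -- the flat ambient module
  have hbig := hasFlatModel_pi (fixedInFrac_ratLocalizedAt p) (hflat k)
    ((V ⧸ (I • (⊤ : Submodule T V))) × (M ⧸ levelSub (R := R) (M := M) p k))
  let act' : GQ → X → X := fun σ f => ⟨fun im => levelRep p ρR k σ (f.1 im), hXstab σ f.1 f.2⟩
  let inj : X →+ ((V ⧸ (I • (⊤ : Submodule T V))) × (M ⧸ levelSub (R := R) (M := M) p k) → J k) :=
    { toFun := fun f im => ebar (f.1 im)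
      map_zero' := by
        funext im
        show ebar ((0 : X).1 im) = 0
        rw [AddSubgroup.coe_zero, Pi.zero_apply, map_zero]
      map_add' := fun f f' => by
        funext im
        show ebar ((f + f' : X).1 im) = ebar (f.1 im) + ebar (f'.1 im)
        rw [AddSubgroup.coe_add, Pi.add_apply, map_add] }
  have hinj : Function.Injective inj := by
    intro f f' hff'
    apply Subtype.ext
    funext im
    exact hebar_inj (congrFun hff' im)
  have hinjact : ∀ (σ : GQ) (f : X), inj (act' σ f) = fun im => actJ k σ (inj f im) := by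
    intro σ f
    funext im
    show ebar (levelRep p ρR k σ (f.1 im)) = actJ k σ (ebar (f.1 im))
    obtain ⟨m, hm⟩ := Submodule.Quotient.mk_surjective _ (f.1 im)
    rw [← hm, levelRep_mk, hebar, hebar, hρR, hequiv]
  have hqact : ∀ (σ : GQ) (f : X), q (act' σ f) = act σ (q f) := by
    intro σ f
    obtain ⟨v, hv⟩ := Submodule.Quotient.mk_surjective _ (q f)
    rw [← hv, hact]
    exact hqeq σ f (hXstab σ f.1 f.2) v hv.symm
  exact hasFlatModel_subquotient_at p hbig inj hinj hinjact q hqsurj hqact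

end Main

end

end Fermat.Agent.FF.S32.FlatLevel9
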