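/-
Programme FF, chapter S32 (helper5), file Reduced5: **a finite free algebra over a characteristic zero
domain which is generated by the image of a reduced ring of integral elements is reduced**.

`R` a reduced commutative ring all of whose elements are integral over `ℤ`, `𝒪` a domain of
characteristic zero, `T` a finite free `𝒪`-algebra, `π : R →+* T` with `𝒪[π(R)] = T`.  Then `T` is
reduced: in `End_K (K ⊗ T)` (`K = Frac 𝒪`, realised by matrices) every `π(r)` is semisimple (its
minimal polynomial over `ℚ` in `ℚ ⊗ R` is radical, hence separable), commuting semisimple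
endomorphisms are closed under sums and products, and a nilpotent semisimple endomorphism vanishes.
-/
import Mathlib

set_option autoImplicit false

namespace Fermat.Agent.FF.S32.Reduced5

open TensorProduct Polynomial Module

section Rational

variable {R : Type*} [CommRing R] [IsReduced R]

/-- `ℚ ⊗ R` is reduced (it is a localization of `R`). -/
theorem isReduced_rat_tensor : IsReduced (ℚ ⊗[ℤ] R) := by
  let _ : Algebra R (ℚ ⊗[ℤ] R) := Algebra.TensorProduct.rightAlgebra
  exact isReduced_localizationPreserves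
    (Algebra.algebraMapSubmonoid R (nonZeroDivisors ℤ)) (ℚ ⊗[ℤ] R) inferInstance

/-- every ring homomorphism from `R` to an algebra over a field `K` of characteristic zero maps an
element integral over `ℤ` to an element killed by a squarefree polynomial of `K[X]`. -/
theorem exists_squarefree_aeval_eq_zero {K : Type*} [Field K] [CharZero K] {E : Type*} [Ring E]
    [Algebra K E] (ψ : R →+* E) (r : R) (hr : IsIntegral ℤ r) :
    ∃ q : K[X], Squarefree q ∧ aeval (ψ r) q = 0 := by
  have : IsReduced (ℚ ⊗[ℤ] R) := isReduced_rat_tensor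
  let _ : Algebra ℚ E := (algebraMap K E).comp (algebraMap ℚ K) |>.toAlgebra' (fun c x => by
    have : (algebraMap K E) ((algebraMap ℚ K) c) * x = x * (algebraMap K E) ((algebraMap ℚ K) c) :=
      Algebra.commutes _ _
    simpa using this)
  have : IsScalarTower ℚ K E := IsScalarTower.of_algebraMap_eq fun c => rfl
  have hc : ∀ (x : ℚ) (y : R), Commute ((Algebra.ofId ℚ E) x) (ψ.toIntAlgHom y) :=
    fun x y => Algebra.commute_algebraMap_left x _
  let φ : ℚ ⊗[ℤ] R →ₐ[ℚ] E := Algebra.TensorProduct.lift (Algebra.ofId ℚ E) ψ.toIntAlgHom hc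
  set r₀ : ℚ ⊗[ℤ] R := (1 : ℚ) ⊗ₜ[ℤ] r with hr₀
  have hφ : φ r₀ = ψ r := by
    rw [hr₀]
    have := Algebra.TensorProduct.lift_tmul (Algebra.ofId ℚ E) ψ.toIntAlgHom hc (1 : ℚ) r
    rw [map_one, one_mul] at this
    exact this
  have hint : IsIntegral ℚ r₀ := by
    have h1 : IsIntegral ℤ r₀ := by
      have := hr.map (Algebra.TensorProduct.includeRight : R →ₐ[ℤ] ℚ ⊗[ℤ] R)
      exact this
    exact h1.tower_top
  have hrad : IsRadical (minpoly ℚ r₀) := minpoly.isRadical ℚ r₀
  have hsq : Squarefree (minpoly ℚ r₀) := hrad.squarefree (minpoly.ne_zero hint)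
  have hsep : (minpoly ℚ r₀).Separable := PerfectField.separable_iff_squarefree.mpr hsq
  refine ⟨(minpoly ℚ r₀).map (algebraMap ℚ K), hsep.map.squarefree, ?_⟩
  rw [aeval_map_algebraMap, ← hφ, aeval_algHom_apply, minpoly.aeval, map_zero]

end Rational

section Main

variable {R : Type*} [CommRing R] [IsReduced R]
  {𝒪 : Type*} [CommRing 𝒪] [IsDomain 𝒪] [CharZero 𝒪]
  {T : Type*} [CommRing T] [Algebra 𝒪 T] [Module.Finite 𝒪 T] [Module.Free 𝒪 T]

theorem isReduced_of_adjoin (hint : ∀ r : R, IsIntegral ℤ r) (π : R →+* T)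
    (hadj : Algebra.adjoin 𝒪 (Set.range π) = ⊤) : IsReduced T := by
  classical
  let K := FractionRing 𝒪
  have : CharZero K := charZero_of_injective_algebraMap (IsFractionRing.injective 𝒪 K)
  let n := Module.Free.ChooseBasisIndex 𝒪 T
  let b : Basis n 𝒪 T := Module.Free.chooseBasis 𝒪 T
  let Ψ₀ : T →+* Matrix n n 𝒪 := (Algebra.leftMulMatrix b).toRingHom
  let Ψ₁ : Matrix n n 𝒪 →+* Matrix n n K := (algebraMap 𝒪 K).mapMatrix
  let Ψ₂ : Matrix n n K →+* Module.End K (n → K) := (Matrix.toLinAlgEquiv' : _ ≃ₐ[K] _).toRingHom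
  let Ψ : T →+* Module.End K (n → K) := Ψ₂.comp (Ψ₁.comp Ψ₀)
  have hΨinj : Function.Injective Ψ := by
    have h0 : Function.Injective Ψ₀ := Algebra.leftMulMatrix_injective b
    have h1 : Function.Injective Ψ₁ := by
      intro A B hAB
      ext i j
      have := congrFun (congrFun hAB i) j
      exact IsFractionRing.injective 𝒪 K this
    have h2 : Function.Injective Ψ₂ := (Matrix.toLinAlgEquiv' : _ ≃ₐ[K] _).injective
    exact h2.comp (h1.comp h0)
  have hcomm : ∀ x y : T, Commute (Ψ x) (Ψ y) := fun x y => by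
    rw [Commute, SemiconjBy, ← map_mul, ← map_mul, mul_comm]
  -- every element acts semisimply
  have hss : ∀ x : T, (Ψ x).IsSemisimple := by
    intro x
    have hx : x ∈ Algebra.adjoin 𝒪 (Set.range π) := by rw [hadj]; exact Algebra.mem_top
    induction hx using Algebra.adjoin_induction with
    | mem x hx =>
      obtain ⟨r, rfl⟩ := hx
      obtain ⟨q, hq, hq0⟩ := exists_squarefree_aeval_eq_zero (K := K) (Ψ.comp π) r (hint r)
      exact Module.End.isSemisimple_of_squarefree_aeval_eq_zero hq hq0
    | algebraMap a =>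
      have : Ψ (algebraMap 𝒪 T a) = (algebraMap 𝒪 K a) • (1 : Module.End K (n → K)) := by
        show Ψ₂ (Ψ₁ (Ψ₀ (algebraMap 𝒪 T a))) = _
        have e0 : Ψ₀ (algebraMap 𝒪 T a) = algebraMap 𝒪 (Matrix n n 𝒪) a :=
          (Algebra.leftMulMatrix b).commutes a
        have e1 : Ψ₁ (algebraMap 𝒪 (Matrix n n 𝒪) a) = algebraMap K (Matrix n n K) (algebraMap 𝒪 K a) := by
          ext i j
          simp [Ψ₁, Matrix.algebraMap_matrix_apply]
          split_ifs <;> simp
        rw [e0, e1]
        have e2 : Ψ₂ (algebraMap K (Matrix n n K) (algebraMap 𝒪 K a)) =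
            algebraMap K (Module.End K (n → K)) (algebraMap 𝒪 K a) :=
          (Matrix.toLinAlgEquiv' : _ ≃ₐ[K] _).commutes _
        rw [e2, Algebra.algebraMap_eq_smul_one]
      rw [this]
      exact Module.End.IsSemisimple_smul _ Module.End.isSemisimple_id
    | add x y _ _ hx hy =>
      rw [map_add]
      exact Module.End.IsSemisimple.add_of_commute (hcomm x y) hx hy
    | mul x y _ _ hx hy =>
      rw [map_mul]
      exact Module.End.IsSemisimple.mul_of_commute (hcomm x y) hx hy
  refine ⟨fun x hx => ?_⟩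
  apply hΨinj
  rw [map_zero]
  exact Module.End.eq_zero_of_isNilpotent_isSemisimple (hx.map Ψ) (hss x)

end Main

end Fermat.Agent.FF.S32.Reduced5
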