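/-
Programme FF, chapter S32 (helper5), file SpanTop5: **the image of a residually absolutely irreducible
representation spans the endomorphism algebra** (Nakayama lift of `TraceRigid13.residual_span_eq_top`).
-/
import Mathlib
import Fermat.Agent.ES.ALG31.TraceRigid13

set_option autoImplicit false

namespace Fermat.Agent.FF.S32.SpanTop5

open TensorProduct IsLocalRing Module

section Local

variable {A : Type*} [CommRing A] [IsLocalRing A] {V : Type*} [AddCommGroup V] [Module A V]

/-- an endomorphism of a free module of finite rank whose reduction vanishes lies in `𝔪 • ⊤`. -/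
theorem mem_smul_top_of_baseChange_eq_zero {ι : Type*} [Fintype ι] [DecidableEq ι]
    (b : Basis ι A V) (Z : End A V)
    (hZ : Z.baseChange (ResidueField A) = 0) :
    Z ∈ maximalIdeal A • (⊤ : Submodule A (End A V)) := by
  set P := LinearMap.toMatrix b b Z with hP
  have hPmap : P.map (algebraMap A (ResidueField A)) = 0 := by
    rw [hP, ← LinearMap.toMatrix_baseChange, hZ, map_zero]
  have hmem : ∀ i j, P i j ∈ maximalIdeal A := by
    intro i j
    have h1 := congrFun (congrFun hPmap i) j
    rw [Matrix.map_apply, Matrix.zero_apply] at h1
    rw [← residue_eq_zero_iff]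
    exact h1
  have hZP : Z = Matrix.toLin b b P := by rw [hP, Matrix.toLin_toMatrix]
  rw [hZP, Matrix.matrix_eq_sum_single P, map_sum]
  refine Submodule.sum_mem _ fun i _ => ?_
  rw [map_sum]
  refine Submodule.sum_mem _ fun j _ => ?_
  have : Matrix.single i j (P i j) = P i j • Matrix.single i j (1 : A) := by
    rw [Matrix.smul_single, smul_eq_mul, mul_one]
  rw [this, map_smul]
  exact Submodule.smul_mem_smul (hmem i j) Submodule.mem_top

variable [Module.Free A V] [Module.Finite A V] {G : Type*} [Monoid G] (ρ : G →* End A V)

/-- **Nakayama**: if the residual representation spans the residual endomorphism algebra then the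
representation spans the endomorphism algebra. -/
theorem span_eq_top_of_residual
    (hspan : Submodule.span (ResidueField A)
      (Set.range fun g => (ρ g).baseChange (ResidueField A)) = ⊤) :
    Submodule.span A (Set.range ρ) = ⊤ := by
  classical
  let b := Module.Free.chooseBasis A V
  have hfg : (⊤ : Submodule A (End A V)).FG := Module.Finite.fg_top
  refine top_le_iff.mp (Submodule.le_of_le_smul_of_le_jacobson_bot (I := maximalIdeal A) hfg
    (maximalIdeal_le_jacobson ⊥) ?_)
  intro Y _
  obtain ⟨X, hX, hXE⟩ := Fermat.Agent.ES.ALG31.TraceRigid13.exists_lift_of_mem_span ρ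
    (E := Y.baseChange (ResidueField A)) (by rw [hspan]; exact Submodule.mem_top)
  have hZ : (Y - X).baseChange (ResidueField A) = 0 := by
    rw [LinearMap.baseChange_sub, hXE]
    refine LinearMap.ext fun v => ?_
    rw [LinearMap.sub_apply, LinearMap.zero_apply]
    exact sub_self _
  have := mem_smul_top_of_baseChange_eq_zero b (Y - X) hZ
  have e : Y = X + (Y - X) := by abel
  rw [e]
  exact Submodule.add_mem_sup hX this

end Local

section Adic

variable {A : Type} [CommRing A] [IsLocalRing A]

/-- the image of a residually absolutely irreducible `GaloisRepAdic` spans `End_A V`. -/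
theorem span_range_eq_top (ρ : GaloisRepAdic A) (habs : ρ.residual.IsAbsolutelyIrreducible) :
    Submodule.span A (Set.range ρ.ρ) = ⊤ :=
  span_eq_top_of_residual ρ.ρ
    (Fermat.Agent.ES.ALG31.TraceRigid13.residual_span_eq_top ρ habs)

end Adic

end Fermat.Agent.FF.S32.SpanTop5
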