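/-
Programme FF, chapter S32 (helper5), file S32Core5: **S32 from (K1) + (K2) + flatness of the torsion of
`J₀(N)`**.

`isFlatAt_of_inputs` : for a Hecke–Galois datum `H` of level `N` away from `S` (`p` odd, `p ∈ S`,
primes of `N` in `S`), if `J₀(N)[p]` is finite, the Tate comparison (K2) holds and every `J₀(N)[p^k]`
has a finite flat model over `ℤ_(p)` (`Transfer0.TorsFlat N p k`, the product of S19), then `H.ρ` is
flat at `p`.  Instantiation of `Abs5.exists_embedding_hmod` and `Chain5.hasFlatModel_level` with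
`M₀ = T_p J₀(N)`, as in `S31Core12`.
-/
import Mathlib
import Fermat.Prelude.Def_CuspForm_HeckeGaloisRepDatum
import Fermat.Prelude.Def_GaloisRep_Flat
import Fermat.Agent.ES.ALG31.S31Core12
import Fermat.Agent.ES.ALG31.Lucas15
import Fermat.Agent.ES.J.PadicAlg8
import Fermat.Agent.ES.PET.ReducedFinal17
import Fermat.Agent.S22
import Fermat.Agent.TW.FLAT.Points6
import Fermat.Agent.FF.LEVEL.Transfer0
import Fermat.Agent.FF.S32.Abs5
import Fermat.Agent.FF.S32.Chain5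
import Fermat.Agent.FF.S32.Reduced5
import Fermat.Agent.FF.S32.SpanTop5

set_option autoImplicit false
set_option linter.unusedSectionVars false
set_option linter.overlappingInstances false
set_option synthInstance.maxHeartbeats 400000

open Polynomial AlgebraicCurve ModularCurve CuspForm

noncomputable section

namespace Fermat.Agent.FF.S32.S32Core5

open Fermat.Agent.ES.ALG.RelDense9
  Fermat.Agent.ES.J.S30Glue8 Fermat.Agent.ES.J.TateJZero13 Fermat.Agent.ES.J.TateModule13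
  Fermat.Agent.ES.HEQ.FaithInst26 Fermat.Agent.ES.HEQ.FaithFinal26
  Fermat.Agent.ES.J.PadicAlg8 Fermat.Agent.FF.LEVEL.Transfer0
  Fermat.Agent.FF.S32.HeckeMod5 Fermat.Agent.FF.S32.Chain5
  Fermat.Agent.TW.FLAT.Points6 GaloisRep

local notation "Qb" => AlgebraicClosure ℚ
local notation "GQ" => (AlgebraicClosure ℚ ≃ₐ[ℚ] AlgebraicClosure ℚ)

variable {p : ℕ} [hp : Fact p.Prime] {N : ℕ} [NeZero N] {S : Finset ℕ}
  {𝒪 : Type} [CommRing 𝒪] [IsDomain 𝒪] [IsDiscreteValuationRing 𝒪]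
  [IsAdicComplete (IsLocalRing.maximalIdeal 𝒪) 𝒪]
  {θ : CuspForm.heckeAlgebra N 2 (↑S : Set ℕ) →+* IsLocalRing.ResidueField 𝒪}
  {T : Type} [CommRing T] [IsLocalRing T] [IsNoetherianRing T]
  [IsAdicComplete (IsLocalRing.maximalIdeal T) T] [Algebra 𝒪 T] [IsLocalHom (algebraMap 𝒪 T)]
  [Module.Finite 𝒪 T] [Module.Free 𝒪 T]

/-- the levels of the Tate module of `J₀(N)` embed into the torsion of `J₀(N)`. -/
theorem levelsFlat_rhoT (htf : ∀ k, TorsFlat N p k) : LevelsFlat (p := p) (rhoT p N) := by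
  intro k
  refine ⟨Submodule.torsionBy ℤ (JZero N) ((p : ℤ) ^ k), inferInstance,
    torsAct N ((p : ℤ) ^ k), htf k, ?_⟩
  have hmem : ∀ z : TJ p N, proj k z ∈ Submodule.torsionBy ℤ (JZero N) ((p : ℤ) ^ k) := by
    intro z
    rw [Submodule.mem_torsionBy_iff]
    have := pow_smul_proj k z
    rw [← natCast_zsmul] at this
    push_cast at this
    exact this
  let f : TJ p N →+ Submodule.torsionBy ℤ (JZero N) ((p : ℤ) ^ k) :=
    { toFun := fun z => ⟨proj k z, hmem z⟩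
      map_zero' := Subtype.ext (map_zero (proj k))
      map_add' := fun z w => Subtype.ext (map_add (proj k) z w) }
  refine ⟨f, ?_, ?_⟩
  · intro g z
    apply Subtype.ext
    rfl
  · intro z hz
    have : proj k z = 0 := congrArg Subtype.val hz
    exact (proj_eq_zero_iff' k z).mp this

/-- the residue field of `T` is finite. -/
theorem finite_residueField [Finite (IsLocalRing.ResidueField 𝒪)]
    (H : CuspForm.HeckeGaloisRepDatum N (↑S : Set ℕ) 𝒪 θ T) :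
    Finite (IsLocalRing.ResidueField T) := by
  refine Finite.of_surjective (IsLocalRing.ResidueField.map (algebraMap 𝒪 T)) ?_
  intro y
  obtain ⟨a, ha⟩ := H.residue_surjective y
  exact ⟨IsLocalRing.residue 𝒪 a, ha⟩

/-- **S32 from (K1) + (K2) + flatness of `J₀(N)[p^k]`.** -/
theorem isFlatAt_of_inputs [Finite (IsLocalRing.ResidueField 𝒪)] [CharZero 𝒪]
    (hp2 : p ≠ 2) (hp𝒪 : (p : 𝒪) ∈ IsLocalRing.maximalIdeal 𝒪) (hpS : p ∈ S)
    (hNS : ∀ q : ℕ, q.Prime → q ∣ N → q ∈ S)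
    (hfin : {y : JZero N | p • y = 0}.Finite) (hcmp : TateComparison p N)
    (htf : ∀ k, TorsFlat N p k)
    (H : CuspForm.HeckeGaloisRepDatum N (↑S : Set ℕ) 𝒪 θ T) :
    H.ρ.IsFlatAt p := by
  classical
  obtain ⟨ι₀, hbc, hheck⟩ := hcmp
  have hS : ∀ q : ℕ, q.Prime → q ∣ N → q ∈ (↑S : Set ℕ) := fun q hq hqN => by
    exact_mod_cast hNS q hq hqN
  have hne_p : ∀ ℓ : ℕ, ℓ ∉ (↑S : Set ℕ) → ℓ ≠ p := fun ℓ hℓS h => hℓS (by exact_mod_cast h ▸ hpS)
  have hpT : (p : T) ∈ IsLocalRing.maximalIdeal T :=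
    Fermat.Agent.ES.ALG31.S31Core12.natCast_mem_maximalIdeal hp𝒪
  let _ : Algebra ℤ_[p] T := (padicToLocal p hpT).toAlgebra
  -- `T` is reduced
  have : IsReduced (heckeAlgebra N 2 (↑S : Set ℕ)) :=
    Fermat.Agent.ES.PET.ReducedFinal17.isReduced_heckeAlgebra N (↑S : Set ℕ) hS
  have : Module.Finite ℤ (heckeAlgebra N 2 (↑S : Set ℕ)) := Fermat.Agent.S22.result N 2 _
  have : IsReduced T :=
    Reduced5.isReduced_of_adjoin (𝒪 := 𝒪) (fun r => IsIntegral.of_finite ℤ r) H.π H.adjoin_range_π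
  obtain ⟨hfinT, hfreeT⟩ := finite_free (p := p) (N := N) hfin
  -- the Hecke data
  let ι : Type := {ℓ : ℕ // ℓ.Prime ∧ ¬ ℓ ∣ N ∧ ℓ ∉ (↑S : Set ℕ)}
  let tM : ι → Module.End ℤ_[p] (TJ p N) := fun i => tT p N ⟨i.1, i.2.1⟩
  let gen : ι → ↥(heckeAlgebra N 2 (↑S : Set ℕ)) := fun i =>
    heckeAlgebra.T i.2.1 i.2.2.1 i.2.2.2
  have hcomm : ∀ g i, Commute (rhoT p N g) (tM i) := fun g i => commute_rhoT_tT g _
  let hL : ↥(heckeAlgebra N 2 (↑S : Set ℕ)) →+* Module.End ℤ ↥(Lam N) :=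
    (heckeLam (N := N) (↑S : Set ℕ) hS).toRingHom
  have hLinj : Function.Injective hL := heckeLam_injective (↑S : Set ℕ) hS
  have hheck' : ∀ i x, tM i (ι₀ x) = ι₀ (hL (gen i) x) := by
    intro i x
    rw [hheck i.1 i.2.1 i.2.2.1 x]
    congr 1
    exact (LinearMap.congr_fun (heckeLam_T' (↑S : Set ℕ) hS i.1 i.2.1 i.2.2.1 i.2.2.2) x).symm
  -- Frobenius data
  let Φ : GQ → ι → ℕ → Prop := fun φ i n =>
    n = i.1 ∧ ∃ A : ValuationSubring Qb, A.LiesOverPrime i.1 ∧ A.IsFrobeniusAt φ i.1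
  have hΦM : ∀ φ i n, Φ φ i n → rhoT p N φ * rhoT p N φ - tM i * rhoT p N φ
      + (n : ℤ_[p]) • (1 : Module.End ℤ_[p] (TJ p N)) = 0 := by
    rintro φ i n ⟨rfl, A, hA, hφ⟩
    exact rhoT_frobenius (p := p) (N := N) i.2.1 i.2.2.1 (hne_p i.1 i.2.2.2) hA hφ
  have hΦV : ∀ φ i n, Φ φ i n →
      LinearMap.trace T H.ρ.V (H.ρ.ρ φ) = H.π (gen i) ∧ LinearMap.det (H.ρ.ρ φ) = (n : T) := by
    rintro φ i n ⟨rfl, A, hA, hφ⟩
    exact Fermat.Agent.ES.ALG31.Lucas15.trace_det_of_charpoly H.ρ.finrank_eq _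
      (H.charpoly_frob i.1 i.2.1 i.2.2.1 i.2.2.2 A hA φ hφ)
  have hdense : ∀ (m : ℕ) (g : GQ), ∃ φ i n, ∃ j : ℕ, Φ φ i n ∧
      EndCongr (IsLocalRing.maximalIdeal T ^ m) (H.ρ.ρ (g⁻¹ * φ ^ j)) 1 ∧
      ∀ x, ∃ y, rhoT p N (g⁻¹ * φ ^ j) x - x = ((p : ℤ_[p]) ^ m) • y := by
    intro m g
    obtain ⟨L₁, hL₁, h1⟩ := H.ρ.isAdicContinuous m
    obtain ⟨L₂, hL₂, h2⟩ := rhoT_continuous (p := p) (N := N) hfin m
    have := hL₁
    have := hL₂
    obtain ⟨ℓ, A, φ, j, hℓ, hℓS, hA, hφ, hj⟩ :=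
      Fermat.Agent.ES.GAL.ChebQbar23.exists_frobenius_inv_mul_pow_fixes (L₁ ⊔ L₂) g S
    have hℓS' : ℓ ∉ (↑S : Set ℕ) := by simpa using hℓS
    have hℓN : ¬ ℓ ∣ N := fun hdvd => hℓS (hNS ℓ hℓ hdvd)
    refine ⟨φ, ⟨ℓ, hℓ, hℓN, hℓS'⟩, ℓ, j, ⟨rfl, A, hA, hφ⟩, ?_, ?_⟩
    · intro v
      rw [Module.End.one_apply]
      exact h1 _ (fun x hx => hj x (le_sup_left (a := L₁) (b := L₂) hx)) v
    · exact h2 _ (fun x hx => hj x (le_sup_right (a := L₁) (b := L₂) hx))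
  have hspan := SpanTop5.span_range_eq_top H.ρ H.residual_absIrr
  obtain ⟨J, hJ, hJσ⟩ := Abs5.exists_embedding_hmod hp2 hpT hcomm hL hLinj ι₀ hbc gen hheck' H.π
    H.ρ.finrank_eq H.ρ.ρ hspan Φ hΦM hΦV hdense
  -- the flat chain
  rw [isFlatAt_iff]
  refine ⟨finite_residueField H, fun I hI => ?_⟩
  have := hI
  exact hasFlatModel_level hpT H.ρ.ρ (mkW (tM := tM) (fun i => H.π (gen i)))
    (mkW_surjective _) (fun g w => (sigma_mkW _ hcomm g w).symm) (levelsFlat_rhoT htf)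
    J hJ hJσ I (fun σ => H.ρ.levelAction I σ) (fun g v => rfl)

end Fermat.Agent.FF.S32.S32Core5
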