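/-
Programme FF, chapter S32 (helper5), file S32Final5: **the frozen statement S32 from the flatness of the
torsion of `J₀(N)`** (the product `Transfer0.TorsFlat N p k` of the S19 chain), with (K1) and (K2)
discharged as in `S31.lean`.
-/
import Fermat.Agent.FF.S32.S32Core5
import Fermat.Agent.ES.J.S30Final8
import Fermat.Agent.ES.J.KummerSystemJ8

set_option autoImplicit false
variable {p : ℕ} {N : ℕ} [NeZero N] {S : Finset ℕ}
  {𝒪 : Type} [CommRing 𝒪] [IsDomain 𝒪] [IsDiscreteValuationRing 𝒪]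
  [IsAdicComplete (IsLocalRing.maximalIdeal 𝒪) 𝒪]
  {θ : CuspForm.heckeAlgebra N 2 (↑S : Set ℕ) →+* IsLocalRing.ResidueField 𝒪}
  {T : Type} [CommRing T] [IsLocalRing T] [IsNoetherianRing T]
  [IsAdicComplete (IsLocalRing.maximalIdeal T) T] [Algebra 𝒪 T] [IsLocalHom (algebraMap 𝒪 T)]
  [Module.Finite 𝒪 T] [Module.Free 𝒪 T]
open CuspForm CuspForm.HeckeGaloisRepDatum

namespace Fermat.Agent.FF.S32.S32Final5

/-- **S32 from `TorsFlat`.**  The hypotheses are those of the frozen statement S32 plus the flatness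
of `J₀(N)[p^k]` for all `k`. -/
theorem s32_of_torsFlat
    [Finite (IsLocalRing.ResidueField 𝒪)] [CharZero 𝒪]
    (htf : ∀ k, Fermat.Agent.FF.LEVEL.Transfer0.TorsFlat N p k)
    (hp : p.Prime) (hp2 : p ≠ 2) (hp𝒪 : (p : 𝒪) ∈ IsLocalRing.maximalIdeal 𝒪)
    (hpS : p ∈ S) (hNS : ∀ q : ℕ, q.Prime → q ∣ N → q ∈ S)
    (H : CuspForm.HeckeGaloisRepDatum N (↑S : Set ℕ) 𝒪 θ T) :
    H.ρ.IsFlatAt p :=
  haveI : Fact p.Prime := ⟨hp⟩
  Fermat.Agent.FF.S32.S32Core5.isFlatAt_of_inputs hp2 hp𝒪 hpS hNS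
    (Fermat.Agent.ES.J.S30Final8.k1 p N)
    (Fermat.Agent.ES.J.K2Final11.k2 (Fermat.Agent.ES.J.KummerSystemJ8.kummerSystemJ p N)
      (Fermat.Agent.ES.J.KummerSystemJ8.heckeCompatJ p N))
    htf H

end Fermat.Agent.FF.S32.S32Final5
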